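import Mathlib

/-!
# Additive functions of finite modules over a finite ring of characteristic `p`

An additive function of finite modules only depends on the ranks of the idempotents of the ring.
-/

set_option autoImplicit false

noncomputable section

namespace Fermat.Agent.EulerChar

/-- In a finite monoid some positive power of every element is idempotent. -/
theorem exists_pow_isIdempotentElem {M : Type*} [Monoid M] [Finite M] (r : M) :
    ∃ k : ℕ, 0 < k ∧ IsIdempotentElem (r ^ k) := by
  obtain ⟨a, b, hab, heq⟩ := Finite.exists_ne_map_eq_of_infinite (fun k : ℕ => r ^ (k + 1))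
  wlog hlt : a < b generalizing a b
  · exact this b a hab.symm heq.symm (by omega)
  -- period `d` from exponent `a + 1` on
  set d := b - a with hd
  have hper : ∀ s c : ℕ, a + 1 ≤ s → r ^ (s + c * d) = r ^ s := by
    intro s c hs
    induction c with
    | zero => simp
    | succ c ih =>
      have e1 : r ^ (s + d) = r ^ s := by
        obtain ⟨u, rfl⟩ := Nat.exists_eq_add_of_le hs
        rw [show a + 1 + u + d = (b + 1) + u by omega, pow_add, ← heq, ← pow_add]
      rw [show s + (c + 1) * d = (s + d) + c * d by ring, pow_add, e1, ← pow_add, ih]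
  refine ⟨(a + 1) * d, Nat.mul_pos (by omega) (by omega), ?_⟩
  rw [IsIdempotentElem, ← pow_add, hper _ (a + 1)]
  exact Nat.le_mul_of_pos_right _ (by omega)

variable (R : Type) [Ring R]

/-- Functions of `R`-modules. -/
abbrev ModFun : Type 1 := ∀ (V : Type) [AddCommGroup V] [Module R V], ℤ

variable {R}

/-- Additivity on short exact sequences of finite modules. -/
def IsAdditive (Φ : ModFun R) : Prop :=
  ∀ (A B C : Type) [AddCommGroup A] [Module R A] [AddCommGroup B] [Module R B] [AddCommGroup C]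
    [Module R C] [Finite A] [Finite B] [Finite C] (i : A →ₗ[R] B) (π : B →ₗ[R] C),
    Function.Injective i → Function.Surjective π → Function.Exact i π → Φ B = Φ A + Φ C

theorem IsAdditive.subsingleton {Φ : ModFun R} (h : IsAdditive Φ) (A : Type) [AddCommGroup A]
    [Module R A] [Subsingleton A] : Φ A = 0 := by
  have := h A A A LinearMap.id LinearMap.id Function.injective_id Function.surjective_id
    (fun a => ⟨fun _ => ⟨a, rfl⟩, fun _ => Subsingleton.elim _ _⟩)
  omega

theorem IsAdditive.congr {Φ : ModFun R} (h : IsAdditive Φ) {A B : Type} [AddCommGroup A]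
    [Module R A] [AddCommGroup B] [Module R B] [Finite A] [Finite B] (e : A ≃ₗ[R] B) :
    Φ A = Φ B := by
  have := h A B PUnit e.toLinearMap 0 e.injective (fun x => ⟨0, Subsingleton.elim _ _⟩)
    (fun b => ⟨fun _ => ⟨e.symm b, e.apply_symm_apply b⟩, fun _ => Subsingleton.elim _ _⟩)
  rw [h.subsingleton PUnit] at this
  omega

variable [Finite R]

omit [Finite R] in
instance finite_quotient (V : Type) [AddCommGroup V] [Module R V] [Finite V] (S : Submodule R V) :
    Finite (V ⧸ S) :=
  Finite.of_surjective _ S.mkQ_surjective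

variable (R) in
/-- The simple quotients of the ring, indexing the simple modules. -/
abbrev SimpleIdx : Type := {L : Submodule R R // IsSimpleModule R (R ⧸ L)}

instance isSimpleModule_quot (L : SimpleIdx R) : IsSimpleModule R (R ⧸ L.1) := L.2

instance finite_simpleIdx : Finite (SimpleIdx R) := inferInstance

/-- Dévissage to simple modules. -/
theorem exists_multiplicities [Fintype (SimpleIdx R)] (V : Type) [AddCommGroup V] [Module R V]
    [Finite V] : ∃ m : SimpleIdx R → ℤ, ∀ Φ : ModFun R, IsAdditive Φ →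
      Φ V = ∑ L, m L * Φ (R ⧸ L.1) := by
  classical
  induction hn : Nat.card V using Nat.strong_induction_on generalizing V with
  | _ n ih =>
  rcases subsingleton_or_nontrivial V with hV | hV
  · exact ⟨0, fun Φ hΦ => by simp [hΦ.subsingleton V]⟩
  obtain hbot | ⟨S, hS, -⟩ := eq_bot_or_exists_atom_le (⊤ : Submodule R V)
  · exact absurd hbot top_ne_bot
  have hsimple : IsSimpleModule R S := isSimpleModule_iff_isAtom.mpr hS
  obtain ⟨I, hI, ⟨e⟩⟩ := isSimpleModule_iff_quot_maximal.mp hsimple
  let L : SimpleIdx R := ⟨I, IsSimpleModule.congr e.symm⟩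
  have : Nontrivial S := IsSimpleModule.nontrivial R S
  have hlt : Nat.card (V ⧸ S) < n := by
    rw [← hn, Submodule.card_eq_card_quotient_mul_card S]
    exact lt_mul_of_one_lt_left Nat.card_pos Finite.one_lt_card
  obtain ⟨m, hm⟩ := ih _ hlt (V ⧸ S) rfl
  refine ⟨m + Pi.single L 1, fun Φ hΦ => ?_⟩
  rw [hΦ S V (V ⧸ S) S.subtype S.mkQ S.injective_subtype (Submodule.mkQ_surjective S)
    (LinearMap.exact_subtype_mkQ S), hm Φ hΦ, hΦ.congr (e : S ≃ₗ[R] R ⧸ L.1)]
  simp [Pi.add_apply, add_mul, Finset.sum_add_distrib, Pi.single_apply, add_comm, L]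

/-- An idempotent equal to `1` on one simple module and to `0` on all others. -/
theorem exists_idempotent_separating (L₀ : SimpleIdx R) :
    ∃ e : R, IsIdempotentElem e ∧
      (∀ L : SimpleIdx R, Nonempty ((R ⧸ L.1) ≃ₗ[R] R ⧸ L₀.1) → ∀ x : R ⧸ L.1, e • x = x) ∧
      ∀ L : SimpleIdx R, IsEmpty ((R ⧸ L.1) ≃ₗ[R] R ⧸ L₀.1) → ∀ x : R ⧸ L.1, e • x = 0 := by
  classical
  let := Fintype.ofFinite (SimpleIdx R)
  let M := ∀ L : SimpleIdx R, R ⧸ L.1
  let t : SimpleIdx R → Prop := fun L => Nonempty ((R ⧸ L.1) ≃ₗ[R] R ⧸ L₀.1)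
  have hzero : ∀ i j, ¬ (t i ↔ t j) → ∀ f : (R ⧸ i.1) →ₗ[R] R ⧸ j.1, f = 0 := by
    intro i j hij f
    refine (LinearMap.bijective_or_eq_zero f).resolve_left fun hb => hij ?_
    let e := LinearEquiv.ofBijective f hb
    exact ⟨fun ⟨g⟩ => ⟨e.symm.trans g⟩, fun ⟨g⟩ => ⟨e.trans g⟩⟩
  let f : Module.End (Module.End R M) M :=
    { toFun := fun x L => if t L then x L else 0
      map_add' := fun x y => funext fun L => by
        show (if t L then x L + y L else 0) = (if t L then x L else 0) + if t L then y L else 0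
        split_ifs <;> simp
      map_smul' := fun φ x => funext fun j => by
        have key : ∀ y : M, φ y j = ∑ i, φ (Pi.single i (y i)) j := fun y => by
          conv_lhs => rw [← Finset.univ_sum_single y]
          rw [map_sum, Finset.sum_apply]
        have hcomp : ∀ i (z : R ⧸ i.1), ¬ (t i ↔ t j) → φ (Pi.single i z) j = 0 := fun i z hij =>
          LinearMap.congr_fun (hzero i j hij
            (((LinearMap.proj j).comp φ).comp
              (LinearMap.single R (fun L : SimpleIdx R => R ⧸ L.1) i))) z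
        simp only [Module.End.smul_def, RingHom.id_apply]
        rw [key, key (fun L => if t L then x L else 0)]
        by_cases hj : t j
        · rw [if_pos hj]
          refine Finset.sum_congr rfl fun i _ => ?_
          by_cases hi : t i
          · simp [hi]
          · rw [hcomp i (x i) (by tauto)]; simp [hi]; rfl
        · rw [if_neg hj]
          refine (Finset.sum_eq_zero fun i _ => ?_).symm
          by_cases hi : t i
          · exact hcomp i _ (by tauto)
          · simp [hi]; rfl }
  have : Finite M := inferInstance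
  let := Fintype.ofFinite M
  obtain ⟨r, hr⟩ := jacobson_density f Finset.univ
  have hr' : ∀ (L : SimpleIdx R) (x : R ⧸ L.1), r • x = if t L then x else 0 := fun L x => by
    have := congrFun (hr (Pi.single L x) (Finset.mem_univ _)) L
    simp only [f, LinearMap.coe_mk, AddHom.coe_mk, Pi.single_eq_same] at this
    have e : (r • (Pi.single L x : M)) L = r • ((Pi.single L x : M) L) := rfl
    rw [this, e, Pi.single_eq_same]
  obtain ⟨k, hk, hidem⟩ := exists_pow_isIdempotentElem r
  refine ⟨r ^ k, hidem, fun L hL x => ?_, fun L hL x => ?_⟩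
  · clear hk hidem
    induction k with
    | zero => simp
    | succ k ih => rw [pow_succ, mul_smul, hr' L x, if_pos hL, ih]
  · obtain ⟨k, rfl⟩ : ∃ j, k = j + 1 := ⟨k - 1, by omega⟩
    rw [pow_succ, mul_smul, hr' L x, if_neg (not_nonempty_iff.mpr hL), smul_zero]

section Rank

variable (p : ℕ) [Fact p.Prime]

/-- The `p`-dimension of `e V`. -/
def eRank (e : R) : ModFun R := fun V _ _ =>
  (padicValNat p (Nat.card (DistribSMul.toAddMonoidHom V e).range) : ℤ)

omit [Finite R] in
theorem isAdditive_eRank {e : R} (he : IsIdempotentElem e) : IsAdditive (eRank p e) := by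
  intro A B C _ _ _ _ _ _ _ _ _ i π hi hπ hex
  set fA := (DistribSMul.toAddMonoidHom A e).range
  set fB := (DistribSMul.toAddMonoidHom B e).range
  set fC := (DistribSMul.toAddMonoidHom C e).range
  let ψ : fB →+ fC := (π.toAddMonoidHom.comp fB.subtype).codRestrict fC fun b => by
    obtain ⟨x, hx⟩ := b.2
    exact ⟨π x, (map_smul π e x).symm.trans (congrArg π hx)⟩
  have hψ : Function.Surjective ψ := by
    rintro ⟨_, c, rfl⟩
    obtain ⟨b, rfl⟩ := hπ c
    exact ⟨⟨e • b, b, rfl⟩, Subtype.ext (map_smul π e b)⟩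
  let ε : fA ≃ ψ.ker := Equiv.ofBijective
    (fun a => ⟨⟨i a, by
      obtain ⟨x, hx⟩ := a.2
      exact ⟨i x, (map_smul i e x).symm.trans (congrArg i hx)⟩⟩,
        Subtype.ext (hex.apply_apply_eq_zero _)⟩)
    ⟨fun a a' h => Subtype.ext (hi (congrArg (fun z => ((z.1 : fB) : B)) h)),
     fun ⟨⟨b, hb⟩, hz⟩ => by
      obtain ⟨a, ha⟩ := (hex b).mp (congrArg Subtype.val hz)
      obtain ⟨x, hx⟩ := hb
      refine ⟨⟨e • a, a, rfl⟩, Subtype.ext (Subtype.ext ?_)⟩
      show i (e • a) = b
      rw [map_smul, ha, ← hx]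
      show e • e • x = e • x
      rw [smul_smul, he.eq]⟩
  have hcard : Nat.card fB = Nat.card fA * Nat.card fC := by
    rw [Nat.card_congr ε, ← AddSubgroup.card_mul_index ψ.ker, AddSubgroup.index_ker,
      AddMonoidHom.range_eq_top_of_surjective ψ hψ, AddSubgroup.card_top]
  simp only [eRank]
  rw [hcard, padicValNat.mul Nat.card_pos.ne' Nat.card_pos.ne', Nat.cast_add]

omit [Finite R] [Fact p.Prime] in
theorem eRank_of_eq_zero {e : R} (V : Type) [AddCommGroup V] [Module R V]
    (h : ∀ x : V, e • x = 0) : eRank p e V = 0 := by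
  have : (DistribSMul.toAddMonoidHom V e).range = ⊥ := by
    rw [AddMonoidHom.range_eq_bot_iff]; exact AddMonoidHom.ext h
  simp [eRank, this]

omit [Finite R] [Fact p.Prime] in
theorem eRank_of_eq_id {e : R} (V : Type) [AddCommGroup V] [Module R V]
    (h : ∀ x : V, e • x = x) : eRank p e V = padicValNat p (Nat.card V) := by
  have : (DistribSMul.toAddMonoidHom V e).range = ⊤ :=
    AddMonoidHom.range_eq_top.mpr fun x => ⟨x, h x⟩
  simp [eRank, this]

variable {p}

omit [Finite R] in
theorem padicValNat_card_pos (hp0 : (p : R) = 0) (V : Type) [AddCommGroup V] [Module R V]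
    [Finite V] [Nontrivial V] : 0 < padicValNat p (Nat.card V) := by
  obtain ⟨x, hx⟩ := exists_ne (0 : V)
  have hpx : p • x = 0 := by rw [← Nat.cast_smul_eq_nsmul R, hp0, zero_smul]
  refine Nat.pos_of_ne_zero fun h => ?_
  have hdvd : p ∣ Nat.card V := by
    rw [← addOrderOf_eq_prime hpx hx]; exact addOrderOf_dvd_natCard x
  rcases padicValNat.eq_zero_iff.mp h with h' | h' | h'
  · exact (Fact.out : p.Prime).one_lt.ne' h'
  · exact Nat.card_pos.ne' h'
  · exact h' hdvd

/-- **Determination**: an additive function vanishes on a combination of modules whose idempotent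
ranks all vanish. -/
theorem sum_eq_zero_of_eRank (hp0 : (p : R) = 0) {ι : Type} (s : Finset ι) (c : ι → ℤ)
    (V : ι → Type) [∀ i, AddCommGroup (V i)] [∀ i, Module R (V i)] [∀ i, Finite (V i)]
    (h : ∀ e : R, IsIdempotentElem e → ∑ i ∈ s, c i * eRank p e (V i) = 0)
    {Φ : ModFun R} (hΦ : IsAdditive Φ) : ∑ i ∈ s, c i * Φ (V i) = 0 := by
  classical
  let := Fintype.ofFinite (SimpleIdx R)
  choose m hm using fun i => exists_multiplicities (R := R) (V i)
  set d : SimpleIdx R → ℤ := fun L => ∑ i ∈ s, c i * m i L with hd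
  have hexp : ∀ Ψ : ModFun R, IsAdditive Ψ →
      ∑ i ∈ s, c i * Ψ (V i) = ∑ L, d L * Ψ (R ⧸ L.1) := fun Ψ hΨ => by
    simp only [hd, Finset.sum_mul, hm _ Ψ hΨ, Finset.mul_sum]
    rw [Finset.sum_comm]
    exact Finset.sum_congr rfl fun L _ => Finset.sum_congr rfl fun i _ => by ring
  let st : Setoid (SimpleIdx R) :=
    ⟨fun L L' => Nonempty ((R ⧸ L.1) ≃ₗ[R] R ⧸ L'.1), ⟨fun L => ⟨LinearEquiv.refl R _⟩,
      fun ⟨e⟩ => ⟨e.symm⟩, fun ⟨e⟩ ⟨e'⟩ => ⟨e.trans e'⟩⟩⟩
  rw [hexp Φ hΦ, ← Finset.sum_fiberwise Finset.univ (Quotient.mk st)]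
  refine Finset.sum_eq_zero fun q _ => ?_
  induction q using Quotient.inductionOn with | _ L₀ =>
  set F := Finset.univ.filter fun L => Quotient.mk st L = Quotient.mk st L₀
  have hF : ∀ L, L ∈ F ↔ Nonempty ((R ⧸ L.1) ≃ₗ[R] R ⧸ L₀.1) := fun L => by
    simp only [F, Finset.mem_filter, Finset.mem_univ, true_and]
    exact ⟨Quotient.exact, fun h => Quotient.sound h⟩
  suffices hsum : ∑ L ∈ F, d L = 0 by
    have : ∀ L ∈ F, d L * Φ (R ⧸ L.1) = d L * Φ (R ⧸ L₀.1) := fun L hL => by
      obtain ⟨e⟩ := (hF L).mp hL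
      rw [hΦ.congr e]
    rw [Finset.sum_congr rfl this, ← Finset.sum_mul, hsum, zero_mul]
  obtain ⟨e, he, he1, he0⟩ := exists_idempotent_separating L₀
  have key := h e he
  rw [hexp _ (isAdditive_eRank p he), ← Finset.sum_subset (Finset.subset_univ F) fun L _ hL => ?_,
    Finset.sum_congr rfl (g := fun L => d L * (padicValNat p (Nat.card (R ⧸ L₀.1)) : ℤ))
      fun L hL => ?_, ← Finset.sum_mul] at key
  · have : Nontrivial (R ⧸ L₀.1) := IsSimpleModule.nontrivial R _
    exact (mul_eq_zero.mp key).resolve_right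
      (by exact_mod_cast (padicValNat_card_pos hp0 (R ⧸ L₀.1)).ne')
  · rw [eRank_of_eq_id p _ (he1 L ((hF L).mp hL)), Nat.card_congr ((hF L).mp hL).some.toEquiv]
  · rw [eRank_of_eq_zero p _ (he0 L (not_nonempty_iff.mp fun h' => hL ((hF L).mpr h'))), mul_zero]

end Rank

end Fermat.Agent.EulerChar

end
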