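import Fermat.Agent.EulerChar.Additive

/-!
# Artin induction for additive functions of `F_p[G]`-modules

An additive function vanishes on combinations of permutation modules with vanishing fixed point
counts; hence it is determined by the permutation modules of cyclic subgroups.
-/

set_option autoImplicit false

noncomputable section

open MonoidAlgebra

namespace Fermat.Agent.EulerChar

variable {G : Type} [Group G]

section Perm

variable (k : Type) [CommRing k] (X : Type)

/-- Functions `X → k` as a permutation module. -/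
def Perm : Type := X → k

instance addCommGroupPerm : AddCommGroup (Perm k X) := inferInstanceAs (AddCommGroup (X → k))

instance finitePerm [Finite k] [Finite X] : Finite (Perm k X) :=
  inferInstanceAs (Finite (X → k))

variable [MulAction G X]

variable (G) in
/-- The permutation representation. -/
def permRep : G →* Module.End k (X → k) where
  toFun g := LinearMap.funLeft k k fun x => g⁻¹ • x
  map_one' := LinearMap.ext fun f => funext fun x => by simp
  map_mul' g h := LinearMap.ext fun f => funext fun x => by
    simp [LinearMap.funLeft_apply, mul_smul]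

variable (G) in
/-- The action of the group algebra. -/
def permAlg : MonoidAlgebra k G →ₐ[k] Module.End k (X → k) :=
  MonoidAlgebra.lift k (Module.End k (X → k)) G (permRep G k X)

instance modulePerm : Module (MonoidAlgebra k G) (Perm k X) :=
  letI : Module (Module.End k (X → k)) (Perm k X) :=
    inferInstanceAs (Module (Module.End k (X → k)) (X → k))
  Module.compHom (Perm k X) (permAlg G k X).toRingHom

theorem perm_smul_def (r : MonoidAlgebra k G) (f : Perm k X) :
    r • f = permAlg G k X r f := rfl

theorem perm_single_smul (g : G) (c : k) (f : Perm k X) :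
    (MonoidAlgebra.single g c • f : Perm k X) = fun x => c * f (g⁻¹ • x) := by
  rw [perm_smul_def, permAlg, MonoidAlgebra.lift_single]
  rfl

variable (G) in
/-- The matrix of the action. -/
def permMat [Fintype X] [DecidableEq X] : MonoidAlgebra k G →ₐ[k] Matrix X X k :=
  LinearMap.toMatrixAlgEquiv'.toAlgHom.comp (permAlg G k X)

theorem permMat_single [Fintype X] [DecidableEq X] (g : G) (c : k) (x y : X) :
    permMat G k X (MonoidAlgebra.single g c) x y = if g • y = x then c else 0 := by
  have h : permMat G k X (MonoidAlgebra.single g c) x y =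
      permAlg G k X (MonoidAlgebra.single g c) (fun i => if i = y then 1 else 0) x :=
    (LinearMap.toMatrixAlgEquiv'_apply _ _ _).trans (by
      rw [show (Pi.single y (1 : k) : X → k) = fun i => if i = y then 1 else 0 from
        funext fun i => Pi.single_apply y 1 i]
      rfl)
  rw [h, permAlg, MonoidAlgebra.lift_single]
  show c * (if g⁻¹ • x = y then (1 : k) else 0) = _
  simp only [inv_smul_eq_iff, eq_comm (a := x), mul_ite, mul_one, mul_zero]

theorem trace_permMat [Fintype X] [DecidableEq X] [Fintype G] (r : MonoidAlgebra k G) :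
    (permMat G k X r).trace = ∑ g : G, r.coeff g * (Nat.card {x : X // g • x = x} : k) := by
  classical
  induction r using MonoidAlgebra.induction_linear with
  | zero => simp
  | add a b ha hb => simp [Matrix.trace_add, ha, hb, add_mul, Finset.sum_add_distrib]
  | single g c =>
    simp only [Matrix.trace, Matrix.diag_apply, permMat_single, Finset.sum_ite,
      Finset.sum_const_zero, add_zero, Finset.sum_const, nsmul_eq_mul]
    rw [Finset.sum_eq_single g (fun h _ hh => by simp [hh.symm])
      (fun h => absurd (Finset.mem_univ g) h),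
      Nat.card_eq_fintype_card, Fintype.card_subtype]
    simp [mul_comm]

variable {k}

theorem permMat_map {k' : Type} [CommRing k'] [Fintype X] [DecidableEq X] (π : k →+* k')
    (r : MonoidAlgebra k G) :
    (permMat G k X r).map π = permMat G k' X (MonoidAlgebra.mapRingHom G π r) := by
  induction r using MonoidAlgebra.induction_linear with
  | zero => simp
  | add a b ha hb => rw [map_add, Matrix.map_add π (map_add π), ha, hb, map_add, map_add]
  | single g c =>
    ext x y
    rw [MonoidAlgebra.mapRingHom_single, Matrix.map_apply, permMat_single, permMat_single]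
    split_ifs <;> simp

end Perm

section Lift

variable {p : ℕ} [hp : Fact p.Prime] {n : ℕ}

/-- An idempotent matrix over `ℤ/pⁿ` has trace the rank of its reduction. -/
theorem trace_eq_rank {X : Type} [Fintype X] [DecidableEq X] (hn : n ≠ 0)
    (M : Matrix X X (ZMod (p ^ n))) (hM : M * M = M) :
    M.trace = (Module.finrank (ZMod p)
      (LinearMap.range (Matrix.toLin' (M.map (ZMod.castHom (dvd_pow_self p hn) (ZMod p))))) :
        ZMod (p ^ n)) := by
  classical
  set π := ZMod.castHom (dvd_pow_self p hn) (ZMod p)
  set E : Module.End (ZMod p) (X → ZMod p) := Matrix.toLin' (M.map π)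
  have hE : E * E = E := by
    rw [Module.End.mul_eq_comp, ← Matrix.toLin'_mul, ← Matrix.map_mul, hM]
  have hproj : LinearMap.IsProj (LinearMap.range E) E :=
    ⟨fun x => ⟨x, rfl⟩, fun x ⟨y, hy⟩ => by
      rw [← hy, ← Module.End.mul_apply, hE]⟩
  set r := Module.finrank (ZMod p) (LinearMap.range E)
  set s := Module.finrank (ZMod p) (LinearMap.ker E)
  let b₀ : Module.Basis (Fin r ⊕ Fin s) (ZMod p) (X → ZMod p) :=
    ((Module.finBasis (ZMod p) (LinearMap.range E)).prod
      (Module.finBasis (ZMod p) (LinearMap.ker E))).map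
      (Submodule.prodEquivOfIsCompl _ _ hproj.isCompl)
  let σ : Fin r ⊕ Fin s ≃ X := b₀.indexEquiv (Pi.basisFun (ZMod p) X)
  set b := b₀.reindex σ
  set d : X → ℕ := fun x => if (σ.symm x).isLeft then 1 else 0
  have hb : ∀ x, E (b x) = (d x : ZMod p) • b x := fun x => by
    rw [Module.Basis.reindex_apply, show d x = if (σ.symm x).isLeft then 1 else 0 from rfl]
    rcases σ.symm x with i | i
    · simp only [b₀, Module.Basis.map_apply, Sum.isLeft_inl, if_pos, Nat.cast_one, one_smul]
      simp [hproj.map_id]
    · simp only [b₀, Module.Basis.map_apply, Sum.isLeft_inr]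
      simp [LinearMap.mem_ker.mp ((Module.finBasis (ZMod p) (LinearMap.ker E)) i).2]
  -- lift the change of basis
  set U : Matrix X X (ZMod p) := Matrix.of fun y x => b x y
  have hUD : M.map π * U = U * Matrix.diagonal (fun x => (d x : ZMod p)) := by
    ext y x
    rw [Matrix.mul_diagonal]
    have := congrFun (hb x) y
    simp only [E, Matrix.toLin'_apply, Pi.smul_apply, smul_eq_mul] at this
    rw [mul_comm]
    simpa [U, Matrix.mul_apply, Matrix.mulVec, dotProduct] using this
  have hUunit : IsUnit U := by
    have : U = (Pi.basisFun (ZMod p) X).toMatrix b := by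
      ext y x; simp [U, Module.Basis.toMatrix_apply]
    rw [this]
    exact ⟨⟨_, _, Module.Basis.toMatrix_mul_toMatrix_flip _ _,
      Module.Basis.toMatrix_mul_toMatrix_flip _ _⟩, rfl⟩
  have hsurj : Function.Surjective π := ZMod.ringHom_surjective π
  choose lift hlift using hsurj
  set V : Matrix X X (ZMod (p ^ n)) := U.map lift
  have hVU : V.map π = U := by ext y x; simp [V, hlift]
  set D : Matrix X X (ZMod (p ^ n)) := Matrix.diagonal fun x => (d x : ZMod (p ^ n))
  have hDπ : D.map π = Matrix.diagonal (fun x => (d x : ZMod p)) := by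
    rw [Matrix.diagonal_map (map_zero π)]; simp
  have hDD : D * D = D := by
    rw [Matrix.diagonal_mul_diagonal]
    congr 1
    funext x
    simp only [d]
    split_ifs <;> simp
  set P := M * V * D + (1 - M) * V * (1 - D)
  have hPπ : P.map π = U := by
    have e : P.map π = M.map π * U * (D.map π) + (1 - M.map π) * U * (1 - D.map π) := by
      have hf : ∀ A : Matrix X X (ZMod (p ^ n)), A.map π = π.mapMatrix A := fun A => rfl
      simp only [hf, P, map_add, map_mul, map_sub, map_one, ← hVU]
    rw [e, sub_mul, one_mul, hUD, hDπ]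
    have : Matrix.diagonal (fun x => (d x : ZMod p)) * Matrix.diagonal (fun x => (d x : ZMod p)) =
        Matrix.diagonal (fun x => (d x : ZMod p)) := by
      rw [← hDπ, ← Matrix.map_mul, hDD]
    rw [Matrix.mul_assoc, this, sub_mul, Matrix.mul_sub, Matrix.mul_sub, Matrix.mul_one,
      Matrix.mul_one, Matrix.mul_assoc U, this]
    abel
  have hMP : M * P = P * D := by
    simp only [P, mul_add, add_mul, Matrix.mul_assoc, sub_mul, mul_sub, one_mul, mul_one, hDD]
    simp only [← Matrix.mul_assoc, hM]
    abel
  have hPunit : IsUnit P.det := by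
    have h1 : IsUnit (P.map π).det := by rw [hPπ]; exact (Matrix.isUnit_iff_isUnit_det U).mp hUunit
    rw [← RingHom.mapMatrix_apply, ← RingHom.map_det] at h1
    generalize P.det = z at h1
    rw [← ZMod.natCast_zmod_val z, ZMod.isUnit_iff_coprime]
    rw [← ZMod.natCast_zmod_val z, map_natCast, ZMod.isUnit_iff_coprime] at h1
    exact Nat.Coprime.pow_right n h1
  have hM' : M = P * D * P⁻¹ := by
    rw [← hMP, Matrix.mul_assoc, Matrix.mul_nonsing_inv P hPunit, Matrix.mul_one]
  rw [hM', Matrix.trace_mul_comm, ← Matrix.mul_assoc, Matrix.nonsing_inv_mul P hPunit,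
    Matrix.one_mul, Matrix.trace_diagonal, ← Equiv.sum_comp σ, Fintype.sum_sum_type]
  simp [d, r]

end Lift

section Main

variable [Fintype G] {p : ℕ} [Fact p.Prime]

instance finite_groupAlgebra (k : Type) [CommRing k] [Finite k] :
    Finite (MonoidAlgebra k G) :=
  haveI : Finite (G →₀ k) := Finite.of_equiv (G → k) Finsupp.equivFunOnFinite.symm
  Finite.of_equiv (G →₀ k) MonoidAlgebra.coeffEquiv.symm

omit [Fintype G] in
theorem eRank_perm (X : Type) [Fintype X] [DecidableEq X] [MulAction G X]
    (e : MonoidAlgebra (ZMod p) G) :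
    eRank p e (Perm (ZMod p) X) =
      (Module.finrank (ZMod p) (LinearMap.range (Matrix.toLin' (permMat G (ZMod p) X e))) : ℤ) := by
  have hlin : Matrix.toLin' (permMat G (ZMod p) X e) = permAlg G (ZMod p) X e :=
    Matrix.toLin'_toMatrix' _
  rw [hlin]
  have hset : (DistribSMul.toAddMonoidHom (Perm (ZMod p) X) e).range =
      (LinearMap.range (permAlg G (ZMod p) X e)).toAddSubgroup := rfl
  rw [eRank, hset]
  show ((padicValNat p (Nat.card (LinearMap.range (permAlg G (ZMod p) X e))) : ℕ) : ℤ) = _
  rw [Module.natCard_eq_pow_finrank (K := ZMod p), Nat.card_zmod, padicValNat.prime_pow]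

omit [Fintype G] in
theorem mapRingHom_surjective {k k' : Type} [CommRing k] [CommRing k'] {π : k →+* k'}
    (hπ : Function.Surjective π) : Function.Surjective (MonoidAlgebra.mapRingHom G π) := by
  intro e
  induction e using MonoidAlgebra.induction_linear with
  | zero => exact ⟨0, map_zero _⟩
  | add u v hu hv =>
    obtain ⟨a, rfl⟩ := hu
    obtain ⟨b, rfl⟩ := hv
    exact ⟨a + b, map_add _ _ _⟩
  | single g x =>
    obtain ⟨y, rfl⟩ := hπ x
    exact ⟨MonoidAlgebra.single g y, MonoidAlgebra.mapRingHom_single _ _ _⟩

/-- **Permutation modules with equal fixed points have equal value.** -/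
theorem sum_perm_eq_zero {ι : Type} (s : Finset ι) (c : ι → ℤ) (X : ι → Type)
    [∀ i, Fintype (X i)] [∀ i, MulAction G (X i)]
    (h : ∀ g : G, ∑ i ∈ s, c i * (Nat.card {x : X i // g • x = x} : ℤ) = 0)
    {Φ : ModFun (MonoidAlgebra (ZMod p) G)} (hΦ : IsAdditive Φ) :
    ∑ i ∈ s, c i * Φ (Perm (ZMod p) (X i)) = 0 := by
  classical
  refine sum_eq_zero_of_eRank (p := p)
    (by rw [← map_natCast (algebraMap (ZMod p) (MonoidAlgebra (ZMod p) G)), ZMod.natCast_self,
      map_zero]) s c (fun i => Perm (ZMod p) (X i)) (fun e he => ?_) hΦ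
  set N := ∑ i ∈ s, c i * eRank p e (Perm (ZMod p) (X i)) with hN
  set n := N.natAbs + 1
  have hn : n ≠ 0 := Nat.succ_ne_zero _
  set π := ZMod.castHom (dvd_pow_self p hn) (ZMod p)
  have : NeZero (p ^ n) := ⟨pow_ne_zero _ (Fact.out : p.Prime).ne_zero⟩
  -- lift the idempotent
  obtain ⟨a, ha⟩ := mapRingHom_surjective (G := G) (ZMod.ringHom_surjective π) e
  obtain ⟨k, hk, hidem⟩ := exists_pow_isIdempotentElem a
  have hek : MonoidAlgebra.mapRingHom G π (a ^ k) = e := by
    obtain ⟨j, rfl⟩ : ∃ j, k = j + 1 := ⟨k - 1, by omega⟩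
    rw [map_pow, ha, he.pow_succ_eq]
  have htr : ∀ i, ((eRank p e (Perm (ZMod p) (X i)) : ℤ) : ZMod (p ^ n)) =
      ∑ g : G, (a ^ k).coeff g * (Nat.card {x : X i // g • x = x} : ZMod (p ^ n)) := fun i => by
    rw [eRank_perm, Int.cast_natCast, ← trace_permMat,
      trace_eq_rank hn _ (by rw [← map_mul, hidem.eq]), permMat_map, hek]
  have h0 : (N : ZMod (p ^ n)) = 0 := by
    rw [hN, Int.cast_sum]
    simp only [Int.cast_mul, htr, Finset.mul_sum]
    rw [Finset.sum_comm]
    refine Finset.sum_eq_zero fun g _ => ?_
    have := congrArg (Int.cast : ℤ → ZMod (p ^ n)) (h g)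
    simp only [Int.cast_sum, Int.cast_mul, Int.cast_natCast, Int.cast_zero] at this
    simp only [mul_left_comm _ ((a ^ k).coeff g), ← Finset.mul_sum, this, mul_zero]
  rw [ZMod.intCast_zmod_eq_zero_iff_dvd] at h0
  refine Int.eq_zero_of_dvd_of_natAbs_lt_natAbs h0 ?_
  rw [Int.natAbs_natCast]
  exact (Nat.lt_pow_self (Fact.out : p.Prime).one_lt).trans
    (Nat.pow_lt_pow_right (Fact.out : p.Prime).one_lt (Nat.lt_succ_self _))

/-- The subgroup attached to a set of elements. -/
def interZpowers (t : Finset G) : Subgroup G := ⨅ x ∈ t, Subgroup.zpowers x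

omit [Fintype G] in
theorem isCyclic_interZpowers {t : Finset G} (ht : t.Nonempty) : IsCyclic (interZpowers t) := by
  obtain ⟨x, hx⟩ := ht
  have hle : interZpowers t ≤ Subgroup.zpowers x := iInf₂_le x hx
  exact isCyclic_of_injective (Subgroup.inclusion hle) (Subgroup.inclusion_injective hle)

omit [Fintype G] in
theorem card_mul_fixed (D : Subgroup G) (g : G) :
    Nat.card D * Nat.card {q : G ⧸ D // g • q = q} = Nat.card {x : G // x⁻¹ * g * x ∈ D} := by
  rw [← Nat.card_prod]
  refine (Nat.card_congr (QuotientGroup.preimageMkEquivSubgroupProdSet D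
    {q | g • q = q})).symm.trans
    (Nat.card_congr (Equiv.subtypeEquivRight fun x => ?_))
  show g • (x : G ⧸ D) = (x : G ⧸ D) ↔ _
  rw [MulAction.Quotient.smul_coe, QuotientGroup.eq, ← inv_mem_iff]
  simp [smul_eq_mul, mul_assoc]

/-- **Artin induction**: an additive function vanishing on the permutation modules of the cyclic
subgroups vanishes on the trivial module. -/
theorem eq_zero_of_cyclic {Φ : ModFun (MonoidAlgebra (ZMod p) G)} (hΦ : IsAdditive Φ)
    (h : ∀ C : Subgroup G, IsCyclic C → Φ (Perm (ZMod p) (G ⧸ C)) = 0) :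
    Φ (Perm (ZMod p) (G ⧸ (⊤ : Subgroup G))) = 0 := by
  classical
  let (t : Finset G) : Fintype (G ⧸ interZpowers t) := Fintype.ofFinite _
  set c : Finset G → ℤ := fun t => (-1) ^ t.card * Nat.card (interZpowers t) with hc
  have key := sum_perm_eq_zero (p := p) Finset.univ c (fun t => G ⧸ interZpowers t) (fun g => ?_) hΦ
  · rw [Finset.sum_eq_single ∅ (fun t _ ht => ?_) (fun h => absurd (Finset.mem_univ _) h)] at key
    · have h0 : interZpowers (∅ : Finset G) = ⊤ := by simp [interZpowers]
      have hc0 : c ∅ ≠ 0 := by simp [hc]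
      rw [h0] at key
      exact (mul_eq_zero.mp key).resolve_left hc0
    · rw [h _ (isCyclic_interZpowers (Finset.nonempty_iff_ne_empty.mpr ht)), mul_zero]
  · calc ∑ t, c t * (Nat.card {q : G ⧸ interZpowers t // g • q = q} : ℤ)
        = ∑ t : Finset G, ∑ x : G,
            (-1 : ℤ) ^ t.card * if x⁻¹ * g * x ∈ interZpowers t then 1 else 0 := by
          refine Finset.sum_congr rfl fun t _ => ?_
          rw [hc, mul_assoc, ← Finset.mul_sum, Finset.sum_boole, ← Nat.cast_mul, card_mul_fixed,
            Nat.card_eq_fintype_card, Fintype.card_subtype]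
      _ = ∑ x : G, ∏ y : G, (1 - if x⁻¹ * g * x ∈ Subgroup.zpowers y then (1 : ℤ) else 0) := by
          rw [Finset.sum_comm]
          refine Finset.sum_congr rfl fun x _ => ?_
          simp only [sub_eq_neg_add, Finset.prod_add, Finset.powerset_univ]
          refine Finset.sum_congr rfl fun t _ => ?_
          rw [Finset.prod_const_one, mul_one, Finset.prod_neg, Finset.prod_boole]
          simp only [interZpowers, Subgroup.mem_iInf]
          split_ifs <;> rfl
      _ = 0 := Finset.sum_eq_zero fun x _ => Finset.prod_eq_zero (Finset.mem_univ (x⁻¹ * g * x))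
          (by simp [Subgroup.mem_zpowers])

end Main

end Fermat.Agent.EulerChar

end
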