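import Fermat.Agent.EulerChar.Count
import Fermat.Agent.Duality.Coh.Reduction

/-!
# The Euler characteristic of a group with a dualising module

If `θ²` is bijective for every finite module killed by `p`, then `H²` is right exact and
`h⁰ - h¹ + h²` is additive on short exact sequences.
-/

set_option autoImplicit false

noncomputable section

namespace Fermat.Agent.EulerChar

open Duality.Coh

variable {G : Type} [Group G] (p : ℕ) (𝓛 : Levels G) (C : Type) [AddCommGroup C]
  [DistribMulAction G C] (c : G)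

/-- The part of a module fixed by one element. -/
def fixAt (c : G) (M : Type) [AddCommGroup M] [DistribMulAction G M] : AddSubgroup M where
  carrier := {m | c • m = m}
  add_mem' {a b} ha hb := by
    show c • (a + b) = a + b
    rw [smul_add, ha, hb]
  zero_mem' := smul_zero c
  neg_mem' {a} ha := by
    show c • -a = -a
    rw [smul_neg, ha]

theorem mem_fixAt {c : G} {M : Type} [AddCommGroup M] [DistribMulAction G M] {m : M} :
    m ∈ fixAt c M ↔ c • m = m := Iff.rfl

/-- `h⁰ - h¹ + h²`, with `h²` read on the dual side. -/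
def chi (M : Type) [AddCommGroup M] [DistribMulAction G M] : ℤ :=
  vcard p (inv G M) - vcard p (H1 𝓛 M) + vcard p (inv G (HomMod M C))

/-- The codimension of the fixed part of `c`. -/
def dminus (M : Type) [AddCommGroup M] [DistribMulAction G M] : ℤ :=
  vcard p M - vcard p (fixAt c M)

/-- The vanishing quantity in the Euler characteristic formula. -/
def defect (M : Type) [AddCommGroup M] [DistribMulAction G M] : ℤ :=
  chi p 𝓛 C M + dminus p c M

/-- The hypotheses on the dualising module. -/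
structure IsDualizing (ι : H2 𝓛 C →+ ZMod p) : Prop where
  bijective : ∀ (M : Type) [AddCommGroup M] [DistribMulAction G M] [Finite M],
    IsSmooth 𝓛 M → (∀ m : M, p • m = 0) → Function.Bijective (theta₂ (A := M) ι)
  torsion : ∀ x : C, p • x = 0
  finite_H1 : ∀ (M : Type) [AddCommGroup M] [DistribMulAction G M] [Finite M],
    IsSmooth 𝓛 M → (∀ m : M, p • m = 0) → Finite (H1 𝓛 M)
  finite_hom : ∀ (M : Type) [AddCommGroup M] [DistribMulAction G M] [Finite M],
    IsSmooth 𝓛 M → (∀ m : M, p • m = 0) → Finite (inv G (HomMod M C))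

variable {p 𝓛 C} [Fact p.Prime] {ι : H2 𝓛 C →+ ZMod p}

section

variable {M : Type} [AddCommGroup M] [DistribMulAction G M] [Finite M]

theorem IsDualizing.finite_H2 (h : IsDualizing p 𝓛 C ι) (hM : IsSmooth 𝓛 M)
    (hpM : ∀ m : M, p • m = 0) : Finite (H2 𝓛 M) :=
  have := h.finite_hom M hM hpM
  have := finite_hom_zmod p (inv G (HomMod M C))
  Finite.of_injective _ (h.bijective M hM hpM).1

theorem IsDualizing.vcard_H2 (h : IsDualizing p 𝓛 C ι) (hM : IsSmooth 𝓛 M)
    (hpM : ∀ m : M, p • m = 0) : vcard p (H2 𝓛 M) = vcard p (inv G (HomMod M C)) := by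
  have := h.finite_hom M hM hpM
  rw [vcard_congr p (Equiv.ofBijective _ (h.bijective M hM hpM)), vcard, vcard,
    natCard_hom_zmod p _ fun x => Subtype.ext (HomMod.torsion h.torsion (x : HomMod M C))]

end

variable {A B Q : Type} [AddCommGroup A] [DistribMulAction G A] [AddCommGroup B]
  [DistribMulAction G B] [AddCommGroup Q] [DistribMulAction G Q]

/-- The map on invariants. -/
def invMap {φ : A →+ B} (hφ : IsEquivariant (MonoidHom.id G) φ) : inv G A →+ inv G B where
  toFun a := ⟨φ a, hφ.map_inv a.2⟩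
  map_zero' := Subtype.ext (map_zero φ)
  map_add' _ _ := Subtype.ext (map_add φ _ _)

variable [Finite A] [Finite B] [Finite Q]

omit [Finite A] in
/-- **`H²` is right exact.** -/
theorem IsDualizing.mapπ₂_surjective (h : IsDualizing p 𝓛 C ι) (E : ShortSeq 𝓛 A B Q)
    (hpB : ∀ b : B, p • b = 0) : Function.Surjective E.mapπ₂ := by
  have hpQ : ∀ q : Q, p • q = 0 := fun q => by
    obtain ⟨b, rfl⟩ := E.π_surj q
    rw [← map_nsmul, hpB, map_zero]
  intro y
  have hinj : ∀ f : inv G (HomMod Q C), HomMod.preInv E.π_equiv f = 0 →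
      theta₂ ι y f = 0 := fun f hf => by
    have : f = 0 := Subtype.ext (HomMod.ext fun q => by
      obtain ⟨b, rfl⟩ := E.π_surj q
      exact DFunLike.congr_fun (congrArg Subtype.val hf) b)
    rw [this, map_zero]
  obtain ⟨ψ, hψ⟩ := exists_hom_factor
    (fun x : inv G (HomMod B C) => Subtype.ext (HomMod.torsion h.torsion (x : HomMod B C)))
    (fun t : ZMod p => by rw [nsmul_eq_mul, ZMod.natCast_self, zero_mul])
    (HomMod.preInv (C := C) E.π_equiv) (theta₂ ι y) hinj
  obtain ⟨x, hx⟩ := (h.bijective B E.smooth hpB).2 ψ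
  refine ⟨x, (h.bijective Q E.smooth_right hpQ).1 (AddMonoidHom.ext fun f => ?_)⟩
  rw [show E.mapπ₂ x = H2.map 𝓛.compat_id E.π_equiv x from rfl, theta₂_map, hx, hψ]

/-- **Additivity of the Euler characteristic.** -/
theorem IsDualizing.chi_add (h : IsDualizing p 𝓛 C ι) (E : ShortSeq 𝓛 A B Q)
    (hpB : ∀ b : B, p • b = 0) : chi p 𝓛 C B = chi p 𝓛 C A + chi p 𝓛 C Q := by
  have hpA : ∀ a : A, p • a = 0 := fun a => E.i_inj (by rw [map_nsmul, hpB, map_zero])
  have hpQ : ∀ q : Q, p • q = 0 := fun q => by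
    obtain ⟨b, rfl⟩ := E.π_surj q
    rw [← map_nsmul, hpB, map_zero]
  have := h.finite_H1 A E.smooth_left hpA
  have := h.finite_H1 B E.smooth hpB
  have := h.finite_H1 Q E.smooth_right hpQ
  have := h.finite_H2 E.smooth_left hpA
  have := h.finite_H2 E.smooth hpB
  unfold chi
  rw [← h.vcard_H2 E.smooth_left hpA, ← h.vcard_H2 E.smooth hpB, ← h.vcard_H2 E.smooth_right hpQ]
  have i0 : Function.Injective (invMap E.i_equiv) := fun a b e =>
    Subtype.ext (E.i_inj (congrArg Subtype.val e))
  have eB0 := vcard_eq_range_add_range p (invMap E.i_equiv) (invMap E.π_equiv)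
    (fun a => Subtype.ext (E.π_i _)) fun b hb => by
      obtain ⟨a, ha⟩ := E.exact b (congrArg Subtype.val hb)
      exact ⟨⟨a, fun g => E.i_inj (by rw [E.i_smul, ha]; exact b.2 g)⟩, Subtype.ext ha⟩
  have eQ0 := vcard_eq_range_add_range p (invMap E.π_equiv) E.δ₀
    (fun b => E.δ₀_π b.2) fun q hq => by
      obtain ⟨m, hm, he⟩ := E.exact_C₀ q hq
      exact ⟨⟨m, hm⟩, Subtype.ext he⟩
  have eA1 := vcard_eq_range_add_range p E.δ₀ E.mapI₁ E.mapI₁_δ₀ E.exact_A₁
  have eB1 := vcard_eq_range_add_range p E.mapI₁ E.mapπ₁ E.mapπ₁_mapI₁ E.exact_B₁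
  have eQ1 := vcard_eq_range_add_range p E.mapπ₁ E.δ₁ (fun y => by
      obtain ⟨x, rfl⟩ := H1.mk_surjective y
      show E.δ₁ (H1.mk (Z1.map 𝓛.compat_id E.π_equiv x)) = 0
      rw [E.δ₁_mk, ← E.δ₁fun_eq (u := (x : G → B)) x.2.1 (fun g => rfl) (z := 0) fun g g' => by
        simp only [ZeroMemClass.coe_zero, Pi.zero_apply, map_zero]
        exact (congrFun (congrFun x.2.2 g) g').symm, map_zero]) E.exact_C₁
  have eA2 := vcard_eq_range_add_range p E.δ₁ E.mapI₂ E.mapI₂_δ₁ E.exact_A₂
  have eB2 := vcard_eq_range_add_range p E.mapI₂ E.mapπ₂ (fun y => by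
      obtain ⟨z, rfl⟩ := H2.mk_surjective y
      show H2.map 𝓛.compat_id E.π_equiv (H2.map 𝓛.compat_id E.i_equiv (H2.mk z)) = 0
      rw [H2.map_map, H2.map_mk, ← map_zero H2.mk]
      exact congrArg H2.mk (Subtype.ext (funext fun g => funext fun g' => E.π_i _))) E.exact_B₂
  have eQ2 := vcard_range_of_surjective p E.mapπ₂ (h.mapπ₂_surjective E hpB)
  have eA0 := vcard_range_of_injective p (invMap E.i_equiv) i0
  omega

omit [Finite A] [Finite Q] in
/-- Additivity of the codimension of the fixed part of an involution. -/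
theorem dminus_add (hp2 : p ≠ 2) (hc : c * c = 1) {φ : A →+ B} {π : B →+ Q}
    (hφ : IsEquivariant (MonoidHom.id G) φ) (hπ : IsEquivariant (MonoidHom.id G) π)
    (hi : Function.Injective φ) (hs : Function.Surjective π) (h0 : ∀ a, π (φ a) = 0)
    (hex : ∀ b, π b = 0 → ∃ a, φ a = b) (hpB : ∀ b : B, p • b = 0) :
    dminus p c B = dminus p c A + dminus p c Q := by
  let φ' : fixAt c A →+ fixAt c B :=
    (φ.comp (fixAt c A).subtype).codRestrict (fixAt c B) fun a =>
      (hφ c a).symm.trans (congrArg φ a.2)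
  let π' : fixAt c B →+ fixAt c Q :=
    (π.comp (fixAt c B).subtype).codRestrict (fixAt c Q) fun a =>
      (hπ c a).symm.trans (congrArg π a.2)
  have e := vcard_shortExact p φ π hi hs h0 hex
  have e' := vcard_shortExact p φ' π' (fun a b h => Subtype.ext (hi (congrArg Subtype.val h)))
    (fun q => by
      obtain ⟨b, hb⟩ := hs q
      obtain ⟨j, hj⟩ := (((Fact.out : p.Prime).eq_one_or_self_of_dvd 2).mt (by simp [Ne.symm hp2]) :
        ¬ 2 ∣ p) |> Nat.odd_iff.mpr ∘ Nat.two_dvd_ne_zero.mp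
      refine ⟨⟨(j + 1) • (b + c • b), ?_⟩, Subtype.ext ?_⟩
      · show c • ((j + 1) • (b + c • b)) = _
        rw [smul_comm, smul_add, smul_smul, hc, one_smul, add_comm (c • b) b]
      · show π ((j + 1) • (b + c • b)) = q
        have hpq : p • (q : Q) = 0 := by rw [← hb, ← map_nsmul, hpB, map_zero]
        rw [map_nsmul, map_add, show π (c • b) = c • π b from hπ c b, hb, mem_fixAt.mp q.2,
          ← two_nsmul,
          ← mul_nsmul, show 2 * (j + 1) = p + 1 by omega, add_nsmul, hpq, zero_add, one_nsmul])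
    (fun a => Subtype.ext (h0 _)) fun b hb => by
      obtain ⟨a, ha⟩ := hex b (congrArg Subtype.val hb)
      exact ⟨⟨a, hi ((hφ c a).trans (by rw [ha]; exact b.2))⟩, Subtype.ext ha⟩
  unfold dminus
  omega

/-- **Additivity of the defect.** -/
theorem IsDualizing.defect_add (h : IsDualizing p 𝓛 C ι) (hp2 : p ≠ 2) (hc : c * c = 1)
    (E : ShortSeq 𝓛 A B Q) (hpB : ∀ b : B, p • b = 0) :
    defect p 𝓛 C c B = defect p 𝓛 C c A + defect p 𝓛 C c Q := by
  unfold defect
  rw [h.chi_add E hpB, dminus_add c hp2 hc E.i_equiv E.π_equiv E.i_inj E.π_surj E.π_i E.exact hpB]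
  ring

end Fermat.Agent.EulerChar

end
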