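import Mathlib

/-!
# Traces of a finite group acting on a lattice are determined by the ranks of the fixed lattices

The trace of `g` only depends on the subgroup generated by `g`: for a prime `ℓ` in a given residue
class modulo the order, `tr (g ^ ℓ) ≡ tr g` modulo `ℓ`.
-/

set_option autoImplicit false

noncomputable section

namespace Fermat.Agent.EulerChar

variable {G : Type} [Group G] [Finite G] {d : ℕ} (ρ : G →* Matrix (Fin d) (Fin d) ℤ)

theorem trace_pow_eq_of_coprime (g : G) {a : ℕ} (ha : a.Coprime (orderOf g)) :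
    (ρ (g ^ a)).trace = (ρ g).trace := by
  classical
  set D := (ρ (g ^ a)).trace - (ρ g).trace
  obtain ⟨ℓ, hℓ, hprime, hmod⟩ :=
    Nat.forall_exists_prime_gt_and_modEq D.natAbs (orderOf_pos g).ne' ha
  have : Fact ℓ.Prime := ⟨hprime⟩
  have hpow : g ^ ℓ = g ^ a := pow_eq_pow_iff_modEq.mpr hmod
  have key : ∀ N : Matrix (Fin d) (Fin d) ℤ,
      ((N ^ ℓ).trace : ZMod ℓ) = (N.trace : ZMod ℓ) := fun N => by
    have h1 := ZMod.trace_pow_card ((Int.castRingHom (ZMod ℓ)).mapMatrix N)
    rw [← map_pow, RingHom.mapMatrix_apply, RingHom.mapMatrix_apply, ← AddMonoidHom.map_trace,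
      ← AddMonoidHom.map_trace, ZMod.pow_card] at h1
    exact h1
  have h0 : ((D : ℤ) : ZMod ℓ) = 0 := by
    show (((ρ (g ^ a)).trace - (ρ g).trace : ℤ) : ZMod ℓ) = 0
    rw [Int.cast_sub, ← hpow, map_pow, key, sub_self]
  rw [ZMod.intCast_zmod_eq_zero_iff_dvd] at h0
  exact sub_eq_zero.mp
    (Int.eq_zero_of_dvd_of_natAbs_lt_natAbs h0 (by rw [Int.natAbs_natCast]; exact hℓ))

/-- The fixed lattice of an element. -/
def fixLattice (g : G) : Submodule ℤ (Fin d → ℤ) :=
  LinearMap.ker (Matrix.toLin' (ρ g) - LinearMap.id)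

omit [Finite G] in
theorem mem_fixLattice {g : G} {x : Fin d → ℤ} : x ∈ fixLattice ρ g ↔ (ρ g).mulVec x = x := by
  simp [fixLattice, sub_eq_zero]

omit [Finite G] in
theorem sum_range_trace (g : G) :
    ∑ i ∈ Finset.range (orderOf g), (ρ (g ^ i)).trace =
      orderOf g * Module.finrank ℤ (fixLattice ρ g) := by
  set n := orderOf g
  set E : Module.End ℤ (Fin d → ℤ) := Matrix.toLin' (∑ i ∈ Finset.range n, ρ (g ^ i))
  have hrot : ρ g * ∑ i ∈ Finset.range n, ρ (g ^ i) = ∑ i ∈ Finset.range n, ρ (g ^ i) := by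
    rw [Finset.mul_sum]
    have e1 : ∀ i ∈ Finset.range n, ρ g * ρ (g ^ i) = ρ (g ^ (i + 1)) := fun i _ => by
      rw [← map_mul, pow_succ']
    rw [Finset.sum_congr rfl e1]
    have e2 := Finset.sum_range_succ' (fun i => ρ (g ^ i)) n
    rw [Finset.sum_range_succ,
      show ρ (g ^ n) = ρ (g ^ 0) by rw [pow_orderOf_eq_one, pow_zero]] at e2
    exact (add_right_cancel e2).symm
  have hmem : ∀ x, E x ∈ fixLattice ρ g := fun x => by
    rw [mem_fixLattice]
    show (ρ g).mulVec (Matrix.toLin' (∑ i ∈ Finset.range n, ρ (g ^ i)) x) =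
      Matrix.toLin' (∑ i ∈ Finset.range n, ρ (g ^ i)) x
    rw [Matrix.toLin'_apply, Matrix.mulVec_mulVec, hrot]
  let E' := E.codRestrict (fixLattice ρ g) hmem
  have h1 : E'.comp (fixLattice ρ g).subtype = (n : ℤ) • LinearMap.id := by
    refine LinearMap.ext fun x => Subtype.ext ?_
    show Matrix.toLin' (∑ i ∈ Finset.range n, ρ (g ^ i)) (x : Fin d → ℤ) =
      ((n : ℤ) • x : fixLattice ρ g)
    have hx : ∀ i : ℕ, (ρ (g ^ i)).mulVec (x : Fin d → ℤ) = x := fun i => by
      induction i with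
      | zero => rw [pow_zero, map_one, Matrix.one_mulVec]
      | succ i ih => rw [pow_succ, map_mul, ← Matrix.mulVec_mulVec, (mem_fixLattice ρ).mp x.2, ih]
    rw [Matrix.toLin'_apply, Matrix.sum_mulVec, Finset.sum_congr rfl fun i _ => hx i,
      Finset.sum_const, Finset.card_range, Submodule.coe_smul, natCast_zsmul]
  have h2 := LinearMap.trace_comp_comm' (R := ℤ) (fixLattice ρ g).subtype E'
  rw [h1, show (fixLattice ρ g).subtype.comp E' = E from rfl, map_smul, LinearMap.trace_id,
    smul_eq_mul, Matrix.trace_toLin'_eq, Matrix.trace_sum] at h2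
  first | exact h2 | exact h2.symm

/-- **Traces from fixed ranks**: equal ranks of fixed lattices force equal traces. -/
theorem trace_eq_of_finrank_fixLattice (f : G → ℤ)
    (hpow : ∀ (g : G) (a : ℕ), a.Coprime (orderOf g) → f (g ^ a) = f g)
    (hsum : ∀ g : G, ∑ i ∈ Finset.range (orderOf g), f (g ^ i) =
      orderOf g * Module.finrank ℤ (fixLattice ρ g))
    (g : G) : (ρ g).trace = f g := by
  induction hn : orderOf g using Nat.strong_induction_on generalizing g with
  | _ n ih =>
  subst hn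
  set n := orderOf g with hn
  have key : ∀ i ∈ Finset.range n, (ρ (g ^ i)).trace - f (g ^ i) =
      if i.Coprime n then (ρ g).trace - f g else 0 := fun i _ => by
    split_ifs with hi
    · rw [trace_pow_eq_of_coprime ρ g hi, hpow g i hi]
    · rw [sub_eq_zero]
      refine ih _ ?_ (g ^ i) rfl
      rw [orderOf_pow]
      have hg : (orderOf g).gcd i ≠ 1 := fun h => hi (Nat.coprime_comm.mp h)
      have hpos : 0 < (orderOf g).gcd i := Nat.gcd_pos_of_pos_left i (orderOf_pos g)
      exact Nat.div_lt_self (orderOf_pos g) (by omega)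
  have h1 : ∑ i ∈ Finset.range n, ((ρ (g ^ i)).trace - f (g ^ i)) = 0 := by
    rw [Finset.sum_sub_distrib, sum_range_trace, hsum, sub_self]
  rw [Finset.sum_congr rfl key, ← Finset.sum_filter, Finset.sum_const, nsmul_eq_mul, mul_eq_zero,
    sub_eq_zero] at h1
  refine h1.resolve_left ?_
  refine Nat.cast_ne_zero.mpr (Finset.card_pos.mpr ⟨1 % n, ?_⟩).ne'
  refine Finset.mem_filter.mpr ⟨Finset.mem_range.mpr (Nat.mod_lt _ (orderOf_pos g)), ?_⟩
  show Nat.gcd (1 % n) n = 1
  rw [← Nat.gcd_rec, Nat.gcd_one_right]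

end Fermat.Agent.EulerChar

end
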