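import Fermat.Agent.EulerChar.Artin
import Fermat.Agent.EulerChar.Trace
import Fermat.Agent.EulerChar.Chi

/-!
# The class modulo `p` of a lattice with prescribed ranks of fixed sublattices

If a finitely generated abelian group `U` with an action of a finite group `G` has, for every `g`,
fixed rank equal to a combination of orbit numbers of finite `G`-sets, then an additive function of
`F_p[G]`-modules takes on `U/pU` the value on `U[p]` plus the same combination of values on the
permutation modules.
-/

set_option autoImplicit false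

noncomputable section

namespace Fermat.Agent.EulerChar

open MonoidAlgebra

variable {G : Type} [Group G]

section GModule

variable (p : ℕ) (V : Type) [AddCommGroup V] [DistribMulAction G V]

/-- The action by linear maps. -/
def gRep [Module (ZMod p) V] : G →* Module.End (ZMod p) V where
  toFun g := (DistribSMul.toAddMonoidHom V g).toZModLinearMap p
  map_one' := LinearMap.ext fun v => one_smul G v
  map_mul' g h := LinearMap.ext fun v => mul_smul g h v

/-- The action of the group algebra. -/
def gAlg [Module (ZMod p) V] : MonoidAlgebra (ZMod p) G →ₐ[ZMod p] Module.End (ZMod p) V :=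
  MonoidAlgebra.lift (ZMod p) (Module.End (ZMod p) V) G (gRep p V)

/-- The module structure. -/
@[implicit_reducible]
def gModuleAux [Module (ZMod p) V] : Module (MonoidAlgebra (ZMod p) G) V :=
  Module.compHom V (gAlg (G := G) p V).toRingHom

theorem gModuleAux_single [Module (ZMod p) V] (g : G) (v : V) :
    letI := gModuleAux (G := G) p V
    MonoidAlgebra.single g (1 : ZMod p) • v = g • v := by
  show gAlg (G := G) p V (MonoidAlgebra.single g 1) v = g • v
  rw [gAlg, MonoidAlgebra.lift_single, one_smul]
  rfl

/-- A group killed by `p` with an action of `G` is a module over `F_p[G]`. -/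
@[implicit_reducible]
def gModule (hV : ∀ v : V, p • v = 0) : Module (MonoidAlgebra (ZMod p) G) V :=
  @gModuleAux G _ p V _ _ (AddCommGroup.zmodModule hV)

theorem gModule_single (hV : ∀ v : V, p • v = 0) (g : G) (v : V) :
    letI := gModule (G := G) p V hV
    MonoidAlgebra.single g (1 : ZMod p) • v = g • v :=
  @gModuleAux_single G _ p V _ _ (AddCommGroup.zmodModule hV) g v

end GModule

section IntAlg

variable (U : Type) [AddCommGroup U] [DistribMulAction G U]

/-- The action of the integral group algebra. -/
def intAlg : MonoidAlgebra ℤ G →ₐ[ℤ] Module.End ℤ U :=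
  MonoidAlgebra.lift ℤ (Module.End ℤ U) G
    { toFun := fun g => (DistribSMul.toAddMonoidHom U g).toIntLinearMap
      map_one' := LinearMap.ext fun v => one_smul G v
      map_mul' := fun g h => LinearMap.ext fun v => mul_smul g h v }

theorem intAlg_single (g : G) (m : ℤ) (x : U) :
    intAlg U (MonoidAlgebra.single g m) x = m • g • x := by
  rw [intAlg, MonoidAlgebra.lift_single]
  rfl

variable {U}

/-- Compatibility of the integral and the modular group algebras. -/
theorem mapRingHom_smul {p : ℕ} {V : Type} [AddCommGroup V]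
    [Module (MonoidAlgebra (ZMod p) G) V] (f : U →+ V)
    (hf : ∀ (g : G) x, MonoidAlgebra.single g (1 : ZMod p) • f x = f (g • x))
    (a : MonoidAlgebra ℤ G) (x : U) :
    MonoidAlgebra.mapRingHom G (Int.castRingHom (ZMod p)) a • f x = f (intAlg U a x) := by
  induction a using MonoidAlgebra.induction_linear with
  | zero => simp
  | add a b ha hb => simp [add_smul, ha, hb]
  | single g m =>
    rw [MonoidAlgebra.mapRingHom_single, intAlg_single, map_zsmul,
      show MonoidAlgebra.single g (Int.castRingHom (ZMod p) m) =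
        (m : MonoidAlgebra (ZMod p) G) * MonoidAlgebra.single g 1 by
        rw [← map_intCast (algebraMap (ZMod p) (MonoidAlgebra (ZMod p) G)),
          MonoidAlgebra.coe_algebraMap]
        simp [MonoidAlgebra.single_mul_single],
      mul_smul, hf, Int.cast_smul_eq_zsmul]

end IntAlg

section Types

variable (p : ℕ) (U : Type) [AddCommGroup U] [DistribMulAction G U]

/-- `U / p U`. -/
def ModP : Type := U ⧸ (nsmulAddMonoidHom (α := U) p).range

instance addCommGroupModP : AddCommGroup (ModP p U) :=
  inferInstanceAs (AddCommGroup (U ⧸ (nsmulAddMonoidHom (α := U) p).range))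

/-- The projection. -/
def modPMk : U →+ ModP p U := QuotientAddGroup.mk' _

theorem modPMk_surjective : Function.Surjective (modPMk p U) :=
  QuotientAddGroup.mk'_surjective _

theorem modPMk_eq_zero {x : U} : modPMk p U x = 0 ↔ ∃ y, p • y = x :=
  QuotientAddGroup.eq_zero_iff x

theorem modP_torsion (x : ModP p U) : p • x = 0 := by
  obtain ⟨y, rfl⟩ := modPMk_surjective p U x
  rw [← map_nsmul]
  exact (modPMk_eq_zero p U).mpr ⟨y, rfl⟩

instance actionModP : DistribMulAction G (ModP p U) :=
  Duality.Coh.quotAction _ fun g r ⟨y, hy⟩ => ⟨g • y, by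
    show p • g • y = g • r
    rw [← hy]
    exact smul_comm p g y⟩

theorem modPMk_smul (g : G) (x : U) : g • modPMk p U x = modPMk p U (g • x) := rfl

instance moduleModP : Module (MonoidAlgebra (ZMod p) G) (ModP p U) :=
  gModule p _ (modP_torsion p U)

/-- `U[p]`. -/
def TorP : Type := (nsmulAddMonoidHom (α := U) p).ker

instance addCommGroupTorP : AddCommGroup (TorP p U) :=
  inferInstanceAs (AddCommGroup (nsmulAddMonoidHom (α := U) p).ker)

/-- The inclusion. -/
def torPVal : TorP p U →+ U := (nsmulAddMonoidHom (α := U) p).ker.subtype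

theorem torPVal_injective : Function.Injective (torPVal p U) :=
  (nsmulAddMonoidHom (α := U) p).ker.subtype_injective

theorem torP_spec (x : TorP p U) : p • torPVal p U x = 0 := x.2

theorem torP_torsion (x : TorP p U) : p • x = 0 := torPVal_injective p U (by
  rw [map_nsmul, map_zero, torP_spec])

/-- Build an element of `U[p]`. -/
def torPMk (x : U) (hx : p • x = 0) : TorP p U := ⟨x, hx⟩

instance actionTorP : DistribMulAction G (TorP p U) where
  smul g x := torPMk p U (g • torPVal p U x) (by rw [smul_comm, torP_spec, smul_zero])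
  one_smul x := torPVal_injective p U (one_smul G (torPVal p U x))
  mul_smul g h x := torPVal_injective p U (mul_smul g h (torPVal p U x))
  smul_zero g := torPVal_injective p U (smul_zero g)
  smul_add g x y := torPVal_injective p U (smul_add g (torPVal p U x) (torPVal p U y))

instance moduleTorP : Module (MonoidAlgebra (ZMod p) G) (TorP p U) :=
  gModule p _ (torP_torsion p U)

instance actionTorsion : DistribMulAction G (Submodule.torsion ℤ U) where
  smul g x := ⟨g • (x : U), by
    obtain ⟨m, hm⟩ := (Submodule.mem_torsion_iff _).mp x.2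
    refine (Submodule.mem_torsion_iff _).mpr ⟨m, ?_⟩
    show (m : ℤ) • g • (x : U) = 0
    rw [← smul_comm, show (m : ℤ) • (x : U) = 0 from hm, smul_zero]⟩
  one_smul x := Subtype.ext (one_smul G (x : U))
  mul_smul g h x := Subtype.ext (mul_smul g h (x : U))
  smul_zero g := Subtype.ext (smul_zero g)
  smul_add g x y := Subtype.ext (smul_add g (x : U) (y : U))

end Types

section Finiteness

variable (p : ℕ) (U : Type) [AddCommGroup U]

theorem finite_torsion [Module.Finite ℤ U] : Finite (Submodule.torsion ℤ U) := by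
  have : Module.Finite ℤ (Submodule.torsion ℤ U) := Module.Finite.of_injective
    (Submodule.torsion ℤ U).subtype (Submodule.injective_subtype _)
  exact Module.finite_of_fg_torsion _ fun x => by
    obtain ⟨m, hm⟩ := (Submodule.mem_torsion_iff _).mp x.2
    exact ⟨m, Subtype.ext hm⟩

theorem mem_torsion_of_nsmul_eq_zero {n : ℕ} (hn : n ≠ 0) {x : U} (hx : n • x = 0) :
    x ∈ Submodule.torsion ℤ U :=
  (Submodule.mem_torsion_iff _).mpr
    ⟨⟨(n : ℤ), mem_nonZeroDivisors_of_ne_zero (Nat.cast_ne_zero.mpr hn)⟩, by
      show (n : ℤ) • x = 0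
      rw [natCast_zsmul, hx]⟩

variable [Fact p.Prime]

instance finiteTorP [Module.Finite ℤ U] : Finite (TorP p U) := by
  have := finite_torsion U
  let f : TorP p U → Submodule.torsion ℤ U := fun x => ⟨torPVal p U x,
    mem_torsion_of_nsmul_eq_zero U (Fact.out : p.Prime).ne_zero (torP_spec p U x)⟩
  refine Finite.of_injective f fun x y h => torPVal_injective p U ?_
  exact congrArg (fun z : Submodule.torsion ℤ U => (z : U)) h

instance finiteModP [Module.Finite ℤ U] : Finite (ModP p U) := by
  let : Module (ZMod p) (ModP p U) := AddCommGroup.zmodModule (modP_torsion p U)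
  have : Module.Finite ℤ (ModP p U) := Module.Finite.of_surjective (modPMk p U).toIntLinearMap
    (modPMk_surjective p U)
  exact Module.finite_of_fg_torsion _ fun x =>
    ⟨⟨(p : ℤ), mem_nonZeroDivisors_of_ne_zero (Nat.cast_ne_zero.mpr (Fact.out : p.Prime).ne_zero)⟩,
      by show (p : ℤ) • x = 0; rw [natCast_zsmul, modP_torsion]⟩

end Finiteness

variable {p : ℕ} [Fact p.Prime]

/-- The kernel and cokernel of multiplication on a finite group have the same order. -/
theorem natCard_ker_eq_index_range {B : Type} [AddCommGroup B] [Finite B] (f : B →+ B) :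
    Nat.card f.ker = f.range.index := by
  have h1 := AddSubgroup.card_eq_card_quotient_mul_card_addSubgroup f.ker
  rw [Nat.card_congr (QuotientAddGroup.quotientKerEquivRange f).toEquiv] at h1
  have h2 := f.range.card_mul_index
  rw [h1] at h2
  exact (Nat.eq_of_mul_eq_mul_left Nat.card_pos h2).symm

variable [Fintype G]

omit [Fintype G] in
/-- `T / p T` and `T[p]` have equal idempotent ranks. -/
theorem eRank_torP_eq_modP (T : Type) [AddCommGroup T] [DistribMulAction G T] [Finite T]
    (e : MonoidAlgebra (ZMod p) G) (he : IsIdempotentElem e) :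
    eRank p e (TorP p T) = eRank p e (ModP p T) := by
  obtain ⟨a₀, ha₀⟩ := mapRingHom_surjective (G := G)
    (π := Int.castRingHom (ZMod p)) (ZMod.intCast_surjective) e
  have : Finite (Module.End ℤ T) := Finite.of_injective _ DFunLike.coe_injective
  obtain ⟨k, hk, hid⟩ := exists_pow_isIdempotentElem (intAlg T a₀)
  obtain ⟨j, rfl⟩ : ∃ j, k = j + 1 := ⟨k - 1, by omega⟩
  set a := a₀ ^ (j + 1)
  have hae : MonoidAlgebra.mapRingHom G (Int.castRingHom (ZMod p)) a = e := by
    rw [map_pow, ha₀, he.pow_succ_eq]
  set E : T →+ T := (intAlg T a).toAddMonoidHom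
  have hE : ∀ x, E (E x) = E x := fun x => by
    show intAlg T a (intAlg T a x) = intAlg T a x
    rw [map_pow, ← Module.End.mul_apply, hid.eq]
  have hT : ∀ x, e • x = (torPMk p T (E (torPVal p T x)) (by
      rw [← map_nsmul, torP_spec, map_zero]) : TorP p T) := fun x => torPVal_injective p T (by
    let := gModule (G := G) p (TorP p T) (torP_torsion p T)
    have h := mapRingHom_smul (U := TorP p T) (V := TorP p T) (AddMonoidHom.id _)
      (fun g y => gModule_single p _ (torP_torsion p T) g y) a x
    rw [hae] at h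
    rw [show e • x = e • (AddMonoidHom.id _ x) from rfl, h]
    show torPVal p T (intAlg (TorP p T) a x) = intAlg T a (torPVal p T x)
    have key : ∀ b : MonoidAlgebra ℤ G,
        torPVal p T (intAlg (TorP p T) b x) = intAlg T b (torPVal p T x) := fun b => by
      induction b using MonoidAlgebra.induction_linear with
      | zero => simp
      | add b c hb hc => simp [hb, hc]
      | single g m =>
        rw [intAlg_single, intAlg_single, map_zsmul]
        rfl
    exact key a)
  have hM : ∀ x, e • modPMk p T x = modPMk p T (E x) := fun x => by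
    rw [← hae]
    exact mapRingHom_smul (modPMk p T)
      (fun g y => (gModule_single p _ (modP_torsion p T) g _).trans (modPMk_smul p T g y)) a x
  set B := E.range
  let μ : B →+ B := nsmulAddMonoidHom p
  have c1 : Nat.card (DistribSMul.toAddMonoidHom (TorP p T) e).range = Nat.card μ.ker := by
    refine Nat.card_congr
      { toFun := fun y => ⟨⟨torPVal p T y.1, ?_⟩, Subtype.ext (torP_spec p T y.1)⟩
        invFun := fun y => ⟨torPMk p T (y.1 : T) (congrArg Subtype.val y.2),
          ⟨torPMk p T (y.1 : T) (congrArg Subtype.val y.2), ?_⟩⟩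
        left_inv := fun y => Subtype.ext (torPVal_injective p T rfl)
        right_inv := fun y => Subtype.ext (Subtype.ext rfl) }
    · obtain ⟨x, hx⟩ := y.2
      exact ⟨torPVal p T x, (congrArg (torPVal p T) ((hT x).symm.trans hx))⟩
    · obtain ⟨z, hz⟩ := y.1.2
      refine (hT _).trans (torPVal_injective p T ?_)
      show E (y.1 : T) = (y.1 : T)
      rw [← hz, hE]
  let ψ : B →+ (DistribSMul.toAddMonoidHom (ModP p T) e).range :=
    ((modPMk p T).comp B.subtype).codRestrict _ fun b => by
      obtain ⟨x, hx⟩ := b.2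
      exact ⟨modPMk p T x, (hM x).trans (congrArg (modPMk p T) hx)⟩
  have hψ : Function.Surjective ψ := fun ⟨y, x, hx⟩ => by
    obtain ⟨x, rfl⟩ := modPMk_surjective p T x
    exact ⟨⟨E x, x, rfl⟩, Subtype.ext ((hM x).symm.trans hx)⟩
  have hker : ψ.ker = μ.range := by
    ext b
    constructor
    · intro hb
      obtain ⟨y, hy⟩ := (modPMk_eq_zero p T).mp (congrArg Subtype.val hb)
      obtain ⟨x, hx⟩ := b.2
      refine ⟨⟨E y, y, rfl⟩, Subtype.ext ?_⟩
      show p • E y = (b : T)
      rw [← map_nsmul, hy]
      show E (b : T) = (b : T)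
      rw [← hx, hE]
    · rintro ⟨c, rfl⟩
      exact Subtype.ext ((modPMk_eq_zero p T).mpr ⟨(c : T), rfl⟩)
  have c2 : Nat.card (DistribSMul.toAddMonoidHom (ModP p T) e).range = μ.range.index := by
    rw [← hker, AddSubgroup.index_ker, AddMonoidHom.range_eq_top_of_surjective ψ hψ,
      AddSubgroup.card_top]
  show (padicValNat p _ : ℤ) = (padicValNat p _ : ℤ)
  rw [c1, c2, natCard_ker_eq_index_range]

section MatMod

variable {d : ℕ} (ρ : G →* Matrix (Fin d) (Fin d) ℤ)

/-- The reduction of a lattice representation. -/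
def MatMod (_ρ : G →* Matrix (Fin d) (Fin d) ℤ) (k : Type) : Type := Fin d → k

variable (k : Type) [CommRing k]

instance addCommGroupMatMod : AddCommGroup (MatMod ρ k) :=
  inferInstanceAs (AddCommGroup (Fin d → k))

omit [Fintype G] in
instance finiteMatMod [Finite k] : Finite (MatMod ρ k) := inferInstanceAs (Finite (Fin d → k))

/-- The action of the group algebra by matrices. -/
def matAlg : MonoidAlgebra k G →ₐ[k] Matrix (Fin d) (Fin d) k :=
  MonoidAlgebra.lift k (Matrix (Fin d) (Fin d) k) G
    (((Int.castRingHom k).mapMatrix : _ →+* Matrix (Fin d) (Fin d) k).toMonoidHom.comp ρ)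

omit [Fintype G] in
theorem matAlg_single (g : G) (c : k) :
    matAlg ρ k (MonoidAlgebra.single g c) = c • (ρ g).map (Int.cast : ℤ → k) := by
  rw [matAlg, MonoidAlgebra.lift_single]
  rfl

instance moduleMatMod : Module (MonoidAlgebra k G) (MatMod ρ k) :=
  letI : Module (Module.End k (Fin d → k)) (MatMod ρ k) :=
    inferInstanceAs (Module (Module.End k (Fin d → k)) (Fin d → k))
  Module.compHom (MatMod ρ k)
    ((Matrix.toLinAlgEquiv' : _ ≃ₐ[k] Module.End k (Fin d → k)).toAlgHom.comp
      (matAlg ρ k)).toRingHom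

theorem trace_matAlg (r : MonoidAlgebra k G) :
    (matAlg ρ k r).trace = ∑ g : G, r.coeff g * ((ρ g).trace : k) := by
  classical
  induction r using MonoidAlgebra.induction_linear with
  | zero => simp
  | add a b ha hb => simp [Matrix.trace_add, ha, hb, add_mul, Finset.sum_add_distrib]
  | single g c =>
    rw [Finset.sum_eq_single g (fun h _ hh => by simp [hh.symm])
      (fun h => absurd (Finset.mem_univ g) h),
      matAlg_single, Matrix.trace_smul, smul_eq_mul,
      show ((ρ g).trace : k) = ((ρ g).map (Int.cast : ℤ → k)).trace from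
        AddMonoidHom.map_trace (Int.castAddHom k) (ρ g)]
    simp

omit [Fintype G] in
theorem matAlg_map {k' : Type} [CommRing k'] (π : k →+* k') (r : MonoidAlgebra k G) :
    (matAlg ρ k r).map π = matAlg ρ k' (MonoidAlgebra.mapRingHom G π r) := by
  induction r using MonoidAlgebra.induction_linear with
  | zero => simp
  | add a b ha hb => rw [map_add, Matrix.map_add π (map_add π), ha, hb, map_add, map_add]
  | single g c =>
    ext x y
    rw [MonoidAlgebra.mapRingHom_single, Matrix.map_apply, matAlg_single, matAlg_single]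
    simp

omit [Fintype G] in
theorem eRank_matMod (e : MonoidAlgebra (ZMod p) G) :
    eRank p e (MatMod ρ (ZMod p)) =
      (Module.finrank (ZMod p) (LinearMap.range (Matrix.toLin' (matAlg ρ (ZMod p) e))) : ℤ) := by
  have hset : (DistribSMul.toAddMonoidHom (MatMod ρ (ZMod p)) e).range =
      (LinearMap.range (Matrix.toLin' (matAlg ρ (ZMod p) e))).toAddSubgroup := rfl
  rw [eRank, hset]
  show ((padicValNat p
    (Nat.card (LinearMap.range (Matrix.toLin' (matAlg ρ (ZMod p) e)))) : ℕ) : ℤ) = _
  rw [Module.natCard_eq_pow_finrank (K := ZMod p), Nat.card_zmod, padicValNat.prime_pow]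

end MatMod

section Class

variable {ι : Type} (s : Finset ι) (c : ι → ℤ) (X : ι → Type) [∀ i, Fintype (X i)]
  [∀ i, MulAction G (X i)]

/-- A lattice with the traces of a combination of permutation representations has the same value. -/
theorem matMod_eq_sum {d : ℕ} (ρ : G →* Matrix (Fin d) (Fin d) ℤ)
    (h : ∀ g : G, (ρ g).trace = ∑ i ∈ s, c i * (Nat.card {x : X i // g • x = x} : ℤ))
    {Φ : ModFun (MonoidAlgebra (ZMod p) G)} (hΦ : IsAdditive Φ) :
    Φ (MatMod ρ (ZMod p)) = ∑ i ∈ s, c i * Φ (Perm (ZMod p) (X i)) := by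
  classical
  let V : Option ι → Type := fun o => match o with
    | none => MatMod ρ (ZMod p)
    | some i => Perm (ZMod p) (X i)
  let iA : ∀ o, AddCommGroup (V o) := fun o => match o with
    | none => inferInstanceAs (AddCommGroup (MatMod ρ (ZMod p)))
    | some i => inferInstanceAs (AddCommGroup (Perm (ZMod p) (X i)))
  let : ∀ o, Module (MonoidAlgebra (ZMod p) G) (V o) := fun o => match o with
    | none => inferInstanceAs (Module (MonoidAlgebra (ZMod p) G) (MatMod ρ (ZMod p)))
    | some i => inferInstanceAs (Module (MonoidAlgebra (ZMod p) G) (Perm (ZMod p) (X i)))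
  have : ∀ o, Finite (V o) := fun o => match o with
    | none => inferInstanceAs (Finite (MatMod ρ (ZMod p)))
    | some i => inferInstanceAs (Finite (Perm (ZMod p) (X i)))
  have key := sum_eq_zero_of_eRank (p := p)
    (by rw [← map_natCast (algebraMap (ZMod p) (MonoidAlgebra (ZMod p) G)), ZMod.natCast_self,
      map_zero]) (Finset.insertNone s) (fun o => o.elim 1 fun i => -c i) V (fun e he => ?_) hΦ
  · rw [Finset.sum_insertNone] at key
    simp only [Option.elim_none, Option.elim_some, one_mul, neg_mul, Finset.sum_neg_distrib] at key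
    exact (add_neg_eq_zero.mp key)
  rw [Finset.sum_insertNone]
  simp only [Option.elim_none, Option.elim_some, one_mul, neg_mul, Finset.sum_neg_distrib,
    add_neg_eq_zero]
  show eRank p e (MatMod ρ (ZMod p)) = ∑ i ∈ s, c i * eRank p e (Perm (ZMod p) (X i))
  set N := eRank p e (MatMod ρ (ZMod p)) - ∑ i ∈ s, c i * eRank p e (Perm (ZMod p) (X i)) with hN
  set n := N.natAbs + 1
  have hn : n ≠ 0 := Nat.succ_ne_zero _
  set π := ZMod.castHom (dvd_pow_self p hn) (ZMod p)
  have : NeZero (p ^ n) := ⟨pow_ne_zero _ (Fact.out : p.Prime).ne_zero⟩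
  obtain ⟨a, ha⟩ := mapRingHom_surjective (G := G) (ZMod.ringHom_surjective π) e
  obtain ⟨k, hk, hidem⟩ := exists_pow_isIdempotentElem a
  have hek : MonoidAlgebra.mapRingHom G π (a ^ k) = e := by
    obtain ⟨j, rfl⟩ : ∃ j, k = j + 1 := ⟨k - 1, by omega⟩
    rw [map_pow, ha, he.pow_succ_eq]
  have htr : ∀ i, ((eRank p e (Perm (ZMod p) (X i)) : ℤ) : ZMod (p ^ n)) =
      ∑ g : G, (a ^ k).coeff g * (Nat.card {x : X i // g • x = x} : ZMod (p ^ n)) := fun i => by
    rw [eRank_perm, Int.cast_natCast, ← trace_permMat,
      trace_eq_rank hn _ (by rw [← map_mul, hidem.eq]), permMat_map, hek]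
  have htr0 : ((eRank p e (MatMod ρ (ZMod p)) : ℤ) : ZMod (p ^ n)) =
      ∑ g : G, (a ^ k).coeff g * ((ρ g).trace : ZMod (p ^ n)) := by
    rw [eRank_matMod, Int.cast_natCast, ← trace_matAlg,
      trace_eq_rank hn _ (by rw [← map_mul, hidem.eq]), matAlg_map, hek]
  have h0 : (N : ZMod (p ^ n)) = 0 := by
    rw [hN, Int.cast_sub, Int.cast_sum, htr0]
    simp only [Int.cast_mul, htr, Finset.mul_sum]
    rw [Finset.sum_comm, ← Finset.sum_sub_distrib]
    refine Finset.sum_eq_zero fun g _ => ?_
    rw [h g, Int.cast_sum, Finset.mul_sum, sub_eq_zero]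
    exact Finset.sum_congr rfl fun i _ => by push_cast; ring
  rw [ZMod.intCast_zmod_eq_zero_iff_dvd] at h0
  refine sub_eq_zero.mp (Int.eq_zero_of_dvd_of_natAbs_lt_natAbs h0 ?_)
  rw [Int.natAbs_natCast]
  exact (Nat.lt_pow_self (Fact.out : p.Prime).one_lt).trans
    (Nat.pow_lt_pow_right (Fact.out : p.Prime).one_lt (Nat.lt_succ_self _))

omit [Fintype G] in
theorem sum_range_eq_sum_zpowers [Finite G] {R : Type} [AddCommMonoid R] (F : G → R) (g : G)
    [Fintype (Subgroup.zpowers g)] :
    ∑ i ∈ Finset.range (orderOf g), F (g ^ i) = ∑ b : Subgroup.zpowers g, F (b : G) := by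
  rw [Finset.sum_range]
  exact Fintype.sum_equiv (finEquivZPowers (isOfFinOrder_of_finite g)) _ _ fun i => rfl

omit [Fact p.Prime] in
/-- The orbit counts of cyclic subgroups in terms of fixed points. -/
theorem sum_range_fixed (Y : Type) [Fintype Y] [MulAction G Y] (g : G) :
    ∑ i ∈ Finset.range (orderOf g), (Nat.card {y : Y // g ^ i • y = y} : ℤ) =
      orderOf g * (Nat.card (MulAction.orbitRel.Quotient (Subgroup.zpowers g) Y) : ℤ) := by
  classical
  rw [sum_range_eq_sum_zpowers (fun h : G => (Nat.card {y : Y // h • y = y} : ℤ)) g]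
  have h1 := MulAction.sum_card_fixedBy_eq_card_orbits_mul_card_group (Subgroup.zpowers g) Y
  rw [← Nat.card_zpowers, ← Nat.cast_mul, mul_comm,
    Nat.card_eq_fintype_card (α := Subgroup.zpowers g),
    Nat.card_eq_fintype_card, ← h1, Nat.cast_sum]
  refine Finset.sum_congr rfl fun b _ => ?_
  rw [← Nat.card_eq_fintype_card]
  rfl

variable (U : Type) [AddCommGroup U] [DistribMulAction G U] [Module.Finite ℤ U]

/-- **The class of a lattice modulo `p`.** -/
theorem modP_eq (h : ∀ g : G, (Module.finrank ℤ (fixAt g U).toIntSubmodule : ℤ) =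
      ∑ i ∈ s, c i * (Nat.card (MulAction.orbitRel.Quotient (Subgroup.zpowers g) (X i)) : ℤ))
    {Φ : ModFun (MonoidAlgebra (ZMod p) G)} (hΦ : IsAdditive Φ) :
    Φ (ModP p U) = Φ (TorP p U) + ∑ i ∈ s, c i * Φ (Perm (ZMod p) (X i)) := by
  classical
  have hp := (Fact.out : p.Prime)
  set T := Submodule.torsion ℤ U with hTdef
  have : Finite T := finite_torsion U
  set d := Module.finrank ℤ (U ⧸ T)
  let b : Module.Basis (Fin d) ℤ (U ⧸ T) := Module.finBasis ℤ (U ⧸ T)
  let q : U →ₗ[ℤ] (Fin d → ℤ) := b.equivFun.toLinearMap.comp T.mkQ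
  have hq : Function.Surjective q := b.equivFun.surjective.comp T.mkQ_surjective
  have hqker : ∀ x, q x = 0 ↔ x ∈ T := fun x => by
    show b.equivFun (T.mkQ x) = 0 ↔ _
    rw [b.equivFun.map_eq_zero_iff]
    exact Submodule.Quotient.mk_eq_zero _
  have hstab : ∀ g : G, T ≤ T.comap (DistribSMul.toAddMonoidHom U g).toIntLinearMap :=
    fun g x hx => (g • (⟨x, hx⟩ : Submodule.torsion ℤ U)).2
  let act : G → (Fin d → ℤ) →ₗ[ℤ] (Fin d → ℤ) := fun g =>
    b.equivFun.toLinearMap.comp ((T.mapQ T (DistribSMul.toAddMonoidHom U g).toIntLinearMap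
      (hstab g)).comp b.equivFun.symm.toLinearMap)
  have hact : ∀ g x, act g (q x) = q (g • x) := fun g x => by
    show b.equivFun ((T.mapQ T (DistribSMul.toAddMonoidHom U g).toIntLinearMap (hstab g))
      (b.equivFun.symm (b.equivFun (T.mkQ x)))) = _
    rw [LinearEquiv.symm_apply_apply]
    rfl
  let ρ : G →* Matrix (Fin d) (Fin d) ℤ :=
    { toFun := fun g => LinearMap.toMatrix' (act g)
      map_one' := by
        rw [show act 1 = LinearMap.id from LinearMap.ext fun y => by
          obtain ⟨x, rfl⟩ := hq y
          rw [hact, one_smul, LinearMap.id_apply], LinearMap.toMatrix'_id]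
      map_mul' := fun g g' => by
        rw [← LinearMap.toMatrix'_comp, show act (g * g') = (act g).comp (act g') from
          LinearMap.ext fun y => by
            obtain ⟨x, rfl⟩ := hq y
            show act (g * g') (q x) = act g (act g' (q x))
            rw [hact, hact, hact, mul_smul]] }
  have hρ : ∀ g x, (ρ g).mulVec (q x) = q (g • x) := fun g x => by
    rw [← hact, ← Matrix.toLin'_apply]
    exact LinearMap.congr_fun (Matrix.toLin'_toMatrix' (act g)) _
  have hrk : ∀ g, Module.finrank ℤ (fixLattice ρ g) = Module.finrank ℤ (fixAt g U).toIntSubmodule :=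
    fun g => by
    let F := (fixAt g U).toIntSubmodule
    let q' : F →ₗ[ℤ] fixLattice ρ g := (q.comp F.subtype).codRestrict _ fun x =>
      (mem_fixLattice ρ).mpr ((hρ g x).trans (congrArg q x.2))
    have hk : Module.finrank ℤ (LinearMap.ker q') = 0 := by
      refine Module.finrank_eq_zero_iff_isTorsion.mpr fun x => ?_
      obtain ⟨m, hm⟩ := (Submodule.mem_torsion_iff _).mp
        ((hqker ((x : F) : U)).mp (congrArg Subtype.val x.2))
      exact ⟨m, Subtype.ext (Subtype.ext hm)⟩
    have h1 := (LinearMap.ker q').finrank_quotient_add_finrank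
    rw [q'.quotKerEquivRange.finrank_eq, hk, add_zero] at h1
    refine le_antisymm ?_ (h1 ▸ Submodule.finrank_le _)
    rw [← h1]
    let n := orderOf g
    have hn : (n : ℤ) ≠ 0 := Nat.cast_ne_zero.mpr (orderOf_pos g).ne'
    have hin : ∀ y : fixLattice ρ g, (n : ℤ) • y ∈ LinearMap.range q' := fun y => by
      obtain ⟨x, hx⟩ := hq (y : Fin d → ℤ)
      have hfix : g • (∑ i ∈ Finset.range n, g ^ i • x) = ∑ i ∈ Finset.range n, g ^ i • x := by
        rw [Finset.smul_sum]
        have e2 := Finset.sum_range_succ' (fun i => g ^ i • x) n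
        rw [Finset.sum_range_succ, show g ^ n • x = g ^ 0 • x by rw [pow_orderOf_eq_one, pow_zero]]
          at e2
        rw [add_right_cancel e2]
        exact Finset.sum_congr rfl fun i _ => by rw [smul_smul, ← pow_succ']
      refine ⟨⟨_, hfix⟩, Subtype.ext ?_⟩
      show q (∑ i ∈ Finset.range n, g ^ i • x) = (n : ℤ) • (y : Fin d → ℤ)
      have hi : ∀ i, q (g ^ i • x) = q x := fun i => by
        induction i with
        | zero => rw [pow_zero, one_smul]
        | succ i ih =>
          rw [pow_succ', mul_smul, ← hρ, ih, hx]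
          exact (mem_fixLattice ρ).mp y.2
      rw [map_sum, Finset.sum_congr rfl fun i _ => hi i, Finset.sum_const, Finset.card_range, hx,
        natCast_zsmul]
    exact LinearMap.finrank_le_finrank_of_injective
      (f := ((n : ℤ) • (LinearMap.id : fixLattice ρ g →ₗ[ℤ] fixLattice ρ g)).codRestrict _ hin)
      fun y y' e => smul_right_injective _ hn (congrArg Subtype.val e)
  have htr : ∀ g, (ρ g).trace = ∑ i ∈ s, c i * (Nat.card {x : X i // g • x = x} : ℤ) := fun g => by
    refine trace_eq_of_finrank_fixLattice ρ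
      (fun g => ∑ i ∈ s, c i * (Nat.card {x : X i // g • x = x} : ℤ)) (fun g a ha => ?_)
      (fun g => ?_) g
    · refine Finset.sum_congr rfl fun i _ => ?_
      congr 2
      obtain ⟨m, hm⟩ := exists_pow_eq_self_of_coprime ha
      refine Nat.card_congr (Equiv.subtypeEquivRight fun x => ⟨fun hx => ?_, fun hx => ?_⟩)
      · have := MulAction.mem_stabilizer_iff.mp (pow_mem
          (show g ^ a ∈ MulAction.stabilizer G x from hx) m)
        rwa [hm] at this
      · exact MulAction.mem_stabilizer_iff.mp
          (pow_mem (show g ∈ MulAction.stabilizer G x from hx) a)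
    · rw [Finset.sum_comm, hrk, h, Finset.mul_sum]
      refine Finset.sum_congr rfl fun i _ => ?_
      rw [← Finset.mul_sum, sum_range_fixed]
      ring
  -- the sequence `0 → T/p → U/p → L/p → 0`
  let cast : (Fin d → ℤ) →+ MatMod ρ (ZMod p) :=
    { toFun := fun v i => (v i : ZMod p)
      map_zero' := funext fun i => Int.cast_zero
      map_add' := fun v w => funext fun i => Int.cast_add _ _ }
  have hcast : ∀ v, cast v = 0 ↔ ∃ w, (p : ℤ) • w = v := fun v => by
    refine ⟨fun h0 => ?_, fun ⟨w, hw⟩ => ?_⟩
    · have hd : ∀ i, (p : ℤ) ∣ v i := fun i =>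
        (ZMod.intCast_zmod_eq_zero_iff_dvd _ _).mp (congrFun h0 i)
      choose w hw using hd
      exact ⟨w, funext fun i => (hw i).symm⟩
    · subst hw
      funext i
      show (((p : ℤ) * w i : ℤ) : ZMod p) = 0
      simp
  let π₀ : ModP p U →+ MatMod ρ (ZMod p) := QuotientAddGroup.lift _ (cast.comp q.toAddMonoidHom) (by
    rintro _ ⟨y, rfl⟩
    refine (hcast _).mpr ⟨q y, ?_⟩
    show (p : ℤ) • q y = q (p • y)
    rw [map_nsmul, natCast_zsmul])
  let i₀ : ModP p T →+ ModP p U := QuotientAddGroup.map _ _ T.subtype.toAddMonoidHom (by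
    rintro _ ⟨y, rfl⟩
    exact ⟨(y : U), rfl⟩)
  have hπ0 : ∀ x, π₀ (modPMk p U x) = cast (q x) := fun x => rfl
  have hi0 : ∀ x : T, i₀ (modPMk p T x) = modPMk p U (x : U) := fun x => rfl
  have hπeq : ∀ (g : G) x, MonoidAlgebra.single g (1 : ZMod p) • π₀ (modPMk p U x) =
      π₀ (modPMk p U (g • x)) := fun g x => by
    rw [hπ0, hπ0, ← hρ]
    show Matrix.toLin' (matAlg ρ (ZMod p) (MonoidAlgebra.single g 1))
      (fun i => (q x i : ZMod p)) = _
    rw [matAlg_single, one_smul, Matrix.toLin'_apply]
    exact funext fun i => (RingHom.map_mulVec (Int.castRingHom (ZMod p)) (ρ g) (q x) i).symm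
  have lin : ∀ {V W : Type} [AddCommGroup V] [Module (MonoidAlgebra (ZMod p) G) V] [AddCommGroup W]
      [Module (MonoidAlgebra (ZMod p) G) W] (f : V →+ W),
      (∀ (g : G) v, MonoidAlgebra.single g (1 : ZMod p) • f v =
        f (MonoidAlgebra.single g (1 : ZMod p) • v)) →
      ∀ (r : MonoidAlgebra (ZMod p) G) v, f (r • v) = r • f v := by
    intro V W _ _ _ _ f hf r v
    induction r using MonoidAlgebra.induction_linear with
    | zero => simp
    | add r r' hr hr' => simp [add_smul, hr, hr']
    | single g m =>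
      have e1 : MonoidAlgebra.single g m = m.val • MonoidAlgebra.single g (1 : ZMod p) := by
        rw [MonoidAlgebra.smul_single, nsmul_eq_mul, mul_one, ZMod.natCast_zmod_val]
      rw [e1, smul_assoc, smul_assoc, map_nsmul, hf]
  let π₁ : ModP p U →ₗ[MonoidAlgebra (ZMod p) G] MatMod ρ (ZMod p) :=
    { toFun := π₀
      map_add' := map_add π₀
      map_smul' := fun r v => lin π₀ (fun g v => by
        obtain ⟨x, rfl⟩ := modPMk_surjective p U v
        rw [hπeq, gModule_single p _ (modP_torsion p U), modPMk_smul]) r v }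
  let i₁ : ModP p T →ₗ[MonoidAlgebra (ZMod p) G] ModP p U :=
    { toFun := i₀
      map_add' := map_add i₀
      map_smul' := fun r v => lin i₀ (fun g v => by
        obtain ⟨x, rfl⟩ := modPMk_surjective p T v
        rw [hi0, gModule_single p _ (modP_torsion p U), gModule_single p _ (modP_torsion p T)]
        rfl) r v }
  have hinj : Function.Injective i₁ := (injective_iff_map_eq_zero i₁).mpr fun v hv => by
    obtain ⟨x, rfl⟩ := modPMk_surjective p T v
    obtain ⟨y, hy⟩ := (modPMk_eq_zero p U).mp ((hi0 x).symm.trans hv)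
    have hyT : y ∈ T := by
      obtain ⟨m, hm⟩ := (Submodule.mem_torsion_iff _).mp x.2
      refine (Submodule.mem_torsion_iff _).mpr ⟨m * ⟨(p : ℤ), mem_nonZeroDivisors_of_ne_zero
        (Nat.cast_ne_zero.mpr hp.ne_zero)⟩, ?_⟩
      show ((m : ℤ) * (p : ℤ)) • y = 0
      rw [mul_smul, natCast_zsmul, hy]
      exact hm
    exact (modPMk_eq_zero p T).mpr ⟨⟨y, hyT⟩, Subtype.ext hy⟩
  have hsurj : Function.Surjective π₁ := fun v => by
    obtain ⟨x, hx⟩ := hq fun i => ((v i : ZMod p).val : ℤ)
    refine ⟨modPMk p U x, (hπ0 x).trans ?_⟩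
    rw [hx]
    exact funext fun i => by
      show (((v i : ZMod p).val : ℤ) : ZMod p) = v i
      simp
  have hex : Function.Exact i₁ π₁ := fun v => by
    obtain ⟨x, rfl⟩ := modPMk_surjective p U v
    refine ⟨fun h0 => ?_, fun ⟨w, hw⟩ => ?_⟩
    · obtain ⟨w, hw⟩ := (hcast _).mp ((hπ0 x).symm.trans h0)
      obtain ⟨y, rfl⟩ := hq w
      have hT' : x - p • y ∈ T := (hqker _).mp (by
        rw [map_sub, map_nsmul, ← natCast_zsmul (q y), hw, sub_self])
      refine ⟨modPMk p T ⟨_, hT'⟩, (hi0 _).trans ?_⟩
      show modPMk p U (x - p • y) = modPMk p U x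
      rw [map_sub, (modPMk_eq_zero p U).mpr ⟨y, rfl⟩, sub_zero]
    · obtain ⟨z, rfl⟩ := modPMk_surjective p T w
      rw [← hw]
      show π₀ (i₀ (modPMk p T z)) = 0
      rw [hi0, hπ0, (hqker _).mpr z.2, map_zero]
  rw [hΦ _ _ _ i₁ π₁ hinj hsurj hex, matMod_eq_sum s c X ρ htr hΦ]
  congr 1
  let M : Bool → Type := fun z => match z with | true => ModP p T | false => TorP p U
  let : ∀ z, AddCommGroup (M z) := fun z => match z with
    | true => inferInstanceAs (AddCommGroup (ModP p T))
    | false => inferInstanceAs (AddCommGroup (TorP p U))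
  let : ∀ z, Module (MonoidAlgebra (ZMod p) G) (M z) := fun z => match z with
    | true => inferInstanceAs (Module (MonoidAlgebra (ZMod p) G) (ModP p T))
    | false => inferInstanceAs (Module (MonoidAlgebra (ZMod p) G) (TorP p U))
  have : ∀ z, Finite (M z) := fun z => match z with
    | true => inferInstanceAs (Finite (ModP p T))
    | false => inferInstanceAs (Finite (TorP p U))
  let j : TorP p T →+ TorP p U :=
    { toFun := fun x => torPMk p U ((torPVal p T x : T) : U)
          (congrArg Subtype.val (torP_spec p T x))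
      map_zero' := rfl
      map_add' := fun _ _ => rfl }
  let j₁ : TorP p T →ₗ[MonoidAlgebra (ZMod p) G] TorP p U :=
    { toFun := j
      map_add' := map_add j
      map_smul' := fun r v => lin j (fun g v => by
        rw [gModule_single p _ (torP_torsion p U), gModule_single p _ (torP_torsion p T)]
        rfl) r v }
  have hj : Function.Bijective j₁ := ⟨fun x y e => torPVal_injective p T
    (Subtype.ext (congrArg (torPVal p U) e)), fun x =>
      ⟨torPMk p T ⟨torPVal p U x, mem_torsion_of_nsmul_eq_zero U hp.ne_zero (torP_spec p U x)⟩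
        (Subtype.ext (torP_spec p U x)), torPVal_injective p U rfl⟩⟩
  have key := sum_eq_zero_of_eRank (p := p)
    (by rw [← map_natCast (algebraMap (ZMod p) (MonoidAlgebra (ZMod p) G)), ZMod.natCast_self,
      map_zero]) (Finset.univ : Finset Bool) (fun z => if z then (1 : ℤ) else -1) M
    (fun e he => ?_) hΦ
  · rw [Fintype.sum_bool] at key
    simp only [if_true, Bool.false_eq_true, if_false, one_mul, neg_mul] at key
    exact add_neg_eq_zero.mp key
  · rw [Fintype.sum_bool]
    simp only [if_true, Bool.false_eq_true, if_false, one_mul, neg_mul]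
    show eRank p e (ModP p T) + -eRank p e (TorP p U) = 0
    rw [← eRank_torP_eq_modP T e he,
      (isAdditive_eRank p he).congr (LinearEquiv.ofBijective j₁ hj), add_neg_cancel]

end Class

end Fermat.Agent.EulerChar

end
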