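import Fermat.Agent.Duality.Coh.Theta
import Fermat.Agent.Duality.Coh.Cor

/-!
# Induced modules and Shapiro's lemma in degrees at most one
-/

set_option autoImplicit false

noncomputable section

namespace Fermat.Agent.EulerChar

open Duality.Coh

variable {G : Type} [Group G] (H : Subgroup G) (W : Type) [AddCommGroup W] [DistribMulAction H W]

/-- The induced module, as functions on cosets. -/
def IndMod : Type := G ⧸ H → W

instance addCommGroupIndMod : AddCommGroup (IndMod H W) :=
  inferInstanceAs (AddCommGroup (G ⧸ H → W))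

instance finiteIndMod [Finite W] [Finite (G ⧸ H)] : Finite (IndMod H W) :=
  inferInstanceAs (Finite (G ⧸ H → W))

variable {W}

omit [AddCommGroup W] [DistribMulAction H W] in
@[ext] theorem IndMod.ext {f f' : IndMod H W} (h : ∀ q, f q = f' q) : f = f' := funext h

theorem cosetFactor_one (q : G ⧸ H) : cosetFactor H (1 : G) q = 1 := by
  apply Subtype.ext
  simp [cosetFactor]

variable (W) in
/-- The induced action. -/
instance indModAction : DistribMulAction G (IndMod H W) where
  smul g f := fun q => cosetFactor H g (g⁻¹ • q) • f (g⁻¹ • q)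
  one_smul f := IndMod.ext H fun q => by
    show cosetFactor H (1 : G) ((1 : G)⁻¹ • q) • f ((1 : G)⁻¹ • q) = f q
    rw [inv_one, one_smul, cosetFactor_one, one_smul]
  mul_smul g h f := IndMod.ext H fun q => by
    show cosetFactor H (g * h) ((g * h)⁻¹ • q) • f ((g * h)⁻¹ • q) =
      cosetFactor H g (g⁻¹ • q) • cosetFactor H h (h⁻¹ • g⁻¹ • q) • f (h⁻¹ • g⁻¹ • q)
    rw [mul_inv_rev, mul_smul h⁻¹ g⁻¹, cosetFactor_mul, smul_inv_smul, mul_smul]
  smul_zero g := IndMod.ext H fun q => smul_zero (cosetFactor H g (g⁻¹ • q))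
  smul_add g f f' := IndMod.ext H fun q => smul_add (cosetFactor H g (g⁻¹ • q)) _ _

theorem IndMod.smul_apply (g : G) (f : IndMod H W) (q : G ⧸ H) :
    (g • f) q = cosetFactor H g (g⁻¹ • q) • f (g⁻¹ • q) := rfl

theorem IndMod.smul_apply_smul (g : G) (f : IndMod H W) (q : G ⧸ H) :
    (g • f) (g • q) = cosetFactor H g q • f q := by
  rw [IndMod.smul_apply, inv_smul_smul]

omit [DistribMulAction H W] in
theorem IndMod.torsion {n : ℕ} (hW : ∀ w : W, n • w = 0) (f : IndMod H W) : n • f = 0 :=
  funext fun _ => hW _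

variable (W) in
theorem IndMod.isSmooth {𝓛 : Levels G} (hH : 𝓛.ok H) [Finite W]
    (hW : IsSmooth (𝓛.restrict H) W) : IsSmooth 𝓛 (IndMod H W) := fun f => by
  obtain ⟨U, hU, hfix⟩ := hW.exists_fixing (id : W → W)
  obtain ⟨N, hN, hNn, hNH, hNU⟩ := exists_normal_level hH hU
  refine ⟨N, hN, fun s hs => IndMod.ext H fun q => ?_⟩
  obtain ⟨hq, u, hu, he⟩ := cosetFactor_mul_right H hNH (1 : G) hs q
  rw [one_mul, cosetFactor_one, one_mul] at he
  conv_lhs => rw [← hq]
  rw [IndMod.smul_apply_smul, he]
  exact hfix _ u (hNU u hu)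

/-- The base coset. -/
def baseCoset : G ⧸ H := ((1 : G) : G ⧸ H)

/-- The representative of the base coset. -/
def baseRep : H := ⟨(baseCoset H).out, by
  obtain ⟨u, hu⟩ := QuotientGroup.mk_out_eq_mul H (1 : G)
  rw [baseCoset, hu, one_mul]
  exact u.2⟩

theorem smul_baseCoset (h : H) : (h : G) • baseCoset H = baseCoset H := by
  rw [baseCoset, MulAction.Quotient.smul_coe, smul_eq_mul, mul_one, QuotientGroup.eq]
  simp

theorem out_smul_baseCoset (q : G ⧸ H) : q.out • baseCoset H = q := by
  rw [baseCoset, MulAction.Quotient.smul_coe, smul_eq_mul, mul_one, QuotientGroup.out_eq']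

theorem cosetFactor_base (h : H) :
    cosetFactor H (h : G) (baseCoset H) = (baseRep H)⁻¹ * h * baseRep H := by
  apply Subtype.ext
  show ((h : G) • baseCoset H).out⁻¹ * ((h : G) * (baseCoset H).out) = _
  rw [smul_baseCoset, ← mul_assoc]
  rfl

theorem cosetFactor_out (q : G ⧸ H) : cosetFactor H q.out (baseCoset H) = baseRep H := by
  apply Subtype.ext
  show (q.out • baseCoset H).out⁻¹ * (q.out * (baseCoset H).out) = _
  rw [out_smul_baseCoset, inv_mul_cancel_left]
  rfl

variable (W) in
/-- Evaluation at the base coset. -/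
def indEval : IndMod H W →+ W where
  toFun f := baseRep H • f (baseCoset H)
  map_zero' := smul_zero (baseRep H)
  map_add' _ _ := smul_add (baseRep H) _ _

theorem isEquivariant_indEval : IsEquivariant H.subtype (indEval H W) := fun h f => by
  show baseRep H • ((h : G) • f) (baseCoset H) = h • baseRep H • f (baseCoset H)
  conv_lhs => rw [← smul_baseCoset H h, IndMod.smul_apply_smul, cosetFactor_base]
  rw [smul_smul, smul_smul, ← mul_assoc, ← mul_assoc, mul_inv_cancel, one_mul]

/-- The element supported at the base coset. -/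
def indDelta : W →+ IndMod H W where
  toFun w := by
    classical exact Pi.single (M := fun _ : G ⧸ H => W) (baseCoset H) ((baseRep H)⁻¹ • w)
  map_zero' := by classical rw [smul_zero]; exact Pi.single_zero _
  map_add' w w' := by classical rw [smul_add]; exact Pi.single_add _ _ _

theorem indDelta_base (w : W) : indDelta H w (baseCoset H) = (baseRep H)⁻¹ • w := by
  classical exact Pi.single_eq_same _ _

theorem indDelta_ne {q : G ⧸ H} (hq : q ≠ baseCoset H) (w : W) : indDelta H w q = 0 := by
  classical exact Pi.single_eq_of_ne (M := fun _ : G ⧸ H => W) hq _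

theorem smul_indDelta (q : G ⧸ H) (w : W) :
    (q.out • indDelta H w) q = w ∧ ∀ q', q' ≠ q → (q.out • indDelta H w) q' = 0 := by
  refine ⟨?_, fun q' hq' => ?_⟩
  · have h := IndMod.smul_apply_smul H q.out (indDelta H w) (baseCoset H)
    rwa [out_smul_baseCoset, cosetFactor_out, indDelta_base, smul_inv_smul] at h
  · rw [IndMod.smul_apply, indDelta_ne, smul_zero]
    intro h
    exact hq' (by rw [← out_smul_baseCoset H q, ← h, smul_inv_smul])

theorem indDelta_smul (h : H) (w : W) : indDelta H (h • w) = (h : G) • indDelta H w := by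
  refine IndMod.ext H fun q => ?_
  by_cases hq : q = baseCoset H
  · subst hq
    conv_rhs => rw [← smul_baseCoset H h, IndMod.smul_apply_smul, cosetFactor_base]
    rw [indDelta_base, indDelta_base]
    simp [mul_smul]
  · rw [indDelta_ne H hq, IndMod.smul_apply, indDelta_ne, smul_zero]
    intro h'
    exact hq (by rw [← smul_baseCoset H h, ← h', smul_inv_smul])

section Shapiro

/-- Shapiro in degree zero. -/
def invIndEquiv : inv G (IndMod H W) ≃ inv H W where
  toFun f := ⟨indEval H W f, (isEquivariant_indEval H).map_inv f.2⟩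
  invFun w := ⟨fun _ => (w : W), fun g => IndMod.ext H fun q => w.2 _⟩
  left_inv f := Subtype.ext (IndMod.ext H fun q => by
    show baseRep H • (f : IndMod H W) (baseCoset H) = (f : IndMod H W) q
    conv_rhs => rw [← f.2 q.out, ← out_smul_baseCoset H q]
    rw [out_smul_baseCoset H q]
    have := IndMod.smul_apply_smul H q.out (f : IndMod H W) (baseCoset H)
    rw [out_smul_baseCoset, cosetFactor_out] at this
    exact this.symm)
  right_inv w := Subtype.ext (w.2 _)

variable {𝓛 : Levels G}

variable (W 𝓛) in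
/-- The Shapiro map in degree one. -/
def shapiroMap : H1 𝓛 (IndMod H W) →+ H1 (𝓛.restrict H) W :=
  H1.map (𝓛.compat_subtype H) (isEquivariant_indEval H)

theorem shapiroMap_injective : Function.Injective (shapiroMap H W 𝓛) := by
  refine (injective_iff_map_eq_zero _).mpr fun x hx => ?_
  obtain ⟨z, rfl⟩ := H1.mk_surjective x
  obtain ⟨w, hw⟩ := H1.mk_eq_zero.mp hx
  refine H1.mk_eq_zero.mpr ?_
  have hz := (mem_Z1.mp z.2).2
  let z' : G → IndMod H W := fun g => (z : G → IndMod H W) g - (g • indDelta H w - indDelta H w)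
  have hz' : ∀ g h, z' (g * h) = g • z' h + z' g := fun g h => by
    simp only [z', hz g h, mul_smul, smul_sub]
    abel
  have hb : ∀ h : H, z' (h : G) (baseCoset H) = 0 := fun h => by
    have h1 : indEval H W ((z : G → IndMod H W) (h : G)) = h • w - w := hw h
    have h2 : ∀ v : W, indEval H W (indDelta H v) = v := fun v => by
      show baseRep H • indDelta H v (baseCoset H) = v
      rw [indDelta_base, smul_inv_smul]
    have h3 : indEval H W (z' (h : G)) = 0 := by
      show indEval H W ((z : G → IndMod H W) (h : G) - _) = 0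
      rw [map_sub, map_sub, h1, ← indDelta_smul, h2, h2, sub_self]
    exact (smul_eq_zero_iff_eq (baseRep H)).mp h3
  let u : IndMod H W := fun q => z' q.out q
  refine ⟨indDelta H w - u, fun g => IndMod.ext H fun q => ?_⟩
  set k := g⁻¹ • q with hk
  have hgk : g • k = q := smul_inv_smul g q
  have hval : z' (g * k.out) q = u q := by
    rw [← hgk, ← out_mul_cosetFactor H g k, hz']
    show ((g • k).out • z' (cosetFactor H g k : G)) (g • k) + z' (g • k).out (g • k) = _
    have h4 := IndMod.smul_apply_smul H (g • k).out (z' (cosetFactor H g k : G)) (baseCoset H)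
    rw [out_smul_baseCoset] at h4
    rw [h4, hb, smul_zero, zero_add]
  rw [hz'] at hval
  change (g • z' k.out) q + z' g q = u q at hval
  have h5 : (g • z' k.out) q = (g • u) q := rfl
  rw [h5] at hval
  rw [smul_sub]
  show (z : G → IndMod H W) g q = (g • indDelta H w) q - (g • u) q - (indDelta H w q - u q)
  rw [← hval, show z' g q = (z : G → IndMod H W) g q - ((g • indDelta H w) q - indDelta H w q)
    from rfl]
  abel

theorem shapiroMap_surjective (hH : 𝓛.ok H) : Function.Surjective (shapiroMap H W 𝓛) := by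
  intro y
  obtain ⟨x, rfl⟩ := H1.mk_surjective y
  have hx := (mem_Z1.mp x.2).2
  let z : G → IndMod H W := fun g q => (x : H → W) (cosetFactor H g (g⁻¹ • q))
  have hzc : IsConst₁ 𝓛 z := by
    obtain ⟨U, hU, hfx⟩ := x.2.1
    obtain ⟨N, hN, hNn, hNH, hNU⟩ := exists_normal_level hH hU
    refine ⟨N, hN, fun g s hs => IndMod.ext H fun q => ?_⟩
    obtain ⟨hq, u, hu, he⟩ := cosetFactor_mul_right H hNH g hs (g⁻¹ • q)
    show (x : H → W) (cosetFactor H (g * s) ((g * s)⁻¹ • q)) =
      (x : H → W) (cosetFactor H g (g⁻¹ • q))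
    rw [show (g * s)⁻¹ • q = g⁻¹ • q by rw [mul_inv_rev, mul_smul, inv_smul_eq_iff, hq], he,
      hfx _ _ (hNU u hu)]
  refine ⟨H1.mk ⟨z, mem_Z1.mpr ⟨hzc, fun g h => IndMod.ext H fun q => ?_⟩⟩, ?_⟩
  · show (x : H → W) (cosetFactor H (g * h) ((g * h)⁻¹ • q)) =
      cosetFactor H g (g⁻¹ • q) • (x : H → W) (cosetFactor H h (h⁻¹ • g⁻¹ • q)) +
        (x : H → W) (cosetFactor H g (g⁻¹ • q))
    rw [mul_inv_rev, mul_smul h⁻¹ g⁻¹, cosetFactor_mul, smul_inv_smul, hx]
  · refine H1.mk_eq_mk.mpr ⟨(x : H → W) (baseRep H), fun h => ?_⟩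
    show baseRep H • (x : H → W) (cosetFactor H (h : G) ((h : G)⁻¹ • baseCoset H)) = _
    rw [show (h : G)⁻¹ • baseCoset H = baseCoset H from
        inv_smul_eq_iff.mpr (smul_baseCoset H h).symm,
      cosetFactor_base, mul_assoc, hx, hx]
    have h1 : (x : H → W) 1 = 0 := by
      have := hx 1 1
      rwa [one_mul, one_smul, left_eq_add] at this
    have hinv : baseRep H • (x : H → W) (baseRep H)⁻¹ = -(x : H → W) (baseRep H) := by
      rw [← add_eq_zero_iff_eq_neg, ← hx, mul_inv_cancel, h1]
    rw [smul_add, smul_inv_smul, hinv]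
    abel

/-- Shapiro in degree one. -/
def shapiroEquiv (hH : 𝓛.ok H) : H1 𝓛 (IndMod H W) ≃ H1 (𝓛.restrict H) W :=
  Equiv.ofBijective (shapiroMap H W 𝓛) ⟨shapiroMap_injective H, shapiroMap_surjective H hH⟩

end Shapiro

section Hom

variable [Fintype (G ⧸ H)] {C : Type} [AddCommGroup C] [DistribMulAction G C]

/-- The adjunction for homomorphisms out of an induced module. -/
def homIndEquiv : inv G (HomMod (IndMod H W) C) ≃ inv H (HomMod W C) where
  toFun Φ := ⟨HomMod.of ((Φ : HomMod (IndMod H W) C).toHom.comp (indDelta H)), fun h =>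
    HomMod.ext fun w => by
      show h • (Φ : HomMod (IndMod H W) C) (indDelta H (h⁻¹ • w)) =
        (Φ : HomMod (IndMod H W) C) (indDelta H w)
      conv_rhs => rw [show w = h • h⁻¹ • w from (smul_inv_smul h w).symm, indDelta_smul]
      exact (HomMod.isEquivariant_of_mem_inv Φ.2 (h : G) _).symm⟩
  invFun ψ := ⟨HomMod.of
    { toFun := fun f => ∑ q : G ⧸ H, q.out • (ψ : HomMod W C) (f q)
      map_zero' := Finset.sum_eq_zero fun q _ => by
        show q.out • (ψ : HomMod W C) 0 = 0
        rw [map_zero, smul_zero]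
      map_add' := fun f f' => by
        rw [← Finset.sum_add_distrib]
        exact Finset.sum_congr rfl fun q _ => by
          rw [← smul_add, ← map_add]
          rfl }, fun g => HomMod.ext fun f => by
      show g • ∑ q : G ⧸ H, q.out • (ψ : HomMod W C) ((g⁻¹ • f) q) =
        ∑ q : G ⧸ H, q.out • (ψ : HomMod W C) (f q)
      rw [Finset.smul_sum]
      refine Fintype.sum_equiv (MulAction.toPerm g) _ _ fun q => ?_
      have h1 : f (g • q) = cosetFactor H g q • (g⁻¹ • f) q := by
        rw [← IndMod.smul_apply_smul, smul_inv_smul]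
      rw [MulAction.toPerm_apply, h1, smul_smul, ← out_mul_cosetFactor H g q, mul_smul]
      exact congrArg _ (HomMod.isEquivariant_of_mem_inv ψ.2 (cosetFactor H g q) _).symm⟩
  left_inv Φ := Subtype.ext (HomMod.ext fun f => by
    show ∑ q : G ⧸ H, q.out • (Φ : HomMod (IndMod H W) C) (indDelta H (f q)) = _
    have hf : f = ∑ q : G ⧸ H, q.out • indDelta H (f q) := by
      funext q'
      refine ((Finset.sum_apply q' Finset.univ fun q : G ⧸ H =>
        ((q.out • indDelta H (f q) : IndMod H W) : G ⧸ H → W)).trans ?_).symm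
      rw [Finset.sum_eq_single q' (fun q _ hq => (smul_indDelta H q (f q)).2 q' (Ne.symm hq))
        (fun h => absurd (Finset.mem_univ q') h), (smul_indDelta H q' (f q')).1]
    conv_rhs => rw [hf, map_sum]
    exact Finset.sum_congr rfl fun q _ => (HomMod.isEquivariant_of_mem_inv Φ.2 q.out _).symm)
  right_inv ψ := Subtype.ext (HomMod.ext fun w => by
    show ∑ q : G ⧸ H, q.out • (ψ : HomMod W C) (indDelta H w q) = _
    rw [Finset.sum_eq_single (baseCoset H) (fun q _ hq => by
        rw [indDelta_ne H hq, map_zero, smul_zero]) (fun h => absurd (Finset.mem_univ _) h),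
      indDelta_base]
    have h2 := HomMod.isEquivariant_of_mem_inv ψ.2 (baseRep H) ((baseRep H)⁻¹ • w)
    rw [MonoidHom.id_apply, smul_inv_smul] at h2
    exact h2.symm)

end Hom

section Functorial

variable {W' : Type} [AddCommGroup W'] [DistribMulAction H W']

/-- Functoriality of induction. -/
def indMap (φ : W →+ W') : IndMod H W →+ IndMod H W' where
  toFun f := fun q => φ (f q)
  map_zero' := funext fun _ => map_zero φ
  map_add' _ _ := funext fun _ => map_add φ _ _

theorem isEquivariant_indMap {φ : W →+ W'} (hφ : IsEquivariant (MonoidHom.id H) φ) :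
    IsEquivariant (MonoidHom.id G) (indMap H φ) := fun _ _ => IndMod.ext H fun _ => hφ _ _

/-- Induction of a short exact sequence. -/
def indSeq {𝓛 : Levels G} (hH : 𝓛.ok H) {A B Q : Type} [AddCommGroup A] [DistribMulAction H A]
    [AddCommGroup B] [DistribMulAction H B] [AddCommGroup Q] [DistribMulAction H Q] [Finite B]
    (E : ShortSeq (𝓛.restrict H) A B Q) :
    ShortSeq 𝓛 (IndMod H A) (IndMod H B) (IndMod H Q) where
  i := indMap H E.i
  π := indMap H E.π
  i_equiv := isEquivariant_indMap H E.i_equiv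
  π_equiv := isEquivariant_indMap H E.π_equiv
  i_inj _ _ h := funext fun q => E.i_inj (congrFun h q)
  π_surj f := ⟨fun q => E.sec (f q), funext fun q => E.π_sec (f q)⟩
  exact f hf := ⟨fun q => E.pre (f q), funext fun q => E.i_pre (congrFun hf q)⟩
  π_i f := funext fun q => E.π_i (f q)
  smooth := IndMod.isSmooth H B hH E.smooth

end Functorial

end Fermat.Agent.EulerChar

end
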