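import Fermat.Agent.EulerChar.Artin
import Fermat.Agent.EulerChar.Chi
import Fermat.Agent.EulerChar.Ind

/-!
# Reduction of the Euler characteristic formula to coprime cyclic pieces
-/

set_option autoImplicit false

noncomputable section

namespace Fermat.Agent.EulerChar

open Duality.Coh

variable {G : Type} [Group G] {p : ℕ} [Fact p.Prime] {𝓛 : Levels G} {C : Type} [AddCommGroup C]
  [DistribMulAction G C] {c : G}

section Congr

variable {A B : Type} [AddCommGroup A] [DistribMulAction G A] [AddCommGroup B]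
  [DistribMulAction G B]

theorem isEquivariant_symm {H : Type} [Group H] {A B : Type} [AddCommGroup A]
    [DistribMulAction H A] [AddCommGroup B] [DistribMulAction H B] {e : A ≃+ B}
    (he : IsEquivariant (MonoidHom.id H) e.toAddMonoidHom) :
    IsEquivariant (MonoidHom.id H) e.symm.toAddMonoidHom := fun g b =>
  e.injective (show e (e.symm (g • b)) = e (g • e.symm b) from
    (e.apply_symm_apply _).trans ((congrArg (g • ·) (e.apply_symm_apply b).symm).trans
      (he g (e.symm b)).symm))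

variable (e : A ≃+ B) (he : IsEquivariant (MonoidHom.id G) e.toAddMonoidHom)

include he in
omit [Fact p.Prime] in
/-- Invariance of the defect under isomorphism. -/
theorem defect_congr : defect p 𝓛 C c A = defect p 𝓛 C c B := by
  have hs := isEquivariant_symm he
  have e0 : inv G A ≃ inv G B :=
    ⟨fun a => ⟨e a, he.map_inv a.2⟩, fun b => ⟨e.symm b, hs.map_inv b.2⟩,
      fun a => Subtype.ext (e.symm_apply_apply _), fun b => Subtype.ext (e.apply_symm_apply _)⟩
  have e1 : H1 𝓛 A ≃ H1 𝓛 B :=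
    ⟨H1.map 𝓛.compat_id he, H1.map 𝓛.compat_id hs, fun x => by
      obtain ⟨z, rfl⟩ := H1.mk_surjective x
      exact congrArg H1.mk (Subtype.ext (funext fun g => e.symm_apply_apply _)), fun x => by
      obtain ⟨z, rfl⟩ := H1.mk_surjective x
      exact congrArg H1.mk (Subtype.ext (funext fun g => e.apply_symm_apply _))⟩
  have e2 : inv G (HomMod B C) ≃ inv G (HomMod A C) :=
    ⟨HomMod.preInv he, HomMod.preInv hs,
      fun f => Subtype.ext (HomMod.ext fun b =>
        congrArg (f : HomMod B C) (e.apply_symm_apply b)),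
      fun f => Subtype.ext (HomMod.ext fun a =>
        congrArg (f : HomMod A C) (e.symm_apply_apply a))⟩
  have e3 : fixAt c A ≃ fixAt c B :=
    ⟨fun a => ⟨e a, (he c a).symm.trans (congrArg e a.2)⟩,
      fun b => ⟨e.symm b, (hs c b).symm.trans (congrArg e.symm b.2)⟩,
      fun a => Subtype.ext (e.symm_apply_apply _), fun b => Subtype.ext (e.apply_symm_apply _)⟩
  unfold defect chi dminus
  rw [vcard_congr p e0, vcard_congr p e1, vcard_congr p e2.symm, vcard_congr p e3,
    vcard_congr p e.toEquiv]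

end Congr

section Inflation

variable (K : Subgroup G) [K.Normal]

/-- A module over the group algebra of a quotient, as a module of the group. -/
def Infl (V : Type) : Type := V

variable (V : Type) [AddCommGroup V] [hV : Module (MonoidAlgebra (ZMod p) (G ⧸ K)) V]

instance addCommGroupInfl : AddCommGroup (Infl V) := inferInstanceAs (AddCommGroup V)

/-- The underlying element. -/
def Infl.val {V : Type} (v : Infl V) : V := v

instance finiteInfl [Finite V] : Finite (Infl V) := inferInstanceAs (Finite V)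

/-- The inflated action. -/
@[implicit_reducible]
def inflAction : DistribMulAction G (Infl V) where
  smul g v := (MonoidAlgebra.single (g : G ⧸ K) (1 : ZMod p) • v.val : V)
  one_smul v := by
    show (MonoidAlgebra.single ((1 : G) : G ⧸ K) (1 : ZMod p) • v.val : V) = v.val
    rw [QuotientGroup.mk_one, ← MonoidAlgebra.one_def, one_smul]
  mul_smul g h v := by
    show (MonoidAlgebra.single ((g * h : G) : G ⧸ K) (1 : ZMod p) • v.val : V) =
      MonoidAlgebra.single (g : G ⧸ K) (1 : ZMod p) •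
        (MonoidAlgebra.single (h : G ⧸ K) (1 : ZMod p) • v.val : V)
    rw [smul_smul, MonoidAlgebra.single_mul_single, mul_one, QuotientGroup.mk_mul]
  smul_zero g := smul_zero (A := V) _
  smul_add g v w := smul_add (A := V) _ v.val w.val

theorem inflSmul_fix {s : G} (hs : s ∈ K) (v : Infl V) :
    letI := inflAction (p := p) K V
    s • v = v := by
  let := inflAction (p := p) K V
  show (MonoidAlgebra.single ((s : G) : G ⧸ K) (1 : ZMod p) • v.val : V) = v.val
  rw [(QuotientGroup.eq_one_iff s).mpr hs, ← MonoidAlgebra.one_def, one_smul]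

theorem infl_isSmooth (hK : 𝓛.ok K) :
    letI := inflAction (p := p) K V
    IsSmooth 𝓛 (Infl V) := fun v => ⟨K, hK, fun _ hs => inflSmul_fix K V hs v⟩

include hV in
theorem infl_torsion (v : Infl V) : p • v = 0 := by
  show (p • v.val : V) = 0
  rw [← Nat.cast_smul_eq_nsmul (MonoidAlgebra (ZMod p) (G ⧸ K)),
    ← map_natCast (algebraMap (ZMod p) (MonoidAlgebra (ZMod p) (G ⧸ K))), ZMod.natCast_self,
    map_zero, zero_smul]

end Inflation

section Reduce

variable {K : Subgroup G} [K.Normal] {M : Type} [AddCommGroup M] [DistribMulAction G M] [Finite M]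

omit [Finite M] in
/-- The permutation description of induced modules. -/
theorem exists_hom_perm_equiv (hK : 𝓛.ok K) (hpM : ∀ m : M, p • m = 0) (Cbar : Subgroup (G ⧸ K)) :
    letI := inflAction (p := p) K (Perm (ZMod p) ((G ⧸ K) ⧸ Cbar))
    ∃ e : HomMod (Infl (Perm (ZMod p) ((G ⧸ K) ⧸ Cbar))) M ≃+
        IndMod (Cbar.comap (QuotientGroup.mk' K)) M,
      IsEquivariant (MonoidHom.id G) e.toAddMonoidHom := by
  classical
  let := inflAction (p := p) K (Perm (ZMod p) ((G ⧸ K) ⧸ Cbar))
  let : Module (ZMod p) M := AddCommGroup.zmodModule hpM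
  have := 𝓛.finiteIndex hK
  have : Finite (G ⧸ K) := inferInstance
  set H := Cbar.comap (QuotientGroup.mk' K) with hH
  let β : G ⧸ H → (G ⧸ K) ⧸ Cbar := fun q => ((q.out : G ⧸ K) : (G ⧸ K) ⧸ Cbar)
  have hβ : ∀ g : G, β (g : G ⧸ H) = ((g : G ⧸ K) : (G ⧸ K) ⧸ Cbar) := fun g => by
    obtain ⟨u, hu⟩ := QuotientGroup.mk_out_eq_mul H g
    show (((g : G ⧸ H).out : G ⧸ K) : (G ⧸ K) ⧸ Cbar) = _
    rw [hu, QuotientGroup.mk_mul,
      QuotientGroup.mk_mul_of_mem _ (show ((u : G) : G ⧸ K) ∈ Cbar from u.2)]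
  have hβg : ∀ (g : G) q, β (g • q) = (g : G ⧸ K) • β q := fun g q => by
    conv_lhs => rw [← QuotientGroup.out_eq' q, MulAction.Quotient.smul_coe, hβ]
    rw [smul_eq_mul, QuotientGroup.mk_mul]
    rfl
  have hβbij : Function.Bijective β := by
    refine ⟨fun q q' h => ?_, fun x => ?_⟩
    · rw [← QuotientGroup.out_eq' q, ← QuotientGroup.out_eq' q', QuotientGroup.eq]
      have h' := QuotientGroup.eq.mp h
      rwa [← QuotientGroup.mk_inv, ← QuotientGroup.mk_mul] at h'
    · obtain ⟨y, rfl⟩ := QuotientGroup.mk_surjective x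
      obtain ⟨g, rfl⟩ := QuotientGroup.mk_surjective y
      exact ⟨(g : G ⧸ H), hβ g⟩
  have : Fintype ((G ⧸ K) ⧸ Cbar) := Fintype.ofFinite _
  let δ : G ⧸ H → Infl (Perm (ZMod p) ((G ⧸ K) ⧸ Cbar)) :=
    fun q => (Pi.single (β q) 1 : (G ⧸ K) ⧸ Cbar → ZMod p)
  have hδ : ∀ (g : G) q, g • δ q = δ (g • q) := fun g q => by
    show ((MonoidAlgebra.single (g : G ⧸ K) (1 : ZMod p) • (δ q).val :
      Perm (ZMod p) ((G ⧸ K) ⧸ Cbar))) = _
    refine (perm_single_smul (ZMod p) ((G ⧸ K) ⧸ Cbar) (g : G ⧸ K) 1 _).trans (funext fun x => ?_)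
    show (1 : ZMod p) * (Pi.single (β q) 1 : (G ⧸ K) ⧸ Cbar → ZMod p) ((g : G ⧸ K)⁻¹ • x) =
      (Pi.single (β (g • q)) 1 : (G ⧸ K) ⧸ Cbar → ZMod p) x
    rw [one_mul, hβg, Pi.single_apply, Pi.single_apply]
    simp only [inv_smul_eq_iff]
  let f : HomMod (Infl (Perm (ZMod p) ((G ⧸ K) ⧸ Cbar))) M →+ IndMod H M :=
    { toFun := fun φ q => q.out⁻¹ • φ (δ q)
      map_zero' := funext fun q => smul_zero q.out⁻¹
      map_add' := fun φ ψ => funext fun q => smul_add q.out⁻¹ _ _ }
  have hf : Function.Bijective f := by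
    refine ⟨(injective_iff_map_eq_zero f).mpr fun φ hφ => HomMod.ext fun v => ?_, fun F => ?_⟩
    · have h0 : ∀ x, φ ((Pi.single x 1 : (G ⧸ K) ⧸ Cbar → ZMod p) :
          Infl (Perm (ZMod p) ((G ⧸ K) ⧸ Cbar))) = 0 := fun x => by
        obtain ⟨q, rfl⟩ := hβbij.2 x
        exact (smul_eq_zero_iff_eq q.out⁻¹).mp (congrFun hφ q)
      let e0 : ((G ⧸ K) ⧸ Cbar → ZMod p) →+ Infl (Perm (ZMod p) ((G ⧸ K) ⧸ Cbar)) :=
        { toFun := fun v => v
          map_zero' := rfl
          map_add' := fun _ _ => rfl }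
      have h1 : φ.toHom.comp e0 = 0 := AddMonoidHom.functions_ext _ _ _ fun x a => by
        have ha : (Pi.single x a : (G ⧸ K) ⧸ Cbar → ZMod p) = a.val • Pi.single x 1 := by
          rw [← Pi.single_smul, nsmul_eq_mul, mul_one, ZMod.natCast_zmod_val]
        rw [ha, map_nsmul]
        show a.val • φ _ = _
        rw [h0 x, smul_zero]
        rfl
      exact DFunLike.congr_fun h1 v
    · let e := Equiv.ofBijective β hβbij
      let φ' : ((G ⧸ K) ⧸ Cbar → ZMod p) →+ M := ∑ x : (G ⧸ K) ⧸ Cbar,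
        ((smulAddHom (ZMod p) M).flip ((e.symm x).out • F (e.symm x))).comp
          (Pi.evalAddMonoidHom (fun _ => ZMod p) x)
      refine ⟨HomMod.of φ', funext fun q => ?_⟩
      show q.out⁻¹ • φ' (Pi.single (β q) 1) = F q
      have h2 : φ' (Pi.single (β q) 1) = q.out • F q := by
        show (∑ x : (G ⧸ K) ⧸ Cbar,
          ((smulAddHom (ZMod p) M).flip ((e.symm x).out • F (e.symm x))).comp
          (Pi.evalAddMonoidHom (fun _ => ZMod p) x)) (Pi.single (β q) 1) = _
        rw [AddMonoidHom.finsetSum_apply, Finset.sum_eq_single (β q) (fun x _ hx => ?_)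
          (fun h => absurd (Finset.mem_univ _) h)]
        · simp [show e.symm (β q) = q from e.symm_apply_apply q]
        · simp [Pi.single_eq_of_ne hx]
      rw [h2, inv_smul_smul]
  refine ⟨AddEquiv.ofBijective f hf, fun g φ => IndMod.ext H fun q => ?_⟩
  show q.out⁻¹ • g • φ (g⁻¹ • δ q) =
    cosetFactor H g (g⁻¹ • q) • (g⁻¹ • q).out⁻¹ • φ (δ (g⁻¹ • q))
  rw [← hδ g⁻¹ q, Subgroup.smul_def, smul_smul, smul_smul]
  congr 1
  show q.out⁻¹ * g = (g • g⁻¹ • q).out⁻¹ * (g * (g⁻¹ • q).out) * (g⁻¹ • q).out⁻¹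
  rw [smul_inv_smul]
  group

variable {ι : H2 𝓛 C →+ ZMod p}

/-- The hypothesis at the coprime pieces. -/
def BaseHyp (p : ℕ) (𝓛 : Levels G) (C : Type) [AddCommGroup C] [DistribMulAction G C] (c : G)
    (K : Subgroup G) : Prop :=
  ∀ (H : Subgroup G), 𝓛.ok H → K ≤ H → ∀ (N : Subgroup H), N.Normal →
    (∀ s : H, (s : G) ∈ K → s ∈ N) → (∀ n ∈ N, ∃ i : ℕ, (n : G) ^ p ^ i ∈ K) → ¬ p ∣ N.index →
    ∀ (W : Type) [AddCommGroup W] [DistribMulAction H W] [Finite W], (∀ w : W, p • w = 0) →
      (∀ n ∈ N, ∀ w : W, n • w = w) → defect p 𝓛 C c (IndMod H W) = 0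

/-- The defect vanishes on modules induced from subgroups with commutative image. -/
theorem defect_ind_eq_zero (h : IsDualizing p 𝓛 C ι) (hp2 : p ≠ 2) (hc : c * c = 1)
    (hK : 𝓛.ok K) (base : BaseHyp p 𝓛 C c K) (H : Subgroup G) (hKH : K ≤ H)
    (hcomm : ∀ a b : H, ((a * b * a⁻¹ * b⁻¹ : H) : G) ∈ K)
    (n : ℕ) (W : Type) [AddCommGroup W] [DistribMulAction H W] [Finite W] (hn : Nat.card W = n)
    (hpW : ∀ w : W, p • w = 0) (hfix : ∀ s : H, (s : G) ∈ K → ∀ w : W, s • w = w) :
    defect p 𝓛 C c (IndMod H W) = 0 := by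
  induction n using Nat.strong_induction_on generalizing W with
  | _ n ih =>
  have hH : 𝓛.ok H := 𝓛.mono hK hKH
  have := 𝓛.finiteIndex hH
  have hWs : IsSmooth (𝓛.restrict H) W := fun w =>
    ⟨K.subgroupOf H, ⟨K, hK, le_rfl⟩, fun s hs => hfix s hs w⟩
  by_cases hR : ∃ R : AddSubgroup W, R ≠ ⊥ ∧ R ≠ ⊤ ∧ ∀ (a : H), ∀ r ∈ R, a • r ∈ R
  · obtain ⟨R, hRb, hRt, hRst⟩ := hR
    let : DistribMulAction H R :=
      { smul := fun a r => ⟨a • (r : W), hRst a _ r.2⟩
        one_smul := fun r => Subtype.ext (one_smul H (r : W))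
        mul_smul := fun a b r => Subtype.ext (mul_smul a b (r : W))
        smul_zero := fun a => Subtype.ext (smul_zero a)
        smul_add := fun a r s => Subtype.ext (smul_add a (r : W) s) }
    let : DistribMulAction H (W ⧸ R) := quotAction R hRst
    let E : ShortSeq (𝓛.restrict H) R W (W ⧸ R) :=
      { i := R.subtype
        π := QuotientAddGroup.mk' R
        i_equiv := fun _ _ => rfl
        π_equiv := fun _ _ => rfl
        i_inj := R.subtype_injective
        π_surj := QuotientAddGroup.mk'_surjective R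
        exact := fun w hw => ⟨⟨w, (QuotientAddGroup.eq_zero_iff w).mp hw⟩, rfl⟩
        π_i := fun r => (QuotientAddGroup.eq_zero_iff _).mpr r.2
        smooth := hWs }
    rw [h.defect_add c hp2 hc (indSeq H hH E) (IndMod.torsion H hpW)]
    have hcard := AddSubgroup.card_eq_card_quotient_mul_card_addSubgroup R
    have h1 : Nat.card R < n := by
      refine hn ▸ lt_of_le_of_ne (Nat.le_of_dvd Nat.card_pos ⟨_, hcard.trans (mul_comm _ _)⟩) ?_
      exact fun e => hRt (AddSubgroup.eq_top_of_card_eq R e)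
    have h2 : Nat.card (W ⧸ R) < n := by
      rw [← hn, hcard]
      exact lt_mul_of_one_lt_right Nat.card_pos (AddSubgroup.one_lt_card_iff_ne_bot R |>.mpr hRb)
    rw [ih _ h1 R rfl (fun r => Subtype.ext (hpW r)) fun s hs r => Subtype.ext (hfix s hs r),
      ih _ h2 (W ⧸ R) rfl (fun x => by
        obtain ⟨w, rfl⟩ := QuotientAddGroup.mk'_surjective R x
        rw [← map_nsmul, hpW, map_zero]) fun s hs x => by
        obtain ⟨w, rfl⟩ := QuotientAddGroup.mk'_surjective R x
        exact congrArg (QuotientAddGroup.mk' R) (hfix s hs w), add_zero]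
  · push Not at hR
    set K' := K.subgroupOf H
    let mkH : H →* H ⧸ K' := QuotientGroup.mk' K'
    have hcm : ∀ a b : H, mkH a * mkH b = mkH b * mkH a := fun a b => by
      rw [← map_mul, ← map_mul]
      refine (QuotientGroup.eq).mpr ?_
      show (a * b)⁻¹ * (b * a) ∈ K'
      rw [show (a * b)⁻¹ * (b * a) = b⁻¹ * a⁻¹ * b⁻¹⁻¹ * a⁻¹⁻¹ by group]
      exact hcomm b⁻¹ a⁻¹
    have hmem : ∀ x : H, x ∈ K' ↔ mkH x = 1 := fun x => (QuotientGroup.eq_one_iff x).symm
    let N : Subgroup H :=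
      { carrier := {x | ∃ i : ℕ, x ^ p ^ i ∈ K'}
        one_mem' := ⟨0, by rw [one_pow]; exact one_mem _⟩
        inv_mem' := fun {x} ⟨i, hi⟩ => ⟨i, by rw [inv_pow]; exact inv_mem hi⟩
        mul_mem' := fun {x y} ⟨i, hi⟩ ⟨j, hj⟩ => ⟨i + j, by
          rw [hmem] at hi hj ⊢
          rw [map_pow, map_mul, (show Commute (mkH x) (mkH y) from hcm x y).mul_pow, pow_add,
            pow_mul, ← map_pow mkH x, hi, one_pow, one_mul, mul_comm, pow_mul, ← map_pow mkH y,
            hj, one_pow]⟩ }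
    have hKN : ∀ s : H, (s : G) ∈ K → s ∈ N := fun s hs =>
      ⟨0, by rw [pow_zero, pow_one]; exact hs⟩
    have hNn : N.Normal := ⟨fun x ⟨i, hi⟩ a => ⟨i, by
      rw [hmem] at hi ⊢
      rw [conj_pow, map_mul, map_mul, hi, mul_one, ← map_mul, mul_inv_cancel, map_one]⟩⟩
    have := 𝓛.finiteIndex hK
    have hidx : ¬ p ∣ N.index := fun hdvd => by
      have : Finite (H ⧸ K') := inferInstance
      have : Finite (H ⧸ N) := Finite.of_surjective
        (QuotientGroup.map K' N (MonoidHom.id H) fun s hs => hKN s hs)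
        fun y => by obtain ⟨s, rfl⟩ := QuotientGroup.mk_surjective y; exact ⟨(s : H ⧸ K'), rfl⟩
      obtain ⟨y, hy⟩ := exists_prime_orderOf_dvd_card' (G := H ⧸ N) p hdvd
      obtain ⟨x, rfl⟩ := QuotientGroup.mk_surjective y
      have hx : x ^ p ∈ N := by
        rw [← QuotientGroup.eq_one_iff, QuotientGroup.mk_pow, ← hy, pow_orderOf_eq_one]
      obtain ⟨i, hi⟩ := hx
      have : x ∈ N := ⟨i + 1, by rwa [pow_succ', pow_mul]⟩
      rw [(QuotientGroup.eq_one_iff x).mpr this, orderOf_one] at hy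
      exact (Fact.out : p.Prime).ne_one hy.symm
    refine base H hH hKH N hNn hKN
      (fun x ⟨i, hi⟩ => ⟨i, by simpa [K', Subgroup.mem_subgroupOf] using hi⟩)
      hidx W hpW fun x hx w => ?_
    rcases subsingleton_or_nontrivial W with hs | hs
    · exact Subsingleton.elim _ _
    have : ((K.subgroupOf H).subgroupOf N).Normal := Subgroup.normal_subgroupOf
    have hP : IsPGroup p (N ⧸ (K.subgroupOf H).subgroupOf N) := fun y => by
      obtain ⟨a, rfl⟩ := QuotientGroup.mk_surjective y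
      obtain ⟨i, hi⟩ := a.2
      refine ⟨i, ?_⟩
      rw [← QuotientGroup.mk_pow, QuotientGroup.eq_one_iff]
      exact hi
    obtain ⟨w₀, hw₀, hw₀'⟩ := exists_fixed_ne_zero (G := N) _ hP
      (fun s hs m => hfix (s : H) hs m) hpW
    let R : AddSubgroup W := inv N W
    have hRt : R = ⊤ := by
      by_contra hne
      obtain ⟨a, r, hr, har⟩ := hR R (fun e => hw₀ (by
        have : w₀ ∈ R := hw₀'
        rwa [e, AddSubgroup.mem_bot] at this)) hne
      refine har fun b => ?_
      show (b : H) • a • r = a • r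
      have hb' : a⁻¹ * (b : H) * a⁻¹⁻¹ ∈ N := hNn.conj_mem _ b.2 a⁻¹
      rw [smul_smul, show (b : H) * a = a * (a⁻¹ * (b : H) * a⁻¹⁻¹) by group, mul_smul]
      exact congrArg (a • ·) (hr ⟨_, hb'⟩)
    exact (hRt ▸ AddSubgroup.mem_top w : w ∈ R) ⟨x, hx⟩

/-- **The Euler characteristic formula follows from the coprime pieces.** -/
theorem defect_eq_zero (h : IsDualizing p 𝓛 C ι) (hp2 : p ≠ 2) (hc : c * c = 1) (hK : 𝓛.ok K)
    (hfix : ∀ s ∈ K, ∀ m : M, s • m = m) (hpM : ∀ m : M, p • m = 0)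
    (base : BaseHyp p 𝓛 C c K) : defect p 𝓛 C c M = 0 := by
  classical
  have := 𝓛.finiteIndex hK
  have : Finite (G ⧸ K) := inferInstance
  let : Fintype (G ⧸ K) := Fintype.ofFinite _
  have hMs : IsSmooth 𝓛 M := fun m => ⟨K, hK, fun s hs => hfix s hs m⟩
  let Φ : ModFun (MonoidAlgebra (ZMod p) (G ⧸ K)) := fun V _ _ =>
    letI := inflAction (p := p) K V
    defect p 𝓛 C c (HomMod (Infl V) M)
  have hΦ : IsAdditive Φ := by
    intro A B Q _ _ _ _ _ _ _ _ _ i π hi hπ he
    let := inflAction (p := p) K A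
    let := inflAction (p := p) K B
    let := inflAction (p := p) K Q
    let E : ShortSeq 𝓛 (Infl A) (Infl B) (Infl Q) :=
      { i := i.toAddMonoidHom
        π := π.toAddMonoidHom
        i_equiv := fun g a => i.map_smul _ a
        π_equiv := fun g a => π.map_smul _ a
        i_inj := hi
        π_surj := hπ
        exact := fun b hb => (he b).mp hb
        π_i := fun a => (he _).mpr ⟨a, rfl⟩
        smooth := infl_isSmooth K B hK }
    have hext : Function.Surjective (HomMod.pre (C := M) E.i) := fun f => by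
      obtain ⟨ψ, hψ⟩ := exists_hom_factor (infl_torsion K B) hpM E.i f.toHom fun a ha => by
        rw [show a = 0 from hi (ha.trans (map_zero i).symm), map_zero]
      exact ⟨HomMod.of ψ, HomMod.ext hψ⟩
    have : Finite (HomMod (Infl A) M) := Finite.of_injective _ DFunLike.coe_injective
    have : Finite (HomMod (Infl B) M) := Finite.of_injective _ DFunLike.coe_injective
    have : Finite (HomMod (Infl Q) M) := Finite.of_injective _ DFunLike.coe_injective
    show defect p 𝓛 C c (HomMod (Infl B) M) =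
      defect p 𝓛 C c (HomMod (Infl A) M) + defect p 𝓛 C c (HomMod (Infl Q) M)
    rw [h.defect_add c hp2 hc (E.homSeq hMs hext) (HomMod.torsion hpM), add_comm]
  have key : ∀ Cbar : Subgroup (G ⧸ K), Φ (Perm (ZMod p) ((G ⧸ K) ⧸ Cbar)) =
      defect p 𝓛 C c (IndMod (Cbar.comap (QuotientGroup.mk' K)) M) := fun Cbar => by
    let := inflAction (p := p) K (Perm (ZMod p) ((G ⧸ K) ⧸ Cbar))
    obtain ⟨e, he⟩ := exists_hom_perm_equiv hK hpM Cbar
    exact defect_congr e he
  have h0 := eq_zero_of_cyclic hΦ fun Cbar hC => by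
    rw [key]
    refine defect_ind_eq_zero h hp2 hc hK base _ (fun s hs => by
      show (s : G ⧸ K) ∈ Cbar
      rw [(QuotientGroup.eq_one_iff s).mpr hs]
      exact one_mem _) (fun a b => ?_) _ M rfl hpM fun s hs m => hfix (s : G) hs m
    rw [← QuotientGroup.eq_one_iff]
    let f : Cbar.comap (QuotientGroup.mk' K) →* Cbar :=
      { toFun := fun x => ⟨((x : G) : G ⧸ K), x.2⟩
        map_one' := rfl
        map_mul' := fun _ _ => rfl }
    let : CommGroup Cbar := IsCyclic.commGroup
    have hf : f (a * b * a⁻¹ * b⁻¹) = 1 := by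
      simp only [map_mul, map_inv, mul_inv_cancel_comm, mul_inv_cancel]
    exact congrArg Subtype.val hf
  rw [key] at h0
  rw [← h0]
  set H := (⊤ : Subgroup (G ⧸ K)).comap (QuotientGroup.mk' K) with hH
  have htop : ∀ g : G, g ∈ H := fun g => Subgroup.mem_top _
  let f : IndMod H M →+ M := indEval H M
  have hf : Function.Bijective f := by
    have hq : ∀ q : G ⧸ H, q = baseCoset H := fun q => by
      rw [← QuotientGroup.out_eq' q]
      exact QuotientGroup.eq.mpr (htop _)
    refine ⟨fun x y e => IndMod.ext H fun q => ?_,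
      fun m => ⟨fun _ => (baseRep H)⁻¹ • m, smul_inv_smul _ _⟩⟩
    rw [hq q]
    exact MulAction.injective (baseRep H) e
  exact (defect_congr (AddEquiv.ofBijective f hf) fun g x =>
    isEquivariant_indEval H ⟨g, htop g⟩ x).symm

end Reduce

end Fermat.Agent.EulerChar

end
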