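import Fermat.Agent.EulerChar.Minus
import Fermat.Agent.EulerChar.Lattice
import Fermat.Agent.EulerChar.Reduce

/-!
# The Euler characteristic at a coprime piece, from the class of the characters of the layer

The defect of an induced module vanishes when the continuous characters of the layer are the
reduction modulo `p` of a lattice whose fixed ranks are the numbers of places less one.
-/

set_option autoImplicit false

noncomputable section

namespace Fermat.Agent.EulerChar

open Duality.Coh

/-- A one-point set. -/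
def OnePt : Type := Unit

instance onePtFintype : Fintype OnePt := inferInstanceAs (Fintype Unit)

instance onePtUnique : Unique OnePt := inferInstanceAs (Unique Unit)

instance onePtAction (K : Type) [Group K] : MulAction K OnePt where
  smul _ x := x
  one_smul _ := rfl
  mul_smul _ _ _ := rfl

variable {G : Type} [Group G] {H : Subgroup G} (N : Subgroup H) [N.Normal]

section QuotientAction

variable {I : Type} {D : I → Type} [∀ i, Group (D i)] (φ : ∀ i, D i →* G)

theorem placeSet_smul_eq {n : H} (hn : n ∈ N) (y : PlaceSet φ N) : n • y = y := by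
  obtain ⟨i, y⟩ := y
  induction y using Quotient.inductionOn with | _ g => ?_
  exact congrArg (Sigma.mk i) (DC.mk_eq.mpr ⟨1, (⟨n, hn⟩ : N), by simp⟩)

/-- The action of `H / N` on the places. -/
instance placeSetQuotAction : MulAction (H ⧸ N) (PlaceSet φ N) where
  smul x y := Quotient.liftOn' x (fun h : H => h • y) fun a b hab => by
    rw [QuotientGroup.leftRel_apply] at hab
    conv_rhs => rw [show b = a * (a⁻¹ * b) by group, mul_smul, placeSet_smul_eq N φ hab]
  one_smul y := one_smul H y
  mul_smul x x' y := by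
    induction x using Quotient.inductionOn' with | _ a => ?_
    induction x' using Quotient.inductionOn' with | _ b => ?_
    exact mul_smul a b y

theorem placeSet_mk_smul (h : H) (y : PlaceSet φ N) : (h : H ⧸ N) • y = h • y := rfl

end QuotientAction

section Perm

variable {p : ℕ} [Fact p.Prime] {W' : Type} [AddCommGroup W'] [DistribMulAction H W'] {Y : Type}
  [MulAction (H ⧸ N) Y] [MulAction H Y] (hY : ∀ (h : H) (y : Y), (h : H ⧸ N) • y = h • y)

include hY in
/-- Invariant homomorphisms into a permutation module. -/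
theorem natCard_hom_perm :
    letI := inflAction (p := p) N (Perm (ZMod p) Y)
    Nat.card (inv H (HomMod W' (Infl (Perm (ZMod p) Y)))) =
      Nat.card (inv H (FunMod Y (HomMod W' (Triv p)))) := by
  let := inflAction (p := p) N (Perm (ZMod p) Y)
  have hsmul : ∀ (h : H) (v : Infl (Perm (ZMod p) Y)) (y : Y),
      ((h • v : Infl (Perm (ZMod p) Y)).val : Y → ZMod p) y =
        (v.val : Y → ZMod p) (h⁻¹ • y) := fun h v y => by
    refine (congrFun (perm_single_smul (ZMod p) Y (h : H ⧸ N) 1 v.val) y).trans ?_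
    show (1 : ZMod p) * (v.val : Y → ZMod p) ((h : H ⧸ N)⁻¹ • y) = _
    rw [one_mul, ← QuotientGroup.mk_inv, hY]
  let T : HomMod W' (Infl (Perm (ZMod p) Y)) → FunMod Y (HomMod W' (Triv p)) := fun Φ y =>
    HomMod.of
      { toFun := fun w => ((Φ w).val : Y → ZMod p) y
        map_zero' := by rw [map_zero]; rfl
        map_add' := fun w w' => by rw [map_add]; rfl }
  let B : (Y → HomMod W' (Triv p)) → HomMod W' (Infl (Perm (ZMod p) Y)) := fun F =>
    HomMod.of
      { toFun := fun w => (fun y => (F y w : ZMod p) : Y → ZMod p)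
        map_zero' := funext fun y => map_zero (F y)
        map_add' := fun w w' => funext fun y => map_add (F y) w w' }
  have hTeq : ∀ (Φ : HomMod W' (Infl (Perm (ZMod p) Y))) (h : H), T (h • Φ) = h • T Φ := fun Φ h =>
    funext fun y => HomMod.ext fun w => hsmul h _ y
  refine Nat.card_congr
    { toFun := fun Φ => ⟨T Φ, fun h => (hTeq Φ.1 h).symm.trans (congrArg T (Φ.2 h))⟩
      invFun := fun F => ⟨B F.1, fun h => ?_⟩
      left_inv := fun Φ => rfl
      right_inv := fun F => rfl }
  refine HomMod.ext fun w => funext fun y => ?_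
  refine (hsmul h _ y).trans ?_
  exact congrArg (fun F' : FunMod Y (HomMod W' (Triv p)) => (F' y w : ZMod p)) (F.2 h)

end Perm

variable {p : ℕ} [Fact p.Prime] {V : Type} [AddCommGroup V] [DistribMulAction H V] [Finite V]

/-- The dual of a module of functions. -/
theorem natCard_inv_funMod_dual [N.FiniteIndex] (hp : ¬ p ∣ N.index) (Y : Type) [Finite Y]
    [MulAction H Y] (hY : ∀ n ∈ N, ∀ y : Y, n • y = y) (hV : ∀ n ∈ N, ∀ v : V, n • v = v)
    (hpV : ∀ v : V, p • v = 0) :
    Nat.card (inv H (FunMod Y (HomMod V (Triv p)))) = Nat.card (inv H (FunMod Y V)) := by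
  classical
  cases nonempty_fintype Y
  have hNn : ∀ n ∈ N, n⁻¹ ∈ N := fun n hn => inv_mem hn
  rw [← natCard_inv_dual N hp (V := FunMod Y V) (fun n hn f => funext fun y => by
    show n • f (n⁻¹ • y) = f y
    rw [hY _ (hNn n hn), hV _ hn]) (fun f => funext fun y => hpV _)]
  let T : HomMod (FunMod Y V) (Triv p) → FunMod Y (HomMod V (Triv p)) := fun Ψ y =>
    HomMod.of (Ψ.toHom.comp (AddMonoidHom.single (fun _ : Y => V) y))
  let B : FunMod Y (HomMod V (Triv p)) → HomMod (FunMod Y V) (Triv p) := fun F =>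
    HomMod.of
      { toFun := fun f => ∑ y, F y (f y)
        map_zero' := Finset.sum_eq_zero fun y _ => map_zero (F y)
        map_add' := fun f f' => by
          rw [← Finset.sum_add_distrib]
          exact Finset.sum_congr rfl fun y _ => map_add (F y) _ _ }
  have hT : ∀ Ψ y v, (T Ψ y : HomMod V (Triv p)) v = Ψ (Pi.single y v : Y → V) := fun Ψ y v => rfl
  refine Nat.card_congr
    { toFun := fun F => ⟨B F.1, fun h => HomMod.ext fun f => ?_⟩
      invFun := fun Ψ => ⟨T Ψ.1, fun h => funext fun y => HomMod.ext fun v => ?_⟩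
      left_inv := fun F => Subtype.ext (funext fun y => HomMod.ext fun v => ?_)
      right_inv := fun Ψ => Subtype.ext (HomMod.ext fun f => ?_) }
  · show B F.1 (h⁻¹ • f) = B F.1 f
    show ∑ y, (F.1 y : HomMod V (Triv p)) ((h⁻¹ • f : FunMod Y V) y) =
      ∑ y, (F.1 y : HomMod V (Triv p)) (f y)
    refine Fintype.sum_equiv (MulAction.toPerm h) _ _ fun y => ?_
    show (F.1 y : HomMod V (Triv p)) (h⁻¹ • f (h⁻¹⁻¹ • y)) =
      (F.1 (h • y) : HomMod V (Triv p)) (f (h • y))
    rw [inv_inv]
    conv_rhs => rw [← F.2 h]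
    show _ = h • (F.1 (h⁻¹ • h • y) : HomMod V (Triv p)) (h⁻¹ • f (h • y))
    rw [inv_smul_smul, smul_triv]
  · show h • (T Ψ.1 (h⁻¹ • y) : HomMod V (Triv p)) (h⁻¹ • v) = (T Ψ.1 y : HomMod V (Triv p)) v
    rw [hT, hT, smul_triv]
    let sg : Y → V → FunMod Y V := fun y v => Pi.single y v
    show Ψ.1 (sg (h⁻¹ • y) (h⁻¹ • v)) = Ψ.1 (sg y v)
    have h2 : sg (h⁻¹ • y) (h⁻¹ • v) = h⁻¹ • sg y v :=
      funext fun z => by
        show (Pi.single (h⁻¹ • y) (h⁻¹ • v) : Y → V) z = h⁻¹ • (Pi.single y v : Y → V) (h⁻¹⁻¹ • z)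
        rw [inv_inv, Pi.single_apply, Pi.single_apply]
        by_cases hz : z = h⁻¹ • y
        · rw [if_pos hz, if_pos (by rw [hz, smul_inv_smul])]
        · rw [if_neg hz, if_neg (fun e => hz (by rw [← e, inv_smul_smul])), smul_zero]
    exact (congrArg Ψ.1 h2).trans
      ((HomMod.isEquivariant_of_mem_inv Ψ.2 h⁻¹ _).trans (smul_triv _ _))
  · show B F.1 (Pi.single y v : Y → V) = (F.1 y : HomMod V (Triv p)) v
    show ∑ z, (F.1 z : HomMod V (Triv p)) ((Pi.single y v : Y → V) z) = _
    rw [Finset.sum_eq_single y (fun z _ hz => by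
      rw [Pi.single_eq_of_ne hz, map_zero]) (fun hy => absurd (Finset.mem_univ y) hy),
      Pi.single_eq_same]
  · show B (T Ψ.1) f = Ψ.1 f
    show ∑ z, Ψ.1 ((Pi.single z (f z) : Y → V) : FunMod Y V) = _
    refine (map_sum Ψ.1.toHom (fun z => ((Pi.single z (f z) : Y → V) : FunMod Y V)) _).symm.trans ?_
    exact congrArg Ψ.1 (Finset.univ_sum_single (f : Y → V))

section Final

variable {𝓛 : Levels G} {c : G} {I : Type} [Fintype I] [Nonempty I] {D : I → Type}
  [∀ i, Group (D i)] (φ : ∀ i, D i →* G) {L : Type} [AddCommGroup L] [DistribMulAction G L]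
  {W : Type} [AddCommGroup W] [DistribMulAction H W] [Finite W]

/-- **The defect at a coprime piece.** -/
theorem defect_base_eq_zero (e : L ≃+ ZMod p) [N.FiniteIndex] (hp2 : p ≠ 2) (hc : c * c = 1)
    (hcL : ∀ x : L, c • x = -x) (hsL : IsSmooth 𝓛 L) (hH : 𝓛.ok H)
    (hNok : (𝓛.restrict H).ok N) (hp : ¬ p ∣ N.index)
    (hL : ∀ n ∈ N, ∀ x : L, ((n : H) : G) • x = x) (hW : ∀ n ∈ N, ∀ w : W, n • w = w)
    (hpW : ∀ w : W, p • w = 0)
    (hinj : ∀ χ : NChar (𝓛.restrict H) N L, (∀ (i : I) (g : G), ∃ y : L, ∀ (d : D i) (n : N),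
      φ i d * g = g * ((n : H) : G) → g • NChar.val N χ n = φ i d • y - y) → χ = 0)
    (U : Type) [AddCommGroup U] [DistribMulAction (H ⧸ N) U] [Module.Finite ℤ U]
    (eX : NChar (𝓛.restrict H) N L ≃+ ModP p U)
    (heX : ∀ (h : H) u, eX (h • u) = (h : H ⧸ N) • eX u)
    (eT : L ≃+ TorP p U) (heT : ∀ (h : H) x, eT (h • x) = (h : H ⧸ N) • eT x)
    (hrank : ∀ x : H ⧸ N, (Module.finrank ℤ (fixAt x U).toIntSubmodule : ℤ) =
      (Nat.card (MulAction.orbitRel.Quotient (Subgroup.zpowers x) (InfSet c N)) : ℤ) +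
        (Nat.card (MulAction.orbitRel.Quotient (Subgroup.zpowers x) (PlaceSet φ N)) : ℤ) - 1) :
    defect p 𝓛 (PlaceQuot 𝓛 φ L) c (IndMod H W) = 0 := by
  classical
  have := 𝓛.finiteIndex hH
  let : Fintype (G ⧸ H) := Fintype.ofFinite _
  let : Fintype (H ⧸ N) := Fintype.ofFinite _
  have hfinL : Finite L := Finite.of_equiv _ e.toEquiv.symm
  have hpL := torsion_of_equiv e
  have hNfix : Finite (G ⧸ N.map H.subtype) := by
    obtain ⟨U', hU', hU'N⟩ := hNok
    have := 𝓛.finiteIndex (𝓛.inf_ok hU' hH)
    have hle : U' ⊓ H ≤ N.map H.subtype := fun s hs => ⟨⟨s, hs.2⟩, hU'N hs.1, rfl⟩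
    have := Subgroup.finiteIndex_of_le hle
    infer_instance
  have hYS : Finite (PlaceSet φ N) :=
    have := fun i => DC.finite N (φ i)
    inferInstanceAs (Finite (Σ i, DC (φ i) N))
  have hYI : Finite (InfSet c N) :=
    have := fun i => DC.finite N (archHom c i)
    inferInstanceAs (Finite (Σ i, DC (archHom c i) N))
  let : Fintype (PlaceSet φ N) := Fintype.ofFinite _
  let : Fintype (InfSet c N) := Fintype.ofFinite _
  have hW'fin := finite_homMod e W
  have hW'N : ∀ n ∈ N, ∀ ψ : HomMod W L, n • ψ = ψ := fun n hn ψ => HomMod.ext fun w => by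
    rw [HomMod.smul_apply, hW _ (inv_mem hn), Subgroup.smul_def, hL _ hn]
  -- the counting functional
  let Φ : ModFun (MonoidAlgebra (ZMod p) (H ⧸ N)) := fun A _ _ =>
    letI := inflAction (p := p) N A
    vcard p (inv H (HomMod (HomMod W L) (Infl A)))
  have hΦ : IsAdditive Φ := by
    intro A B Q _ _ _ _ _ _ _ _ _ i π hi hπ he
    let := inflAction (p := p) N A
    let := inflAction (p := p) N B
    let := inflAction (p := p) N Q
    let i' : Infl A →+ Infl B := i.toAddMonoidHom
    let π' : Infl B →+ Infl Q := π.toAddMonoidHom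
    have hi' : IsEquivariant (MonoidHom.id H) i' := fun g a => i.map_smul _ a
    have hπ' : IsEquivariant (MonoidHom.id H) π' := fun g a => π.map_smul _ a
    have hpi := HomMod.isEquivariant_post (M := HomMod W L) (fun (_ : H) _ => rfl) hi'
    have hpπ := HomMod.isEquivariant_post (M := HomMod W L) (fun (_ : H) _ => rfl) hπ'
    have : Finite (HomMod (HomMod W L) (Infl B)) := Finite.of_injective (fun f w => f w)
      fun f f' h => HomMod.ext (congrFun h)
    refine vcard_shortExact p (invMap hpi) (invMap hpπ)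
      (fun a b h => Subtype.ext
        (HomMod.ext fun w => hi (DFunLike.congr_fun (congrArg Subtype.val h) w)))
      (fun q => ?_) (fun a => Subtype.ext (HomMod.ext fun w => he.apply_apply_eq_zero _))
      fun b hb => ?_
    · obtain ⟨s, hs⟩ := exists_section_of_surjective (infl_torsion (p := p) N B)
        (infl_torsion (p := p) N Q) (f := π') hπ
      obtain ⟨v, hv⟩ := inv_lift_surjective N hp (V := HomMod (HomMod W L) (Infl B))
        (fun n hn f => HomMod.ext fun ψ => by
          rw [HomMod.smul_apply, hW'N _ (inv_mem hn), inflSmul_fix N B hn])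
        (HomMod.torsion (infl_torsion N B)) hpπ
        (fun f => ⟨HomMod.post s f, HomMod.ext fun ψ => hs (f ψ)⟩) q
      exact ⟨v, Subtype.ext hv⟩
    · have h0 : ∀ w, π' (b.1 w) = 0 := fun w => DFunLike.congr_fun (congrArg Subtype.val hb) w
      choose a ha using fun w => (he (b.1 w)).mp (h0 w)
      let f : HomMod (HomMod W L) (Infl A) := HomMod.of (AddMonoidHom.mk' a fun w w' => hi (by
        refine (ha _).trans ((map_add b.1 w w').trans (Eq.trans ?_ (map_add i (a w) (a w')).symm))
        exact (congrArg₂ (fun u v : B => u + v) (ha w) (ha w')).symm))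
      refine ⟨⟨f, fun h => HomMod.ext fun w => hi ?_⟩, Subtype.ext (HomMod.ext ha)⟩
      have h2 : i' ((h • f) w) = (h • b.1) w := by
        rw [HomMod.smul_apply, HomMod.smul_apply]
        exact (hi' h _).trans (congrArg (fun u : Infl B => h • u) (ha (h⁻¹ • w)))
      exact h2.trans ((DFunLike.congr_fun (b.2 h) w).trans (ha w).symm)
  -- identification with modules of `H`
  have hval : ∀ (A : Type) [AddCommGroup A] [DistribMulAction H A] (B : Type) [AddCommGroup B]
      [Module (MonoidAlgebra (ZMod p) (H ⧸ N)) B] (f : A ≃+ B),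
      (∀ (h : H) a, f (h • a) = MonoidAlgebra.single (h : H ⧸ N) (1 : ZMod p) • f a) →
      vcard p (inv H (HomMod (HomMod W L) A)) = Φ B := by
    intro A _ _ B _ _ f hf
    let := inflAction (p := p) N B
    let f' : A →+ Infl B := f.toAddMonoidHom
    have hf' : IsEquivariant (MonoidHom.id H) f' := hf
    let g' : Infl B →+ A := f.symm.toAddMonoidHom
    have hg' : IsEquivariant (MonoidHom.id H) g' := fun h b => f.injective (by
      show f (f.symm (h • b : Infl B).val) = f (h • f.symm b.val)
      rw [f.apply_symm_apply, hf, f.apply_symm_apply]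
      rfl)
    exact vcard_congr p
      { toFun := invMap (HomMod.isEquivariant_post (M := HomMod W L) (fun (_ : H) _ => rfl) hf')
        invFun := invMap (HomMod.isEquivariant_post (M := HomMod W L) (fun (_ : H) _ => rfl) hg')
        left_inv := fun a => Subtype.ext (HomMod.ext fun w => f.symm_apply_apply _)
        right_inv := fun a => Subtype.ext (HomMod.ext fun w => f.apply_symm_apply _) }
  let Y : Option Bool → Type := fun o => match o with
    | none => OnePt
    | some true => InfSet c N
    | some false => PlaceSet φ N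
  let iF : ∀ j, Fintype (Y j) := fun j => match j with
    | none => inferInstanceAs (Fintype OnePt)
    | some true => inferInstanceAs (Fintype (InfSet c N))
    | some false => inferInstanceAs (Fintype (PlaceSet φ N))
  let iM : ∀ j, MulAction (H ⧸ N) (Y j) := fun j => match j with
    | none => inferInstanceAs (MulAction (H ⧸ N) OnePt)
    | some true => inferInstanceAs (MulAction (H ⧸ N) (InfSet c N))
    | some false => inferInstanceAs (MulAction (H ⧸ N) (PlaceSet φ N))
  let cY : Option Bool → ℤ := fun o => match o with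
    | none => -1
    | some _ => 1
  have hlat := modP_eq (p := p) (Finset.univ : Finset (Option Bool)) cY Y U (fun x => by
    rw [hrank x, Fintype.sum_option, Fintype.sum_bool]
    have h1 : Nat.card (MulAction.orbitRel.Quotient (Subgroup.zpowers x) OnePt) = 1 := by
      have : Subsingleton (MulAction.orbitRel.Quotient (Subgroup.zpowers x) OnePt) :=
        Quotient.instSubsingletonQuotient _
      exact Nat.card_eq_one_iff_unique.mpr ⟨inferInstance, ⟨Quotient.mk'' default⟩⟩
    show _ = (-1 : ℤ) * (Nat.card (MulAction.orbitRel.Quotient (Subgroup.zpowers x) OnePt) : ℤ) +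
      (1 * (Nat.card (MulAction.orbitRel.Quotient (Subgroup.zpowers x) (InfSet c N)) : ℤ) +
        1 * (Nat.card (MulAction.orbitRel.Quotient (Subgroup.zpowers x) (PlaceSet φ N)) : ℤ))
    rw [h1]
    push_cast
    ring) hΦ
  rw [Fintype.sum_option, Fintype.sum_bool] at hlat
  have hI : Φ (Perm (ZMod p) (InfSet c N)) =
      vcard p (inv H (FunMod (InfSet c N) (HomMod (HomMod W L) (Triv p)))) :=
    congrArg (fun n => (padicValNat p n : ℤ))
      (natCard_hom_perm N (fun h y => placeSet_mk_smul N (archHom c) h y))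
  have hS : Φ (Perm (ZMod p) (PlaceSet φ N)) =
      vcard p (inv H (FunMod (PlaceSet φ N) (HomMod W L))) :=
    congrArg (fun n => (padicValNat p n : ℤ))
      ((natCard_hom_perm N (fun h y => placeSet_mk_smul N φ h y)).trans
        (natCard_inv_funMod_dual N hp (PlaceSet φ N) (fun n hn y => placeSet_smul_eq N φ hn y) hW'N
          (HomMod.torsion hpL)))
  have hO : Φ (Perm (ZMod p) OnePt) = vcard p (inv H (HomMod W L)) := by
    refine congrArg (fun n => (padicValNat p n : ℤ))
      ((natCard_hom_perm N (Y := OnePt) (fun h y => rfl)).trans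
        ((natCard_inv_funMod_dual N hp OnePt (fun n _ y => rfl) hW'N
          (HomMod.torsion hpL)).trans ?_))
    refine Nat.card_congr
      { toFun := fun F => ⟨F.1 default, fun h => congrFun (F.2 h) default⟩
        invFun := fun ψ => ⟨fun _ => ψ.1, fun h => funext fun _ => ψ.2 h⟩
        left_inv := fun F => Subtype.ext (funext fun y => congrArg F.1 (Subsingleton.elim _ _))
        right_inv := fun ψ => rfl }
  have hT : Φ (TorP p U) = vcard p (inv H W) := by
    rw [← hval L (TorP p U) eT fun h x => by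
      rw [gModule_single p _ (torP_torsion p U)]; exact heT h x]
    have hb := bidual_bijective e W hpW
    have hbe : IsEquivariant (MonoidHom.id H) (bidual (L := L) W) :=
      fun h w => HomMod.ext fun ψ => by
      show ψ (h • w) = h • (h⁻¹ • ψ) w
      rw [HomMod.smul_apply, inv_inv, smul_inv_smul]
    exact (vcard_congr p (Equiv.ofBijective (invMap hbe) ⟨fun a b hab => Subtype.ext
      (hb.1 (congrArg Subtype.val hab)), fun a => by
        obtain ⟨w, hw⟩ := hb.2 a.1
        exact ⟨⟨w, fun h => hb.1 ((hbe h w).trans (by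
          rw [hw]; exact a.2 h))⟩, Subtype.ext hw⟩⟩)).symm
  have hX : Φ (ModP p U) = vcard p (H1 (𝓛.restrict H) W) := by
    rw [← hval (NChar (𝓛.restrict H) N L) (ModP p U) eX fun h x => by
      rw [gModule_single p _ (modP_torsion p U)]; exact heX h x]
    exact congrArg (fun n => (padicValNat p n : ℤ))
      (natCard_H1_eq (𝓛 := 𝓛.restrict H) (L := L) N e (fun n hn x => hL n hn x) hpW hW hp hNok).symm
  have hsW : IsSmooth (𝓛.restrict H) W := fun w => ⟨N, hNok, fun s hs => hW s hs w⟩
  have hmain := vcard_inv_hom_placeQuot φ N hL hW hpL hsL hsW hinj hp hH hNok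
  have hminus := dminus_indMod c N e hcL hc hL hW hpW hp2
  have e0 : vcard p (inv G (IndMod H W)) = vcard p (inv H W) := vcard_congr p (invIndEquiv H)
  have e1 : vcard p (H1 𝓛 (IndMod H W)) = vcard p (H1 (𝓛.restrict H) W) :=
    vcard_congr p (shapiroEquiv H hH)
  have e2 : vcard p (inv G (HomMod (IndMod H W) (PlaceQuot 𝓛 φ L))) =
      vcard p (inv H (HomMod W (PlaceQuot 𝓛 φ L))) := vcard_congr p (homIndEquiv H)
  rw [hX, hT] at hlat
  rw [defect, chi, e0, e1, e2, hmain, hminus]
  change vcard p (H1 (𝓛.restrict H) W) = vcard p (inv H W) + ((-1) * Φ (Perm (ZMod p) OnePt) +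
    (1 * Φ (Perm (ZMod p) (InfSet c N)) + 1 * Φ (Perm (ZMod p) (PlaceSet φ N)))) at hlat
  rw [hI, hS, hO] at hlat
  omega

end Final

end Fermat.Agent.EulerChar

end
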