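import Fermat.Agent.EulerChar.Coprime

/-!
# `H¹` of a group with a normal subgroup of index prime to `p`

`H¹(H, W) = Hom_H(Hom(W, Λ), Hom(N, Λ))` when `N` fixes `W` and the module `Λ` of order `p`.
-/

set_option autoImplicit false

noncomputable section

namespace Fermat.Agent.EulerChar

open Duality.Coh

variable {p : ℕ} [Fact p.Prime] {H : Type} [Group H] {𝓛 : Levels H} (N : Subgroup H) [N.Normal]
  {L : Type} [AddCommGroup L] [DistribMulAction H L]

/-- Continuous one-cocycles of `N`, with the action of `H`. -/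
def NChar (𝓛 : Levels H) (N : Subgroup H) (L : Type) [AddCommGroup L] [DistribMulAction H L] :
    Type := Z1 (𝓛.restrict N) L

instance addCommGroupNChar (M : Subgroup H) : AddCommGroup (NChar 𝓛 M L) :=
  inferInstanceAs (AddCommGroup (Z1 (𝓛.restrict M) L))

/-- The value of a character. -/
def NChar.val (u : NChar 𝓛 N L) : N → L := (u : Z1 (𝓛.restrict N) L).1

omit [N.Normal] in
theorem NChar.ext {u v : NChar 𝓛 N L} (h : ∀ n, NChar.val N u n = NChar.val N v n) : u = v :=
  Subtype.ext (funext h)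

omit [N.Normal] in
theorem NChar.val_mul (u : NChar 𝓛 N L) (n m : N) :
    NChar.val N u (n * m) = n • NChar.val N u m + NChar.val N u n :=
  (mem_Z1.mp (u : Z1 (𝓛.restrict N) L).2).2 n m

/-- Conjugation by `h⁻¹` on `N`. -/
def conjN (h : H) (n : N) : N :=
  ⟨h⁻¹ * (n : H) * h, by
    have := Subgroup.Normal.conj_mem inferInstance (n : H) n.2 h⁻¹
    rwa [inv_inv] at this⟩

theorem conjN_mul (h : H) (n m : N) : conjN N h (n * m) = conjN N h n * conjN N h m :=
  Subtype.ext (by simp [conjN, mul_assoc])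

omit [AddCommGroup L] [DistribMulAction H L] in
theorem isConst_conjN (h : H) {f : N → L} (hf : IsConst₁ (𝓛.restrict N) f) :
    IsConst₁ (𝓛.restrict N) fun n => f (conjN N h n) := by
  obtain ⟨U, ⟨V, hV, hVU⟩, hfU⟩ := hf
  obtain ⟨M, hM, hMn, hMV⟩ := 𝓛.exists_normal hV
  refine ⟨M.subgroupOf N, ⟨M, hM, le_rfl⟩, fun g s hs => ?_⟩
  show f (conjN N h (g * s)) = f (conjN N h g)
  rw [conjN_mul]
  refine hfU _ _ (hVU (hMV ?_))
  show h⁻¹ * ((s : N) : H) * h ∈ M
  have := hMn.conj_mem _ (Subgroup.mem_subgroupOf.mp hs) h⁻¹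
  rwa [inv_inv] at this

/-- Conjugation of a character. -/
def nSmul (h : H) (u : NChar 𝓛 N L) : NChar 𝓛 N L :=
  (⟨fun n => h • NChar.val N u (conjN N h n),
    mem_Z1.mpr ⟨(isConst_conjN N h (u : Z1 (𝓛.restrict N) L).2.1).comp (h • ·), fun n m => by
      show h • NChar.val N u (conjN N h (n * m)) =
        n • h • NChar.val N u (conjN N h m) + h • NChar.val N u (conjN N h n)
      rw [conjN_mul, NChar.val_mul, smul_add]
      congr 1
      show h • (h⁻¹ * (n : H) * h) • NChar.val N u (conjN N h m) = (n : H) • h • _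
      rw [smul_smul, smul_smul, ← mul_assoc, ← mul_assoc, mul_inv_cancel, one_mul]⟩⟩ :
    Z1 (𝓛.restrict N) L)

instance nCharAction : DistribMulAction H (NChar 𝓛 N L) where
  smul h u := nSmul N h u
  one_smul u := NChar.ext N fun n => by
    show (1 : H) • NChar.val N u (conjN N 1 n) = _
    rw [one_smul, show conjN N 1 n = n from Subtype.ext (by simp [conjN])]
  mul_smul g h u := NChar.ext N fun n => by
    show (g * h) • NChar.val N u (conjN N (g * h) n) =
      g • h • NChar.val N u (conjN N h (conjN N g n))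
    rw [mul_smul, show conjN N (g * h) n = conjN N h (conjN N g n) from
      Subtype.ext (by simp [conjN, mul_assoc])]
  smul_zero h := NChar.ext N fun n => smul_zero h
  smul_add h u v := NChar.ext N fun n => smul_add h _ _

theorem NChar.val_smul (h : H) (u : NChar 𝓛 N L) (n : N) :
    NChar.val N (h • u) n = h • NChar.val N u (conjN N h n) := rfl

variable (e : L ≃+ ZMod p) (hL : ∀ n ∈ N, ∀ x : L, n • x = x) {W : Type} [AddCommGroup W]
  [DistribMulAction H W] [Finite W] (hpW : ∀ w : W, p • w = 0) (hW : ∀ n ∈ N, ∀ w : W, n • w = w)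

/-- The character of `N` attached to a class and a homomorphism to `L`. -/
def pairChar (z : Z1 𝓛 W) (φ : HomMod W L) : NChar 𝓛 N L :=
  (⟨fun n => φ ((z : H → W) n), by
    have hN : IsConst₁ (𝓛.restrict N) fun n : N => (z : H → W) n :=
      z.2.1.precomp (𝓛.compat_subtype N)
    exact hN.comp φ, by
    funext n m
    show n • φ ((z : H → W) m) - φ ((z : H → W) ((n : H) * (m : H))) + φ ((z : H → W) n) = 0
    rw [(mem_Z1.mp z.2).2, map_add, hW _ n.2, Subgroup.smul_def, hL _ n.2]
    abel⟩ : Z1 (𝓛.restrict N) L)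

include hW hL in
omit [Finite W] in
theorem pairChar_equivariant (z : Z1 𝓛 W) (h : H) (φ : HomMod W L) :
    pairChar N hL hW z (h • φ) = h • pairChar N hL hW z φ := NChar.ext N fun n => by
  show h • φ (h⁻¹ • (z : H → W) n) = h • φ ((z : H → W) (h⁻¹ * (n : H) * h))
  have hz := (mem_Z1.mp z.2).2
  have h1 : (z : H → W) ((n : H) * h) = (z : H → W) h + (z : H → W) n := by
    rw [hz, hW _ n.2]
  have h2 : (z : H → W) (h * (h⁻¹ * (n : H) * h)) =
      h • (z : H → W) (h⁻¹ * (n : H) * h) + (z : H → W) h := hz _ _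
  rw [show h * (h⁻¹ * (n : H) * h) = (n : H) * h by group, h1, add_comm,
    add_left_inj] at h2
  rw [h2, inv_smul_smul]

/-- The comparison map. -/
def pairMap (z : Z1 𝓛 W) : inv H (HomMod (HomMod W L) (NChar 𝓛 N L)) :=
  ⟨HomMod.of
    { toFun := pairChar N hL hW z
      map_zero' := NChar.ext N fun _ => rfl
      map_add' := fun _ _ => NChar.ext N fun _ => rfl }, fun h => HomMod.ext fun φ => by
      show h • pairChar N hL hW z (h⁻¹ • φ) = pairChar N hL hW z φ
      rw [pairChar_equivariant, smul_inv_smul]⟩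

variable [N.FiniteIndex] (hp : ¬ p ∣ N.index) (hNok : 𝓛.ok N)

include e hL hpW hW hp hNok in
/-- **`H¹` through characters of `N`.** -/
theorem natCard_H1_eq :
    Nat.card (H1 𝓛 W) = Nat.card (inv H (HomMod (HomMod W L) (NChar 𝓛 N L))) := by
  let := Fintype.ofFinite (H ⧸ N)
  have hbid := bidual_bijective e W hpW
  let Φ : Z1 𝓛 W →+ inv H (HomMod (HomMod W L) (NChar 𝓛 N L)) :=
    { toFun := pairMap N hL hW
      map_zero' := Subtype.ext (HomMod.ext fun φ => NChar.ext N fun n => map_zero φ)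
      map_add' := fun z z' => Subtype.ext (HomMod.ext fun φ => NChar.ext N fun n => map_add φ _ _) }
  have hker : ∀ z, Φ z = 0 ↔ H1.mk z = 0 := fun z => by
    refine ⟨fun h0 => ?_, fun h0 => ?_⟩
    · have hres : res₁ N (H1.mk z) = 0 := H1.mk_eq_zero.mpr ⟨0, fun n => by
        have hz : (z : H → W) n = 0 := eq_zero_of_forall_hom e hpW fun φ =>
          congrArg (fun u => NChar.val N u n) (DFunLike.congr_fun (congrArg Subtype.val h0) φ)
        show (z : H → W) n = _
        rw [hz, smul_zero, sub_zero]⟩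
      have h1 := cor₁_res₁ N hNok (H1.mk z)
      rw [hres, map_zero] at h1
      have hm : (Fintype.card (H ⧸ N)).Coprime p := by
        rw [Nat.coprime_comm, (Fact.out : p.Prime).coprime_iff_not_dvd, ← Nat.card_eq_fintype_card,
          ← Subgroup.index_eq_card]
        exact hp
      have hord := Nat.dvd_gcd (addOrderOf_dvd_of_nsmul_eq_zero h1.symm)
        (addOrderOf_dvd_of_nsmul_eq_zero (H1.torsion hpW (H1.mk z)))
      rwa [hm.gcd_eq_one, Nat.dvd_one, AddMonoid.addOrderOf_eq_one_iff] at hord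
    · obtain ⟨a, ha⟩ := H1.mk_eq_zero.mp h0
      refine Subtype.ext (HomMod.ext fun φ => NChar.ext N fun n => ?_)
      show φ ((z : H → W) n) = 0
      rw [ha, hW _ n.2, sub_self, map_zero]
  have hsurj : Function.Surjective Φ := by
    intro Ψ
    let ev : W ≃+ HomMod (HomMod W L) L := AddEquiv.ofBijective (bidual W) hbid
    let val : N → HomMod (HomMod W L) L := fun n => HomMod.of
      { toFun := fun φ => NChar.val N ((Ψ : HomMod (HomMod W L) (NChar 𝓛 N L)) φ) n
        map_zero' := by rw [map_zero]; rfl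
        map_add' := fun φ ψ => by rw [map_add]; rfl }
    let u : N → W := fun n => ev.symm (val n)
    have hu : ∀ (n : N) (φ : HomMod W L),
        φ (u n) = NChar.val N ((Ψ : HomMod (HomMod W L) (NChar 𝓛 N L)) φ) n := fun n φ =>
      DFunLike.congr_fun (ev.apply_symm_apply (val n)) φ
    have hext : ∀ w w' : W, (∀ φ : HomMod W L, φ w = φ w') → w = w' := fun w w' h =>
      sub_eq_zero.mp (eq_zero_of_forall_hom e hpW fun φ => by rw [map_sub, h φ, sub_self])
    have huconst : IsConst₁ (𝓛.restrict N) u := by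
      classical
      have := finite_homMod e W
      cases nonempty_fintype (HomMod W L)
      suffices hs : ∀ t : Finset (HomMod W L), ∃ U, (𝓛.restrict N).ok U ∧ ∀ φ ∈ t, ∀ g, ∀ s ∈ U,
          φ (u (g * s)) = φ (u g) by
        obtain ⟨U, hU, h⟩ := hs Finset.univ
        exact ⟨U, hU, fun g s hs => hext _ _ fun φ => h φ (Finset.mem_univ φ) g s hs⟩
      intro t
      induction t using Finset.induction_on with
      | empty => exact ⟨⊤, (𝓛.restrict N).top_ok, by simp⟩
      | insert φ t _ ih =>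
        obtain ⟨U, hU, h⟩ := ih
        obtain ⟨V, hV, h'⟩ := ((Ψ : HomMod (HomMod W L) (NChar 𝓛 N L)) φ : Z1 (𝓛.restrict N) L).2.1
        refine ⟨U ⊓ V, (𝓛.restrict N).inf_ok hU hV, fun ψ hψ g s hs => ?_⟩
        rcases Finset.mem_insert.mp hψ with rfl | hψ
        · rw [hu, hu]; exact h' g s hs.2
        · exact h ψ hψ g s hs.1
    have humul : ∀ n m, u (n * m) = n • u m + u n := fun n m => hext _ _ fun φ => by
      rw [map_add, show n • u m = u m from hW _ n.2 _, hu, hu, hu, NChar.val_mul,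
        show n • NChar.val N ((Ψ : HomMod (HomMod W L) (NChar 𝓛 N L)) φ) m = _ from hL _ n.2 _]
    have huconj : ∀ (h : H) (n : N), h • u (conjN N h n) = u n := fun h n => hext _ _ fun φ => by
      have e1 : (Ψ : HomMod (HomMod W L) (NChar 𝓛 N L)) (h • h⁻¹ • φ) =
          h • (Ψ : HomMod (HomMod W L) (NChar 𝓛 N L)) (h⁻¹ • φ) :=
        HomMod.isEquivariant_of_mem_inv Ψ.2 h _
      rw [smul_inv_smul] at e1
      rw [hu n, e1, NChar.val_smul, ← hu, ← HomMod.smul_apply_smul, smul_inv_smul]
    let z : Z1 (𝓛.restrict N) W := ⟨u, mem_Z1.mpr ⟨huconst, humul⟩⟩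
    set k := (((Fintype.card (H ⧸ N) : ZMod p))⁻¹).val
    refine ⟨k • Z1.cor N hNok z, Subtype.ext (HomMod.ext fun φ => NChar.ext N fun n => ?_)⟩
    show φ (k • cor₁fun N u (n : H)) = _
    have hterm : ∀ q : H ⧸ N, ((n : H) • q).out • u (cosetFactor N (n : H) q) = u n := fun q => by
      have hnq : (n : H) • q = q := by
        conv_lhs => rw [← QuotientGroup.out_eq' q, MulAction.Quotient.smul_coe, smul_eq_mul]
        conv_rhs => rw [← QuotientGroup.out_eq' q]
        rw [eq_comm, QuotientGroup.eq, ← mul_assoc]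
        exact (conjN N q.out n).2
      have hf : cosetFactor N (n : H) q = conjN N q.out n := by
        refine Subtype.ext ?_
        show ((n : H) • q).out⁻¹ * ((n : H) * q.out) = q.out⁻¹ * (n : H) * q.out
        rw [hnq, mul_assoc]
      rw [hnq, hf, huconj]
    rw [show cor₁fun N u (n : H) = Fintype.card (H ⧸ N) • u n by
      show ∑ q : H ⧸ N, ((n : H) • q).out • u (cosetFactor N (n : H) q) = _
      rw [Finset.sum_congr rfl fun q _ => hterm q, Finset.sum_const, Finset.card_univ],
      smul_smul, map_nsmul, hu]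
    have hm0 : (Fintype.card (H ⧸ N) : ZMod p) ≠ 0 := by
      rw [Ne, ZMod.natCast_eq_zero_iff, ← Nat.card_eq_fintype_card, ← Subgroup.index_eq_card]
      exact hp
    have hk : ((k * Fintype.card (H ⧸ N) : ℕ) : ZMod p) = 1 := by simp [k, inv_mul_cancel₀ hm0]
    refine e.injective ?_
    rw [map_nsmul, nsmul_eq_mul, hk, one_mul]
  let Φbar : H1 𝓛 W →+ inv H (HomMod (HomMod W L) (NChar 𝓛 N L)) :=
    QuotientAddGroup.lift _ Φ fun z hz => (hker z).mpr ((QuotientAddGroup.eq_zero_iff z).mpr hz)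
  refine Nat.card_congr (Equiv.ofBijective Φbar ⟨(injective_iff_map_eq_zero _).mpr fun x hx => ?_,
    fun Ψ => ?_⟩)
  · obtain ⟨z, rfl⟩ := H1.mk_surjective x
    exact (hker z).mp hx
  · obtain ⟨z, hz⟩ := hsurj Ψ
    exact ⟨H1.mk z, hz⟩

end Fermat.Agent.EulerChar

end
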