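import Fermat.Agent.EulerChar.Units
import Fermat.Agent.Duality.KummerTheory
import Fermat.Agent.Duality.Places.Unramified
import Fermat.Agent.Duality.Places.Lagrangian
import Mathlib.RingTheory.DedekindDomain.FiniteAdeleRing

/-!
# The characters of a layer are the `S`-units modulo `p`-th powers

For a layer whose group fixes `μ_p`, unramified outside a big `S` containing `p`, the continuous
characters to `μ_p` are the Kummer characters of the `S`-units, and only the trivial one is trivial
at all places over `S`.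
-/

set_option autoImplicit false

noncomputable section

open IsDedekindDomain NumberField WithZero

namespace Fermat.Agent.EulerChar

open Duality

variable {p : ℕ} [Fact p.Prime] {S : Finset Nat.Primes}

section Field

variable {E : IntermediateField ℚ Qbar} [FiniteDimensional ℚ E] [NumberField E]
  (hE : (galLevels ℚ Qbar).ok E.fixingSubgroup)

/-- An element with a `p`-th root in an `S`-level has orders divisible by `p` outside `S`. -/
theorem exists_valuation_eq_exp_mul {x : Eˣ} {r : Qbar} (hr : r ^ p = ((x : E) : Qbar))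
    {W : Subgroup GalQ} (hW : (galLevelsS S).ok W) (hWE : W ≤ E.fixingSubgroup)
    (hWr : ∀ s ∈ W, s r = r) {v : HeightOneSpectrum (𝓞 E)} (hv : v ∉ Places.placesS E S hE) :
    ∃ k : ℤ, v.valuation E (x : E) = exp ((p : ℤ) * k) := by
  obtain ⟨q, hq, hqv⟩ := Places.exists_prime_natCast_mem v
  have : Fact q.Prime := ⟨hq⟩
  have hqS : (⟨q, Fact.out⟩ : Nat.Primes) ∉ S := fun h =>
    hv ((Places.mem_placesS E hE).2 ⟨_, h, hqv⟩)
  obtain ⟨τ, rfl⟩ := Places.exists_placeOf_eq q v hqv
  obtain ⟨g, rfl⟩ := Places.exists_twistEmb_eq q E τ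
  obtain ⟨L, hL, rfl, hLu⟩ := exists_field_eq hW
  have := hL
  have : NumberField L := ⟨⟩
  have : IsGalois ℚ Qbar := Fermat.Agent.Gal.isGalois_rat_qbar
  have hfix : ∀ z : Qbar, (∀ s ∈ L.fixingSubgroup, s z = z) → z ∈ L := fun z hz =>
    (InfiniteGalois.fixedField_fixingSubgroup L).le fun s => hz s s.2
  have hEL : ∀ z : E, (z : Qbar) ∈ L := fun z => hfix _ fun s hs =>
    (IntermediateField.mem_fixingSubgroup_iff E s).1 (hWE hs) _ z.2
  have hzpow : ∀ z : Qbar, z ∈ L → z ≠ 0 →
      ∃ m : ℤ, ‖padicEmbedding q (g z)‖ = (q : ℝ) ^ m := fun z hz hz0 => by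
    refine Places.exists_norm_eq_zpow_of_isUnramifiedOutside q hLu hqS g ?_ (by simpa using hz0)
    rw [← Places.locField_twistEmb]
    exact Places.mem_locField q (Places.twistEmb q L g) ⟨z, hz⟩
  set v := Places.placeOf q (Places.twistEmb q E g)
  set τ := Places.twistEmb q E g
  obtain ⟨r0, hr0, hr1, hnorm⟩ := Places.exists_norm_apply_eq q τ
  have hval : ∀ z : E, z ≠ 0 → ‖τ z‖ = r0 ^ (-log (v.valuation E z)) := fun z hz =>
    hnorm z _ (by rw [neg_neg, exp_log ((Valuation.ne_zero_iff _).2 hz)])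
  have hq0 : (0 : ℝ) < q := Nat.cast_pos.2 hq.pos
  have hqinj : Function.Injective fun m : ℤ => (q : ℝ) ^ m :=
    zpow_right_injective₀ hq0 (by exact_mod_cast hq.ne_one)
  obtain ⟨π, hπ⟩ := v.valuation_exists_uniformizer E
  have hπ0 : π ≠ 0 := fun h => exp_ne_zero (a := (-1 : ℤ)) (by rw [← hπ, h, map_zero])
  obtain ⟨a, ha⟩ := hzpow _ (hEL π) (fun h => hπ0 (Subtype.ext h))
  have hr0a : r0 = (q : ℝ) ^ a := by
    rw [← ha]
    have h := hval π hπ0
    rw [hπ, log_exp, neg_neg, zpow_one] at h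
    exact h.symm
  have hqE : ((q : ℕ) : E) ≠ 0 := Nat.cast_ne_zero.2 hq.ne_zero
  have hqn : (q : ℝ) ^ (a * -log (v.valuation E (q : E))) = (q : ℝ) ^ (-1 : ℤ) := by
    rw [zpow_mul, ← hr0a, ← hval _ hqE, zpow_neg_one, map_natCast, Places.norm_natCast_self]
  have ha1 : a = -1 := by
    have h := hqinj hqn
    rcases Int.eq_one_or_neg_one_of_mul_eq_neg_one h with h1 | h1
    · exfalso
      rw [hr0a, h1, zpow_one] at hr1
      exact absurd hr1 (not_lt.2 (by exact_mod_cast hq.one_le))
    · exact h1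
  have hr0' : r ≠ 0 := fun h => x.ne_zero (Subtype.ext (by
    rw [ZeroMemClass.coe_zero, ← hr, h, zero_pow (Fact.out : p.Prime).ne_zero]))
  obtain ⟨b, hb⟩ := hzpow r (hfix r hWr) hr0'
  refine ⟨b, ?_⟩
  have h1 : ‖τ (x : E)‖ = (q : ℝ) ^ ((p : ℤ) * b) := by
    rw [Places.twistEmb_apply, ← hr, map_pow, map_pow, norm_pow, hb, mul_comm, zpow_mul,
      zpow_natCast]
  rw [hval _ x.ne_zero, hr0a, ← zpow_mul, ha1, neg_one_mul, neg_neg] at h1
  rw [← exp_log (show v.valuation E (x : E) ≠ 0 by simp), hqinj h1]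

/-- An element with a `p`-th root in an `S`-level is an `S`-unit times a `p`-th power. -/
theorem exists_sUnit_mul_pow (hS : Global.SPrincipal E (Places.placesS E S hE)) {x : Eˣ} {r : Qbar}
    (hr : r ^ p = ((x : E) : Qbar)) {W : Subgroup GalQ} (hW : (galLevelsS S).ok W)
    (hWE : W ≤ E.fixingSubgroup) (hWr : ∀ s ∈ W, s r = r) :
    ∃ y : Eˣ, x / y ^ p ∈ Global.sUnit E (Places.placesS E S hE) := by
  classical
  set S' := Places.placesS E S hE
  have hfin : {v : HeightOneSpectrum (𝓞 E) | v ∉ S' ∧ v.valuation E (x : E) ≠ 1}.Finite := by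
    refine ((HeightOneSpectrum.Support.finite (𝓞 E) (x : E)).union
      (HeightOneSpectrum.Support.finite (𝓞 E) ((x : E)⁻¹))).subset fun v hv => ?_
    rcases lt_or_gt_of_ne hv.2 with h | h
    · refine Or.inr ?_
      show 1 < v.valuation E ((x : E)⁻¹)
      rw [map_inv₀, one_lt_inv₀ (zero_lt_iff.2 (by simp))]
      exact h
    · exact Or.inl h
  choose k hk using fun v : HeightOneSpectrum (𝓞 E) => fun hv : v ∉ S' =>
    exists_valuation_eq_exp_mul hE hr hW hWE hWr hv
  obtain ⟨y, -, hy, hyv⟩ := Global.exists_prod_valuation S' hfin.toFinset (⊤ : Subgroup Eˣ)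
    (fun v hv => ((hfin.mem_toFinset).1 hv).1)
    (fun v hv => by
      obtain ⟨π, h1, h2⟩ := hS v ((hfin.mem_toFinset).1 hv).1
      exact ⟨π, Subgroup.mem_top _, h1, h2⟩)
    (fun v => if h : v ∉ S' then k v h else 0)
  refine ⟨y, fun v hv => ?_⟩
  rw [Units.val_div_eq_div_val, Units.val_pow_eq_pow_val, map_div₀, map_pow]
  by_cases hvT : v ∈ hfin.toFinset
  · have hv' : v ∉ S' := fun h => hv h
    rw [hyv v hvT, dif_pos hv', hk v hv', ← exp_nsmul, nsmul_eq_mul, div_self exp_ne_zero]
  · have h1 : v.valuation E (x : E) = 1 := by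
      by_contra hne
      exact hvT (hfin.mem_toFinset.2 ⟨hv, hne⟩)
    rw [hy v (fun h => (Finset.mem_union.1 h).elim hv hvT), h1, one_pow, div_one]

end Field

section Layer

variable (p) {H : Subgroup GalQ} (N : Subgroup H) [N.Normal]

/-- Any point with trivial `p`-th power has absolute value one. -/
theorem isSUnitBar_muVal (z : Mu p Qbar) : IsSUnitBar S (muVal z) := fun q _ _ g => by
  have h := congrArg (fun w : Lx Qbar => ‖padicEmbedding q (g ((w.toMul : Qbarˣ) : Qbar))‖)
    (nsmul_muVal z)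
  rw [toMul_nsmul, Units.val_pow_eq_pow_val, map_pow, map_pow, norm_pow, toMul_zero, Units.val_one,
    map_one, map_one, norm_one] at h
  exact (pow_eq_one_iff_of_nonneg (norm_nonneg _) (Fact.out : p.Prime).ne_zero).1 h

variable {p} (hμN : ∀ n ∈ N, ∀ z : Mu p Qbar, ((n : H) : GalQ) • z = z)

variable (S) in
/-- The roots of unity as layer units. -/
def muLayer : Mu p Qbar ≃+ TorP p (LayerUnits S N) where
  toFun z := torPMk p _ (⟨muVal z, by
      rintro _ ⟨n, hn, rfl⟩
      exact (muVal_smul _ z).symm.trans (congrArg muVal (hμN n hn z)), isSUnitBar_muVal p z⟩ :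
      unitsAtLevel S (N.map H.subtype))
    (layerVal_injective S N (nsmul_muVal z))
  invFun u := muMk (layerVal S N (torPVal p _ u))
    ((map_nsmul (layerVal S N) p _).symm.trans
      ((congrArg (layerVal S N) (torP_spec p _ u)).trans (map_zero _)))
  left_inv z := muVal_injective rfl
  right_inv u := torPVal_injective p _ (layerVal_injective S N rfl)
  map_add' z w := torPVal_injective p _ (layerVal_injective S N (map_add muVal z w))

theorem muLayer_smul (h : H) (z : Mu p Qbar) :
    muLayer S N hμN (h • z) = (h : H ⧸ N) • muLayer S N hμN z :=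
  torPVal_injective p _ (layerVal_injective S N (muVal_smul (h : GalQ) z))

include hμN in
omit [Fact (Nat.Prime p)] [N.Normal] in
theorem muVal_fix {n : H} (hn : n ∈ N) (z : Mu p Qbar) : (n : GalQ) • muVal z = muVal z :=
  (muVal_smul _ z).symm.trans (congrArg muVal (hμN n hn z))

/-- The cocycle of a root. -/
def rootFun (r : Lx Qbar) (hr : ∀ n : N, ((n : H) : GalQ) • p • r = p • r) (n : N) : Mu p Qbar :=
  muMk (((n : H) : GalQ) • r - r) (by rw [nsmul_sub, nsmul_smul_lx, hr, sub_self])

variable (hpS : (⟨p, Fact.out⟩ : Nat.Primes) ∈ S) (hN : (galLevelsS S).ok (N.map H.subtype))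

include hpS hN in
omit [N.Normal] in
/-- The root of an `S`-unit is fixed by an `S`-level. -/
theorem ok_stabilizer_root (u : LayerUnits S N) :
    (galLevelsS S).ok (MulAction.stabilizer GalQ (rootP p (layerVal S N u)) ⊓ N.map H.subtype) := by
  have hp : 0 < p := (Fact.out : p.Prime).pos
  set r := rootP p (layerVal S N u)
  obtain ⟨E, hE, hEN, hEu⟩ := exists_field_eq hN
  have := hE
  have : NumberField E := ⟨⟩
  have : IsGalois ℚ Qbar := Fermat.Agent.Gal.isGalois_rat_qbar
  obtain ⟨V, hV, hVr⟩ := isSmooth_Lx (F := ℚ) (L := Qbar) r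
  refine galLevelsS_ok_of_inertia ((galLevels ℚ Qbar).inf_ok
    ((galLevels ℚ Qbar).mono hV fun s hs => hVr s hs) (galLevels_ok_of_galLevelsS hN))
    fun q hq A hA σ hσ => ?_
  have hσN : σ ∈ N.map H.subtype := hEN ▸ hEu.2 q hq A hA hσ
  refine ⟨Additive.toMul.injective (Units.ext ?_), hσN⟩
  show σ ((r.toMul : Qbarˣ) : Qbar) = _
  have hrp : ((r.toMul : Qbarˣ) : Qbar) ^ p = (((layerVal S N u).toMul : Qbarˣ) : Qbar) := by
    rw [← Units.val_pow_eq_pow_val, ← toMul_nsmul, nsmul_rootP hp]
  have hqp : (q : ℕ) ≠ p := fun h => hq (by rwa [show q = ⟨p, Fact.out⟩ from Subtype.ext h])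
  let w : unitsAtLevel S E.fixingSubgroup :=
    ⟨layerVal S N u, fun g hg => u.2.1 g (hEN ▸ hg), u.2.2⟩
  set x := (sUnitEquiv E (galLevels_ok_fixingSubgroup E)).symm w
  have hxw : ((((x.toMul : Eˣ) : E)) : Qbar) = (((layerVal S N u).toMul : Qbarˣ) : Qbar) :=
    congrArg (fun z : unitsAtLevel S E.fixingSubgroup => (((z : Lx Qbar).toMul : Qbarˣ) : Qbar))
      ((sUnitEquiv E (galLevels_ok_fixingSubgroup E)).apply_symm_apply w)
  refine Places.apply_eq_of_pow_eq q.2 hqp hA ?_ hσ ?_
  · have h := Places.valuation_eq_one_of_valuation E q.2 hA (x := ((x.toMul : Eˣ) : E))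
      fun v hv => x.toMul.2 v fun hmem => by
        obtain ⟨r', hr', h'⟩ := (Places.mem_placesS E _).1 hmem
        exact hq ((Subtype.ext (Places.eq_of_natCast_mem q.2 r'.2 hv h') : q = r') ▸ hr')
    rw [hxw, ← hrp, map_pow] at h
    exact (pow_eq_one_iff_of_nonneg zero_le (Fact.out : p.Prime).ne_zero).1 h
  · rw [hrp]
    exact congrArg (fun z : Lx Qbar => ((z.toMul : Qbarˣ) : Qbar)) (u.2.1 σ hσN)

/-- The Kummer character of an `S`-unit. -/
def rootChar (u : LayerUnits S N) : NChar ((galLevelsS S).restrict H) N (Mu p Qbar) :=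
  (⟨rootFun N (rootP p (layerVal S N u)) (fun n => by
      rw [nsmul_rootP (Fact.out : p.Prime).pos]
      exact u.2.1 _ (Subgroup.mem_map_of_mem _ n.2)), by
    refine ⟨_, ⟨_, ⟨_, ok_stabilizer_root N hpS hN u, le_rfl⟩, le_rfl⟩, fun g s hs =>
      muVal_injective ?_⟩
    show (((g : H) : GalQ) * ((s : H) : GalQ)) • rootP p (layerVal S N u) -
      rootP p (layerVal S N u) =
      ((g : H) : GalQ) • rootP p (layerVal S N u) - rootP p (layerVal S N u)
    rw [mul_smul, show ((s : H) : GalQ) • rootP p (layerVal S N u) = rootP p (layerVal S N u) from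
      (Subgroup.mem_inf.1 (Subgroup.mem_subgroupOf.1 (Subgroup.mem_subgroupOf.1 hs))).1], by
    funext g h
    refine muVal_injective ?_
    simp only [Coh.d₁_apply, map_add, map_sub, Pi.zero_apply, map_zero]
    show ((g : H) : GalQ) • (((h : H) : GalQ) • rootP p (layerVal S N u) - _) -
      ((((g : H) : GalQ) * ((h : H) : GalQ)) • rootP p (layerVal S N u) - _) +
      (((g : H) : GalQ) • rootP p (layerVal S N u) - _) = 0
    rw [mul_smul, smul_sub]
    abel⟩ : Coh.Z1 (((galLevelsS S).restrict H).restrict N) (Mu p Qbar))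

omit [N.Normal] in
theorem muVal_rootChar (u : LayerUnits S N) (n : N) :
    muVal (NChar.val N (rootChar N hpS hN u) n) =
      ((n : H) : GalQ) • rootP p (layerVal S N u) - rootP p (layerVal S N u) := rfl

include hμN in
omit [N.Normal] in
/-- Any root gives the same character. -/
theorem rootChar_of_root (u : LayerUnits S N) {r : Lx Qbar} (hr : p • r = layerVal S N u) (n : N) :
    muVal (NChar.val N (rootChar N hpS hN u) n) = ((n : H) : GalQ) • r - r := by
  rw [muVal_rootChar]
  have hdiff : p • (rootP p (layerVal S N u) - r) = 0 := by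
    rw [nsmul_sub, nsmul_rootP (Fact.out : p.Prime).pos, hr, sub_self]
  have h := muVal_fix N hμN n.2 (muMk _ hdiff)
  rw [muVal_muMk, smul_sub] at h
  rw [← sub_eq_zero]
  rw [← sub_eq_zero] at h
  rw [← h]
  abel

/-- The Kummer homomorphism. -/
def layerKummer : LayerUnits S N →+ NChar ((galLevelsS S).restrict H) N (Mu p Qbar) :=
  AddMonoidHom.mk' (rootChar N hpS hN) fun u v => NChar.ext N fun n => muVal_injective (by
    rw [rootChar_of_root N hμN hpS hN (u + v)
      (r := rootP p (layerVal S N u) + rootP p (layerVal S N v)) (by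
        rw [nsmul_add, nsmul_rootP (Fact.out : p.Prime).pos, nsmul_rootP (Fact.out : p.Prime).pos,
          map_add])]
    show _ = muVal (NChar.val N (rootChar N hpS hN u) n + NChar.val N (rootChar N hpS hN v) n)
    rw [map_add, muVal_rootChar, muVal_rootChar, smul_add]
    abel)

omit [N.Normal] in
theorem layerKummer_apply (u : LayerUnits S N) :
    layerKummer N hμN hpS hN u = rootChar N hpS hN u := rfl

theorem layerKummer_smul (h : H) (u : LayerUnits S N) :
    layerKummer N hμN hpS hN ((h : H ⧸ N) • u) = h • layerKummer N hμN hpS hN u :=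
  NChar.ext N fun n => muVal_injective (by
    rw [layerKummer_apply, rootChar_of_root N hμN hpS hN _
      (r := (h : GalQ) • rootP p (layerVal S N u)) (by
        rw [nsmul_smul_lx, nsmul_rootP (Fact.out : p.Prime).pos, layerVal_smul]), NChar.val_smul]
    show _ = muVal ((h : GalQ) • NChar.val N (rootChar N hpS hN u) (conjN N h n))
    rw [muVal_smul, muVal_rootChar, smul_sub, smul_smul, smul_smul]
    congr 2
    simp [conjN, mul_assoc])

omit [N.Normal] in
theorem layerKummer_eq_zero_iff (u : LayerUnits S N) :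
    layerKummer N hμN hpS hN u = 0 ↔ ∃ v, p • v = u := by
  have hp : p.Prime := Fact.out
  constructor
  · intro h
    set r := rootP p (layerVal S N u)
    have hrp : p • r = layerVal S N u := nsmul_rootP hp.pos _
    have hfix : ∀ g ∈ N.map H.subtype, g • r = r := by
      rintro _ ⟨n, hn, rfl⟩
      exact sub_eq_zero.1 ((muVal_rootChar N hpS hN u ⟨n, hn⟩).symm.trans
        ((congrArg (fun z => muVal (NChar.val N z ⟨n, hn⟩)) h).trans (map_zero muVal)))
    have hunit : IsSUnitBar S r := fun q _ hq g => by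
      have h1 := u.2.2 q hq g
      rw [show (u : unitsAtLevel S (N.map H.subtype)).1 = p • r from hrp.symm, toMul_nsmul,
        Units.val_pow_eq_pow_val, map_pow, map_pow, norm_pow] at h1
      exact (pow_eq_one_iff_of_nonneg (norm_nonneg _) hp.ne_zero).1 h1
    exact ⟨(⟨r, hfix, hunit⟩ : unitsAtLevel S (N.map H.subtype)), layerVal_injective S N hrp⟩
  · rintro ⟨v, rfl⟩
    refine NChar.ext N fun n => muVal_injective ?_
    rw [layerKummer_apply, rootChar_of_root N hμN hpS hN (p • v) (r := layerVal S N v)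
      (map_nsmul _ _ _).symm]
    show _ = muVal 0
    rw [map_zero, show ((n : H) : GalQ) • layerVal S N v = layerVal S N v from
      v.2.1 _ (Subgroup.mem_map_of_mem _ n.2), sub_self]

variable (hbig : ∀ (E : IntermediateField ℚ Qbar) [FiniteDimensional ℚ E] [NumberField E]
  (hE : (galLevels ℚ Qbar).ok E.fixingSubgroup), E.fixingSubgroup = N.map H.subtype →
    Global.SPrincipal E (Places.placesS E S hE))

include hbig in
omit [N.Normal] in
theorem layerKummer_surjective : Function.Surjective (layerKummer N hμN hpS hN) := by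
  classical
  intro χ
  obtain ⟨U, ⟨V, ⟨W, hW, hWV⟩, hVU⟩, hχc⟩ := (χ : Coh.Z1 (((galLevelsS S).restrict H).restrict N)
    (Mu p Qbar)).2.1
  set N' := N.map H.subtype
  let eN : N ≃* N' := N.equivMapOfInjective H.subtype H.subtype_injective
  have heN : ∀ g : N', ((((eN.symm g : N) : H)) : GalQ) = (g : GalQ) := fun g => by
    conv_rhs => rw [← eN.apply_symm_apply g]
    rfl
  obtain ⟨r, hr⟩ := exists_eq_smul_sub N' (galLevels_ok_of_galLevelsS hN)
    (fun g => muVal (NChar.val N χ (eN.symm g)))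
    ⟨W.subgroupOf N', ⟨W, galLevels_ok_of_galLevelsS hW,
      le_rfl⟩, fun g s hs => congrArg muVal (by
        rw [map_mul]
        refine hχc _ _ (hVU (Subgroup.mem_subgroupOf.2 (hWV (Subgroup.mem_subgroupOf.2 ?_))))
        rw [heN]
        exact Subgroup.mem_subgroupOf.1 hs)⟩ fun g h => by
      rw [map_mul, NChar.val_mul, map_add]
      refine congrArg (· + _) ?_
      show muVal (((((eN.symm g : N) : H)) : GalQ) • _) = (g : GalQ) • _
      rw [muVal_smul, heN]
  have hrn : ∀ n : N, muVal (NChar.val N χ n) = ((n : H) : GalQ) • r - r := fun n => by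
    have h := hr (eN n)
    rwa [eN.symm_apply_apply] at h
  obtain ⟨E, hE, hEN, hEu⟩ := exists_field_eq hN
  have := hE
  have : NumberField E := ⟨⟩
  have : IsGalois ℚ Qbar := Fermat.Agent.Gal.isGalois_rat_qbar
  have hEok := galLevels_ok_fixingSubgroup E
  have hxfix : ∀ g ∈ N', g • p • r = p • r := fun g hg => by
    obtain ⟨n, hn, rfl⟩ := hg
    rw [← nsmul_smul_lx, ← sub_eq_zero, ← nsmul_sub]
    exact (congrArg (p • ·) (hrn ⟨n, hn⟩)).symm.trans (nsmul_muVal _)
  have hxE : (((p • r).toMul : Qbarˣ) : Qbar) ∈ E := by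
    refine (InfiniteGalois.fixedField_fixingSubgroup E).le fun s => ?_
    exact congrArg (fun w : Lx Qbar => ((w.toMul : Qbarˣ) : Qbar)) (hxfix _ (hEN ▸ s.2))
  have hx0 : (⟨_, hxE⟩ : E) ≠ 0 := fun h => (p • r).toMul.ne_zero (congrArg Subtype.val h)
  have hWr : ∀ s ∈ W ⊓ N', s ((r.toMul : Qbarˣ) : Qbar) = ((r.toMul : Qbarˣ) : Qbar) := by
    rintro _ ⟨hsW, n, hn, rfl⟩
    have h0 : NChar.val N χ 1 = 0 := by
      have h := NChar.val_mul N χ 1 1
      rw [mul_one, one_smul] at h
      exact left_eq_add.mp h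
    have h1 := hχc 1 ⟨n, hn⟩ (hVU (Subgroup.mem_subgroupOf.2 (hWV (Subgroup.mem_subgroupOf.2 hsW))))
    rw [one_mul] at h1
    have h2 := hrn ⟨n, hn⟩
    rw [show NChar.val N χ ⟨n, hn⟩ = 0 from h1.trans h0, map_zero, eq_comm, sub_eq_zero] at h2
    exact congrArg (fun w : Lx Qbar => ((w.toMul : Qbarˣ) : Qbar)) h2
  obtain ⟨y, hy⟩ := exists_sUnit_mul_pow hEok (hbig E hEok hEN) (x := Units.mk0 _ hx0)
    (r := ((r.toMul : Qbarˣ) : Qbar)) (by
      rw [← Units.val_pow_eq_pow_val, ← toMul_nsmul]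
      rfl)
    ((galLevelsS S).inf_ok hW hN) (fun s hs => hEN ▸ hs.2) hWr
  let w := sUnitEquiv E hEok (Additive.ofMul ⟨_, hy⟩)
  let u : LayerUnits S N := (⟨w.1, fun g hg => w.2.1 g (hEN ▸ hg), w.2.2⟩ : unitsAtLevel S N')
  refine ⟨u, NChar.ext N fun n => muVal_injective ?_⟩
  set ye : Lx Qbar := (Places.globalUnit E (Additive.ofMul y) : Lx Qbar)
  have hye : ((n : H) : GalQ) • ye = ye :=
    (Places.globalUnit E (Additive.ofMul y)).2 ⟨_, hEN ▸ Subgroup.mem_map_of_mem _ n.2⟩
  rw [layerKummer_apply, rootChar_of_root N hμN hpS hN u (r := r - ye) (by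
    rw [nsmul_sub]
    refine Additive.toMul.injective (Units.ext ?_)
    rw [toMul_sub, toMul_nsmul p ye, Units.val_div_eq_div_val, Units.val_pow_eq_pow_val]
    show _ = (((Units.mk0 _ hx0 / y ^ p : Eˣ) : E) : Qbar)
    rw [Units.val_div_eq_div_val, Units.val_pow_eq_pow_val]
    rfl), hrn, smul_sub, hye]
  abel

/-- **The characters of a layer are the `S`-units modulo `p`-th powers.** -/
def charEquiv : NChar ((galLevelsS S).restrict H) N (Mu p Qbar) ≃+ ModP p (LayerUnits S N) :=
  ((QuotientAddGroup.quotientAddEquivOfEq (show (nsmulAddMonoidHom (α := LayerUnits S N) p).range =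
      (layerKummer N hμN hpS hN).ker from by
        ext u
        rw [AddMonoidHom.mem_ker, layerKummer_eq_zero_iff]
        rfl)).trans
    (QuotientAddGroup.quotientKerEquivOfSurjective (layerKummer N hμN hpS hN)
      (layerKummer_surjective N hμN hpS hN hbig))).symm

omit [N.Normal] in
theorem charEquiv_layerKummer (u : LayerUnits S N) :
    charEquiv N hμN hpS hN hbig (layerKummer N hμN hpS hN u) = modPMk p _ u :=
  (AddEquiv.symm_apply_eq _).2 rfl

theorem charEquiv_smul (h : H) (χ : NChar ((galLevelsS S).restrict H) N (Mu p Qbar)) :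
    charEquiv N hμN hpS hN hbig (h • χ) = (h : H ⧸ N) • charEquiv N hμN hpS hN hbig χ := by
  obtain ⟨u, rfl⟩ := layerKummer_surjective N hμN hpS hN hbig χ
  rw [← layerKummer_smul, charEquiv_layerKummer, charEquiv_layerKummer, modPMk_smul]

include hμN hpS hN hbig in
omit [N.Normal] in
/-- **Only the trivial character is trivial at all places over `S`.** -/
theorem eq_zero_of_locally_trivial (hp2 : p ≠ 2)
    (χ : NChar ((galLevelsS S).restrict H) N (Mu p Qbar))
    (hloc : ∀ (q : ↥S) (g : GalQ), ∃ y : Mu p Qbar, ∀ (d : GalLoc (q.1 : ℕ)) (n : N),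
      locφ S q d * g = g * ((n : H) : GalQ) →
        g • NChar.val N χ n = locφ S q d • y - y) : χ = 0 := by
  have hp : p.Prime := Fact.out
  obtain ⟨u, rfl⟩ := layerKummer_surjective N hμN hpS hN hbig χ
  rw [layerKummer_eq_zero_iff]
  obtain ⟨E, hE, hEN, hEu⟩ := exists_field_eq hN
  have := hE
  have : NumberField E := ⟨⟩
  have hEok := galLevels_ok_fixingSubgroup E
  have hμE : ∀ (h : E.fixingSubgroup) (z : Mu p Qbar), h • z = z := fun ⟨h, hh⟩ z => by
    rw [hEN] at hh
    obtain ⟨n, hn, rfl⟩ := hh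
    exact hμN n hn z
  obtain ⟨ζ, hζ⟩ := Places.exists_primitiveRoot_mem E hμE
  let w : unitsAtLevel S E.fixingSubgroup :=
    ⟨layerVal S N u, fun g hg => u.2.1 g (hEN ▸ hg), u.2.2⟩
  set x := (sUnitEquiv E hEok).symm w
  have hxw : ((((x.toMul : Eˣ) : E)) : Qbar) = (((layerVal S N u).toMul : Qbarˣ) : Qbar) :=
    congrArg (fun z : unitsAtLevel S E.fixingSubgroup => (((z : Lx Qbar).toMul : Qbarˣ) : Qbar))
      ((sUnitEquiv E hEok).apply_symm_apply w)
  obtain ⟨z, hz⟩ := Global.exists_pow_eq_of_sUnit hp hp2 hζ (hbig E hEok hEN)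
    (fun v hv => Places.valuation_natCast_eq_one_of_notMem E hEok hpS hv) x.toMul.2 fun v hv => by
      obtain ⟨q, hq, hqv⟩ := (Places.mem_placesS E hEok).1 hv
      have : Fact (q : ℕ).Prime := ⟨q.2⟩
      obtain ⟨τ, rfl⟩ := Places.exists_placeOf_eq (q : ℕ) v hqv
      obtain ⟨g, rfl⟩ := Places.exists_twistEmb_eq (q : ℕ) E τ
      obtain ⟨y, hy⟩ := hloc ⟨q, hq⟩ g
      set r := rootP p (layerVal S N u)
      set ρ : Lx Qbar := g • r - muVal y
      rw [Places.mem_localPow_placeOf_iff (q : ℕ) hp]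
      refine ⟨padicEmbedding (q : ℕ) ((ρ.toMul : Qbarˣ) : Qbar),
        (Places.mem_locField_iff_smul (q : ℕ) E g _).2 fun d hd => ?_, ?_⟩
      · have hd' := Coh.mem_twisted.1 hd
        rw [hEN] at hd'
        obtain ⟨n, hn, hnd⟩ := hd'
        have hnd' : localGaloisToGlobal (q : ℕ) d * g = g * (n : GalQ) := by
          rw [show (n : GalQ) = g⁻¹ * localGaloisToGlobal (q : ℕ) d * g from hnd]
          group
        have h1 := congrArg muVal (hy d ⟨n, hn⟩ hnd')
        rw [muVal_smul, layerKummer_apply, muVal_rootChar, map_sub, muVal_smul, smul_sub,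
          smul_smul] at h1
        rw [← padicEmbedding_localGaloisToGlobal]
        refine congrArg (padicEmbedding (q : ℕ)) ?_
        refine congrArg (fun w : Lx Qbar => ((w.toMul : Qbarˣ) : Qbar))
          (show localGaloisToGlobal (q : ℕ) d • ρ = ρ from ?_)
        simp only [ρ, smul_sub, smul_smul, hnd']
        rw [← sub_eq_zero] at h1 ⊢
        rw [← h1]
        abel
      · rw [← map_pow, Places.twistEmb_apply, hxw, ← Units.val_pow_eq_pow_val, ← toMul_nsmul]
        refine congrArg (padicEmbedding (q : ℕ)) ?_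
        show (((p • ρ).toMul : Qbarˣ) : Qbar) = _
        rw [show p • ρ = g • layerVal S N u by
          simp only [ρ, nsmul_sub, nsmul_muVal, sub_zero, nsmul_smul_lx]
          rw [nsmul_rootP hp.pos]]
        rfl
  have hzS : z ∈ Global.sUnit E (Places.placesS E S hEok) := fun v hv => by
    have h1 : v.valuation E ((z ^ p : Eˣ) : E) = 1 := by rw [hz]; exact x.toMul.2 v hv
    rw [Units.val_pow_eq_pow_val, map_pow] at h1
    exact (pow_eq_one_iff_of_nonneg zero_le hp.ne_zero).1 h1
  let w' := sUnitEquiv E hEok (Additive.ofMul ⟨z, hzS⟩)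
  refine ⟨(⟨w'.1, fun g hg => w'.2.1 g (hEN ▸ hg), w'.2.2⟩ : unitsAtLevel S (N.map H.subtype)),
    layerVal_injective S N ?_⟩
  refine (map_nsmul (layerVal S N) p _).trans ?_
  show p • (w' : Lx Qbar) = _
  have hpw : p • w' = w := by
    rw [← map_nsmul, ← AddEquiv.eq_symm_apply]
    exact Additive.toMul.injective (Subtype.ext hz)
  exact (AddSubgroup.coe_nsmul _ w' p).symm.trans (congrArg Subtype.val hpw)

end Layer

end Fermat.Agent.EulerChar

end
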