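import Fermat.Agent.EulerChar.Count
import Fermat.Agent.Duality.Coh.Theta
import Fermat.Agent.Duality.Coh.Cor

/-!
# Modules of a group through a quotient of order prime to `p`
-/

set_option autoImplicit false

noncomputable section

namespace Fermat.Agent.EulerChar

open Duality.Coh

/-- `F_p` with trivial action. -/
def Triv (p : ℕ) : Type := ZMod p

instance addCommGroupTriv (p : ℕ) : AddCommGroup (Triv p) := inferInstanceAs (AddCommGroup (ZMod p))

instance actionTriv (p : ℕ) (H : Type) [Group H] : DistribMulAction H (Triv p) where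
  smul _ x := x
  one_smul _ := rfl
  mul_smul _ _ _ := rfl
  smul_zero _ := rfl
  smul_add _ _ _ := rfl

theorem smul_triv {p : ℕ} {H : Type} [Group H] (h : H) (x : Triv p) : h • x = x := rfl

theorem nsmul_triv {p : ℕ} (x : Triv p) : p • x = 0 :=
  @id (p • (id x : ZMod p) = 0) (by rw [nsmul_eq_mul, ZMod.natCast_self, zero_mul])

variable {p : ℕ} [Fact p.Prime]

section Cyclic

variable {L : Type} [AddCommGroup L] (e : L ≃+ ZMod p)

/-- Homomorphisms into a group of order `p`. -/
def homEquivTriv (V : Type) [AddCommGroup V] : HomMod V L ≃ (V →+ ZMod p) where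
  toFun f := e.toAddMonoidHom.comp f.toHom
  invFun f := HomMod.of (e.symm.toAddMonoidHom.comp f)
  left_inv f := HomMod.ext fun v => e.symm_apply_apply (f v)
  right_inv f := AddMonoidHom.ext fun v => e.apply_symm_apply (f v)

include e in
theorem natCard_homMod (V : Type) [AddCommGroup V] [Finite V] (hV : ∀ v : V, p • v = 0) :
    Nat.card (HomMod V L) = Nat.card V := by
  rw [Nat.card_congr (homEquivTriv e V), natCard_hom_zmod p V hV]

include e in
theorem torsion_of_equiv (x : L) : p • x = 0 :=
  e.injective (by rw [map_nsmul, map_zero, ZModModule.char_nsmul_eq_zero p])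

include e in
theorem finite_homMod (V : Type) [AddCommGroup V] [Finite V] : Finite (HomMod V L) :=
  have := finite_hom_zmod p V
  Finite.of_equiv _ (homEquivTriv e V).symm

include e in
/-- Homomorphisms into a group of order `p` separate elements killed by `p`. -/
theorem eq_zero_of_forall_hom {V : Type} [AddCommGroup V] (hV : ∀ v : V, p • v = 0) {v : V}
    (h : ∀ f : HomMod V L, f v = 0) : v = 0 := by
  by_contra hv
  let j : ZMod p →+ V := ZMod.lift p ⟨zmultiplesHom V v, by simp [hV]⟩
  have hj1 : j 1 = v := by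
    rw [show (1 : ZMod p) = ((1 : ℤ) : ZMod p) by simp]
    exact (ZMod.lift_coe p _ 1).trans (by simp)
  obtain ⟨ψ, hψ⟩ := exists_hom_factor hV (torsion_of_equiv e) j e.symm.toAddMonoidHom
    fun a ha => by
      by_contra ha'
      have : a ≠ 0 := fun h0 => ha' (by rw [h0, map_zero])
      have hz : (a⁻¹.val : ℕ) • j a = 0 := by rw [ha, smul_zero]
      rw [← map_nsmul, nsmul_eq_mul, ZMod.natCast_zmod_val, inv_mul_cancel₀ this] at hz
      exact hv (hj1.symm.trans hz)
  have h1 := h (HomMod.of ψ)
  rw [HomMod.of_apply] at h1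
  have h2 := hψ 1
  rw [hj1, h1] at h2
  exact one_ne_zero (e.symm.injective ((map_zero e.symm).trans h2).symm)

/-- Evaluation into the double dual. -/
def bidual (V : Type) [AddCommGroup V] : V →+ HomMod (HomMod V L) L where
  toFun v := HomMod.of
    { toFun := fun f => f v
      map_zero' := rfl
      map_add' := fun _ _ => rfl }
  map_zero' := HomMod.ext fun f => map_zero f
  map_add' v w := HomMod.ext fun f => map_add f v w

include e in
/-- Biduality. -/
theorem bidual_bijective (V : Type) [AddCommGroup V] [Finite V] (hV : ∀ v : V, p • v = 0) :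
    Function.Bijective (bidual (L := L) V) := by
  have := finite_homMod e V
  have := finite_homMod e (HomMod V L)
  refine (Nat.bijective_iff_injective_and_card _).mpr
    ⟨(injective_iff_map_eq_zero _).mpr fun v hv =>
      eq_zero_of_forall_hom e hV fun f => DFunLike.congr_fun hv f, ?_⟩
  exact ((natCard_homMod e (HomMod V L) (HomMod.torsion (torsion_of_equiv e))).trans
    (natCard_homMod e V hV)).symm

end Cyclic

variable {H : Type} [Group H] (N : Subgroup H) [N.Normal]

section Average

variable [Fintype (H ⧸ N)] {V : Type} [AddCommGroup V] [DistribMulAction H V]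

/-- The normalised sum over the quotient. -/
def average (hV : ∀ n ∈ N, ∀ v : V, n • v = v) : V →+ inv H V where
  toFun v := ⟨(((Fintype.card (H ⧸ N) : ZMod p))⁻¹).val • ∑ q : H ⧸ N, q.out • v, fun h => by
    rw [smul_comm, Finset.smul_sum]
    refine congrArg _ (Fintype.sum_equiv (MulAction.toPerm h) _ _ fun q => ?_)
    rw [MulAction.toPerm_apply, smul_smul, ← out_mul_cosetFactor N h q, mul_smul,
      hV _ (cosetFactor N h q).2]⟩
  map_zero' := Subtype.ext (by simp)
  map_add' v w := Subtype.ext (by simp [smul_add, Finset.sum_add_distrib])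

omit [N.Normal] in
theorem average_spec (hV : ∀ n ∈ N, ∀ v : V, n • v = v) (hp : ¬ p ∣ N.index)
    (hpV : ∀ v : V, p • v = 0) (v : inv H V) : average (p := p) N hV (v : V) = v := by
  refine Subtype.ext ?_
  show (((Fintype.card (H ⧸ N) : ZMod p))⁻¹).val • ∑ q : H ⧸ N, q.out • (v : V) = v
  rw [Finset.sum_congr rfl fun q _ => v.2 q.out, Finset.sum_const, Finset.card_univ, smul_smul]
  have hm : (Fintype.card (H ⧸ N) : ZMod p) ≠ 0 := by
    rw [Ne, ZMod.natCast_eq_zero_iff, ← Nat.card_eq_fintype_card, ← Subgroup.index_eq_card]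
    exact hp
  set k := (((Fintype.card (H ⧸ N) : ZMod p))⁻¹).val * Fintype.card (H ⧸ N)
  have hk : ((k : ℕ) : ZMod p) = 1 := by
    simp [k, inv_mul_cancel₀ hm]
  conv_rhs => rw [← one_nsmul (v : V)]
  rw [← Nat.mod_add_div k p, add_nsmul, mul_comm p, mul_nsmul', hpV, smul_zero, add_zero]
  congr 1
  have h1 := congrArg ZMod.val hk
  rwa [ZMod.val_natCast, ZMod.val_one] at h1

omit [N.Normal] in
theorem average_map {V' : Type} [AddCommGroup V'] [DistribMulAction H V']
    (hV : ∀ n ∈ N, ∀ v : V, n • v = v) (hV' : ∀ n ∈ N, ∀ v : V', n • v = v) {φ : V →+ V'}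
    (hφ : IsEquivariant (MonoidHom.id H) φ) (v : V) :
    (average (p := p) N hV' (φ v) : V') = φ (average (p := p) N hV v : V) := by
  show _ • ∑ q : H ⧸ N, q.out • φ v = φ (_ • ∑ q : H ⧸ N, q.out • v)
  rw [map_nsmul, map_sum]
  exact congrArg _ (Finset.sum_congr rfl fun q _ => (hφ _ _).symm)

end Average

variable [N.FiniteIndex] (hp : ¬ p ∣ N.index)

include hp in
omit [N.Normal] in
/-- Invariants are exact on modules through the coprime quotient. -/
theorem inv_lift_surjective {V V' : Type} [AddCommGroup V] [DistribMulAction H V] [AddCommGroup V']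
    [DistribMulAction H V'] (hV : ∀ n ∈ N, ∀ v : V, n • v = v) (hpV : ∀ v : V, p • v = 0)
    {φ : V →+ V'} (hφ : IsEquivariant (MonoidHom.id H) φ) (hs : Function.Surjective φ)
    (v' : inv H V') : ∃ v : inv H V, φ v = v' := by
  let := Fintype.ofFinite (H ⧸ N)
  have hV' : ∀ n ∈ N, ∀ w : V', n • w = w := fun n hn w => by
    obtain ⟨u, rfl⟩ := hs w
    exact (hφ n u).symm.trans (congrArg φ (hV n hn u))
  have hpV' : ∀ w : V', p • w = 0 := fun w => by
    obtain ⟨u, rfl⟩ := hs w
    rw [← map_nsmul, hpV, map_zero]
  obtain ⟨v, hv⟩ := hs (v' : V')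
  refine ⟨average (p := p) N hV v, ?_⟩
  rw [← average_map N hV hV' hφ, hv, average_spec N hV' hp hpV']

include hp in
/-- A module and its dual have equally many invariants. -/
theorem natCard_inv_dual {V : Type} [AddCommGroup V] [DistribMulAction H V] [Finite V]
    (hV : ∀ n ∈ N, ∀ v : V, n • v = v) (hpV : ∀ v : V, p • v = 0) :
    Nat.card (inv H (HomMod V (Triv p))) = Nat.card (inv H V) := by
  let := Fintype.ofFinite (H ⧸ N)
  let r : inv H (HomMod V (Triv p)) → HomMod (inv H V) (Triv p) := fun f =>
    HomMod.of ((f : HomMod V (Triv p)).toHom.comp (inv H V).subtype)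
  have hr : Function.Bijective r := by
    constructor
    · intro f f' hff
      refine Subtype.ext (HomMod.ext fun v => ?_)
      have key : ∀ f : inv H (HomMod V (Triv p)), (f : HomMod V (Triv p))
          (average (p := p) N hV v : V) = (f : HomMod V (Triv p)) v := fun f => by
        have hf : ∀ h : H, (f : HomMod V (Triv p)) (h • v) = (f : HomMod V (Triv p)) v := fun h =>
          (HomMod.isEquivariant_of_mem_inv f.2 h v).trans (smul_triv h _)
        show (f : HomMod V (Triv p)) (_ • ∑ q : H ⧸ N, q.out • v) = _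
        rw [map_nsmul, map_sum, Finset.sum_congr rfl fun q _ => hf q.out, Finset.sum_const,
          Finset.card_univ]
        have h1 := congrArg Subtype.val (average_spec (p := p) N (V := Triv p)
          (fun n _ x => smul_triv n x) hp nsmul_triv
          ⟨(f : HomMod V (Triv p)) v, fun h => smul_triv h _⟩)
        refine Eq.trans ?_ h1
        show _ = _ • ∑ q : H ⧸ N, q.out • (f : HomMod V (Triv p)) v
        rw [Finset.sum_congr rfl fun (q : H ⧸ N) _ => smul_triv q.out _, Finset.sum_const,
          Finset.card_univ]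
      rw [← key f, ← key f']
      exact DFunLike.congr_fun hff (average (p := p) N hV v)
    · intro ψ
      refine ⟨⟨HomMod.of (ψ.toHom.comp (average (p := p) N hV)), fun h => HomMod.ext fun v => ?_⟩,
        HomMod.ext fun w => ?_⟩
      · show ψ (average (p := p) N hV (h⁻¹ • v)) = ψ (average (p := p) N hV v)
        congr 1
        refine Subtype.ext ?_
        show _ • ∑ q : H ⧸ N, q.out • h⁻¹ • v = _ • ∑ q : H ⧸ N, q.out • v
        refine congrArg _ ?_
        have hcv : ∀ (g : H) (u : V), ((g : H ⧸ N).out) • u = g • u := fun g u => by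
          obtain ⟨n, hn⟩ := QuotientGroup.mk_out_eq_mul N g
          rw [hn, mul_smul, hV _ n.2]
        refine Fintype.sum_equiv (Equiv.mulRight ((h⁻¹ : H) : H ⧸ N)) _ _ fun q => ?_
        rw [Equiv.coe_mulRight, smul_smul, ← hcv, QuotientGroup.mk_mul, QuotientGroup.out_eq']
      · show ψ (average (p := p) N hV (w : V)) = ψ w
        rw [average_spec N hV hp hpV]
  rw [Nat.card_congr (Equiv.ofBijective r hr),
    natCard_homMod (show Triv p ≃+ ZMod p from AddEquiv.refl _) (inv H V) fun w =>
      Subtype.ext (hpV _)]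

end Fermat.Agent.EulerChar

end
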