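import Mathlib

/-!
# Orders of finite `p`-groups along exact sequences
-/

set_option autoImplicit false

noncomputable section

namespace Fermat.Agent.EulerChar

variable (p : ℕ)

/-- The exponent of `p` in the order of a finite group. -/
def vcard (X : Type) : ℤ := (padicValNat p (Nat.card X) : ℤ)

theorem vcard_congr {X Y : Type} (e : X ≃ Y) : vcard p X = vcard p Y := by
  rw [vcard, vcard, Nat.card_congr e]

theorem vcard_subsingleton (X : Type) [Nonempty X] [Subsingleton X] : vcard p X = 0 := by
  simp [vcard]

variable [Fact p.Prime] {A B C : Type} [AddCommGroup A] [AddCommGroup B] [AddCommGroup C]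

theorem vcard_prod (X Y : Type) [Finite X] [Finite Y] [Nonempty X] [Nonempty Y] :
    vcard p (X × Y) = vcard p X + vcard p Y := by
  rw [vcard, vcard, vcard, Nat.card_prod, padicValNat.mul Nat.card_pos.ne' Nat.card_pos.ne',
    Nat.cast_add]

theorem vcard_pi {ι : Type} [Fintype ι] (X : ι → Type) [∀ i, Finite (X i)]
    [∀ i, Nonempty (X i)] : vcard p (∀ i, X i) = ∑ i, vcard p (X i) := by
  classical
  have h : ∀ s : Finset ι, padicValNat p (∏ i ∈ s, Nat.card (X i)) =
      ∑ i ∈ s, padicValNat p (Nat.card (X i)) := by
    intro s
    induction s using Finset.induction_on with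
    | empty => simp
    | insert i s hi ih =>
      rw [Finset.prod_insert hi, Finset.sum_insert hi, padicValNat.mul Nat.card_pos.ne'
        (Finset.prod_ne_zero_iff.mpr fun j _ => Nat.card_pos.ne'), ih]
  rw [vcard, Nat.card_pi, h, Nat.cast_sum]
  rfl

/-- A finite group splits into kernel and range. -/
theorem vcard_eq_ker_add_range [Finite A] (f : A →+ B) :
    vcard p A = vcard p f.ker + vcard p f.range := by
  have : Finite f.range := Finite.of_surjective _ f.rangeRestrict_surjective
  have : Finite f.ker := Finite.of_injective _ f.ker.subtype_injective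
  rw [vcard, AddSubgroup.card_eq_card_quotient_mul_card_addSubgroup f.ker,
    Nat.card_congr (QuotientAddGroup.quotientKerEquivRange f).toEquiv,
    padicValNat.mul Nat.card_pos.ne' Nat.card_pos.ne', Nat.cast_add, add_comm]
  rfl

/-- An exact pair of maps. -/
theorem vcard_eq_range_add_range [Finite B] (f : A →+ B) (g : B →+ C)
    (h : ∀ a, g (f a) = 0) (h' : ∀ b, g b = 0 → ∃ a, f a = b) :
    vcard p B = vcard p f.range + vcard p g.range := by
  rw [vcard_eq_ker_add_range p g, show f.range = g.ker from
    le_antisymm (fun _ ⟨a, ha⟩ => ha ▸ h a) fun b hb => h' b hb]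

omit [Fact p.Prime] in
theorem vcard_range_of_injective (f : A →+ B) (hf : Function.Injective f) :
    vcard p f.range = vcard p A :=
  vcard_congr p (AddMonoidHom.ofInjective hf).toEquiv.symm

omit [Fact p.Prime] in
theorem vcard_range_of_surjective (f : A →+ B) (hf : Function.Surjective f) :
    vcard p f.range = vcard p B :=
  vcard_congr p (Equiv.subtypeUnivEquiv hf)

/-- A short exact sequence. -/
theorem vcard_shortExact [Finite B] (i : A →+ B) (π : B →+ C) (hi : Function.Injective i)
    (hπ : Function.Surjective π) (h : ∀ a, π (i a) = 0) (h' : ∀ b, π b = 0 → ∃ a, i a = b) :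
    vcard p B = vcard p A + vcard p C := by
  rw [vcard_eq_range_add_range p i π h h', vcard_range_of_injective p i hi,
    vcard_range_of_surjective p π hπ]

private theorem natCard_hom_zmod_aux (X : Type) [AddCommGroup X] [Module (ZMod p) X] [Finite X] :
    Nat.card (X →+ ZMod p) = Nat.card X := by
  have : Module.Finite (ZMod p) X := Module.Finite.of_finite
  rw [Nat.card_congr (Module.finBasis (ZMod p) X).toDualEquiv.toEquiv]
  exact Nat.card_congr
    { toFun := fun f => f.toZModLinearMap p
      invFun := fun f => f.toAddMonoidHom
      left_inv := fun f => rfl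
      right_inv := fun f => rfl }

/-- A finite group killed by `p` has as many characters as elements. -/
theorem natCard_hom_zmod (X : Type) [AddCommGroup X] [Finite X] (hX : ∀ x : X, p • x = 0) :
    Nat.card (X →+ ZMod p) = Nat.card X := by
  let hm : Module (ZMod p) X := AddCommGroup.zmodModule hX
  exact natCard_hom_zmod_aux p X

theorem finite_hom_zmod (X : Type) [AddCommGroup X] [Finite X] : Finite (X →+ ZMod p) :=
  Finite.of_injective (fun f => (f : X → ZMod p)) DFunLike.coe_injective

end Fermat.Agent.EulerChar

end
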