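import Fermat.Agent.EulerChar.Classes
import Fermat.Agent.Duality.Places.FiniteSupport

/-!
# The global Euler characteristic formula for big sets of primes

For a finite module killed by `p` split by an open normal `K`, and a finite `S` that is big for
`K`, `h¹ = h⁰ + (h² read as invariant homomorphisms to the dualising module) + d⁻`.
-/

set_option autoImplicit false

noncomputable section

open IsDedekindDomain NumberField

namespace Fermat.Agent.EulerChar

open Duality Duality.Coh

variable {p : ℕ} [Fact p.Prime]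

section Finiteness

variable {G : Type} [Group G] {𝓛 : Levels G} {I : Type} [Fintype I] [Nonempty I] {D : I → Type}
  [∀ i, Group (D i)] (φ : ∀ i, D i →* G) {A : Type} [AddCommGroup A] [DistribMulAction G A]
  [Finite A] {M : Type} [AddCommGroup M] [DistribMulAction G M] [Finite M]

/-- Invariant homomorphisms to the quotient by the diagonal form a finite group. -/
theorem finite_inv_hom_placeQuot (hA : IsSmooth 𝓛 A) (hpA : ∀ a : A, p • a = 0)
    (hM : IsSmooth 𝓛 M) [Finite (H1 𝓛 (HomMod M A))] :
    Finite (inv G (HomMod M (PlaceQuot 𝓛 φ A))) := by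
  let E := placeSeq 𝓛 φ hA
  let E' := E.postSeq (M := M) hM (exists_section_of_surjective (PlaceMod.torsion hpA)
    (PlaceQuot.torsion 𝓛 φ A hpA) E.π_surj)
  have hJ : Finite (inv G (HomMod M (PlaceMod 𝓛 φ A))) := by
    refine Finite.of_injective (fun F (i : I) (m : M) =>
      PlaceMod.val i 1 ((F : HomMod M (PlaceMod 𝓛 φ A)) m)) fun F F' h => ?_
    refine Subtype.ext (HomMod.ext fun m => PlaceMod.ext fun i g => ?_)
    rw [val_of_mem_inv F.2, val_of_mem_inv F'.2]
    exact congrFun (congrFun h i) (g • m)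
  let π' : inv G (HomMod M (PlaceMod 𝓛 φ A)) →+ inv G (HomMod M (PlaceQuot 𝓛 φ A)) :=
    AddMonoidHom.mk' (fun F => ⟨E'.π F, E'.π_equiv.map_inv F.2⟩)
      fun F F' => Subtype.ext (map_add E'.π _ _)
  have : Finite π'.range := Finite.of_surjective π'.rangeRestrict π'.rangeRestrict_surjective
  have : Finite E'.δ₀.ker := Finite.of_injective
    (fun c => (⟨c.1, by
      obtain ⟨F, hF, hFc⟩ := E'.exact_C₀ _ c.2
      exact ⟨⟨F, hF⟩, Subtype.ext hFc⟩⟩ : π'.range))
    fun c c' h => Subtype.ext (congrArg Subtype.val h :)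
  have : Finite E'.δ₀.range := inferInstance
  have : Finite (inv G (HomMod M (PlaceQuot 𝓛 φ A)) ⧸ E'.δ₀.ker) :=
    Finite.of_equiv _ (QuotientAddGroup.quotientKerEquivRange E'.δ₀).symm.toEquiv
  exact Finite.of_addSubgroup_quotient E'.δ₀.ker

end Finiteness

section Roots

/-- The roots of unity as `ℤ/p`. -/
def muZMod : Mu p Qbar ≃+ ZMod p :=
  haveI : NeZero p := ⟨(Fact.out : p.Prime).ne_zero⟩
  haveI : IsAddCyclic (Mu p Qbar) := isAddCyclic_of_prime_card (p := p) card_Mu
  (zmodAddCyclicAddEquiv ‹IsAddCyclic (Mu p Qbar)›).symm.trans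
    (ZMod.ringEquivCongr (card_Mu (p := p) (L := Qbar))).toAddEquiv

/-- Complex conjugation inverts the roots of unity. -/
theorem complexConjugation_smul_Mu (z : Mu p Qbar) : complexConjugation • z = -z := by
  refine muVal_injective (Additive.toMul.injective (Units.ext ?_))
  rw [muVal_smul, map_neg, toMul_neg, Units.val_inv_eq_inv_val]
  show complexConjugation (((muVal z).toMul : Qbarˣ) : Qbar) = _
  apply complexEmbedding.toRingHom.injective
  set w := complexEmbedding (((muVal z).toMul : Qbarˣ) : Qbar)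
  have hw : w ^ p = 1 := by
    rw [← map_pow, ← Units.val_pow_eq_pow_val, ← toMul_nsmul, nsmul_muVal, toMul_zero,
      Units.val_one, map_one]
  show complexEmbedding (complexConjugation _) = complexEmbedding _
  rw [complexEmbedding_complexConjugation, map_inv₀, Complex.inv_eq_conj]
  exact Complex.norm_eq_one_of_pow_eq_one hw (Fact.out : p.Prime).ne_zero

/-- An element with a `p`-power power fixing the roots of unity fixes them. -/
theorem smul_Mu_eq_of_pow {g : GalQ} {i : ℕ} (h : ∀ z : Mu p Qbar, g ^ p ^ i • z = z)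
    (z : Mu p Qbar) : g • z = z := by
  set k := ExtCitation.cycloExp p g
  have hk : ∀ (j : ℕ) (z : Mu p Qbar), g ^ j • z = k ^ j • z := by
    intro j
    induction j with
    | zero => intro z; rw [pow_zero, pow_zero, one_smul, one_smul]
    | succ j ih =>
      intro z
      rw [pow_succ, mul_smul, smul_Mu_eq_cycloExp g z, ih, pow_succ, ← mul_smul]
  have h1 := congrArg muZMod (h z)
  rw [hk, map_nsmul, nsmul_eq_mul, Nat.cast_pow, ZMod.pow_card_pow] at h1
  refine muZMod.injective ?_
  rw [smul_Mu_eq_cycloExp, map_nsmul, nsmul_eq_mul, h1]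

end Roots

variable {S : Finset Nat.Primes}

variable (p S) in
/-- The hypotheses on the set of primes. -/
structure IsBigFor (K : Subgroup GalQ) : Prop where
  mem : (⟨p, Fact.out⟩ : Nat.Primes) ∈ S
  level : (galLevelsS S).ok K
  mu : ∀ s ∈ K, ∀ z : Mu p Qbar, s • z = z
  principal : ∀ (E : IntermediateField ℚ Qbar) [FiniteDimensional ℚ E] [NumberField E]
    (hE : (galLevels ℚ Qbar).ok E.fixingSubgroup), K ≤ E.fixingSubgroup →
    Global.SPrincipal E (Places.placesS E S hE)

/-- Big sets of primes exist. -/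
theorem exists_isBigFor {K : Subgroup GalQ} (hK : (galLevels ℚ Qbar).ok K)
    (hμ : ∀ s ∈ K, ∀ z : Mu p Qbar, s • z = z) :
    ∃ S₀ : Finset Nat.Primes, ∀ S, S₀ ⊆ S → IsBigFor p S K := by
  classical
  have : IsGalois ℚ Qbar := Fermat.Agent.Gal.isGalois_rat_qbar
  have := (galLevels ℚ Qbar).finiteIndex hK
  have : Finite (GalQ ⧸ K) := inferInstance
  have : Finite {M : Subgroup GalQ // K ≤ M} := by
    refine Finite.of_injective (fun M => {x : GalQ ⧸ K | x.out ∈ M.1})
      fun M M' h => Subtype.ext (Subgroup.ext fun g => ?_)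
    obtain ⟨u, hu⟩ := QuotientGroup.mk_out_eq_mul K g
    have h1 := Set.ext_iff.1 h (g : GalQ ⧸ K)
    simp only [Set.mem_ofPred_eq, hu] at h1
    rwa [Subgroup.mul_mem_cancel_right _ (M.2 u.2),
      Subgroup.mul_mem_cancel_right _ (M'.2 u.2)] at h1
  let : Fintype {M : Subgroup GalQ // K ≤ M} := Fintype.ofFinite _
  have hT : ∀ M : {M : Subgroup GalQ // K ≤ M}, ∃ T : Finset Nat.Primes,
      ∀ (E : IntermediateField ℚ Qbar) [FiniteDimensional ℚ E] [NumberField E]
        (hE : (galLevels ℚ Qbar).ok E.fixingSubgroup), E.fixingSubgroup = M.1 →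
        Global.SPrincipal E (Places.placesS E T hE) := by
    intro M
    obtain ⟨E, hE, hEM⟩ := exists_eq_fixingSubgroup ((galLevels ℚ Qbar).mono hK M.2)
    have := hE
    have : NumberField E := ⟨⟩
    obtain ⟨T, hT⟩ := Places.exists_sPrincipal_placesS E (galLevels_ok_fixingSubgroup E)
    refine ⟨T, fun E' _ _ hE' hEM' => ?_⟩
    obtain rfl : E' = E := by
      rw [← InfiniteGalois.fixedField_fixingSubgroup E',
        ← InfiniteGalois.fixedField_fixingSubgroup E,
        hEM, hEM']
    exact hT
  choose T hT using hT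
  obtain ⟨F, hF, hFK⟩ := exists_eq_fixingSubgroup hK
  have := hF
  obtain ⟨R, hR⟩ := Places.exists_isUnramifiedOutside F
  refine ⟨insert (⟨p, Fact.out⟩ : Nat.Primes) (R ∪ Finset.univ.biUnion T), fun S hS =>
    ⟨hS (Finset.mem_insert_self _ _), ?_, hμ, ?_⟩⟩
  · rw [← hFK]
    exact galLevelsS_ok_fixingSubgroup (hR.mono fun x hx =>
      hS (Finset.mem_insert_of_mem (Finset.mem_union_left _ hx)))
  · intro E _ _ hE hKE
    exact Global.SPrincipal.mono E (hT ⟨_, hKE⟩ E hE rfl) (Places.placesS_mono E hE fun x hx =>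
      hS (Finset.mem_insert_of_mem (Finset.mem_union_right _
        (Finset.mem_biUnion.2 ⟨_, Finset.mem_univ _, hx⟩))))

variable [Nonempty ↥S]

/-- The idele class module dualises. -/
theorem isDualizing_of_inputs (I : GlobalInputs p S) :
    IsDualizing p (galLevelsS S) (PlaceC p S) I.ι := by
  have : NeZero p := ⟨(Fact.out : p.Prime).ne_zero⟩
  have hC : IsSmooth (galLevelsS S) (PlaceC p S) := PlaceQuot.isSmooth _ _ _
  have hpC : ∀ x : PlaceC p S, p • x = 0 := PlaceQuot.torsion _ _ _ torsion_Mu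
  have hfin : ∀ (M : Type) [AddCommGroup M] [DistribMulAction GalQ M] [Finite M],
      IsSmooth (galLevelsS S) M → Finite (inv GalQ (HomMod M (PlaceC p S))) := by
    intro M _ _ _ hM
    have : Finite (HomMod M (Mu p Qbar)) := Finite.of_injective _ DFunLike.coe_injective
    have := finite_H1_galLevelsS (A := HomMod M (Mu p Qbar)) (HomMod.isSmooth hM I.smooth)
    exact finite_inv_hom_placeQuot (locφ S) I.smooth torsion_Mu hM
  refine ⟨fun M _ _ _ hM hpM => ⟨theta₂_injective hC hpC
    (ZModModule.char_nsmul_eq_zero p) I.base hM hpM, ?_⟩, hpC,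
    fun M _ _ _ hM _ => finite_H1_galLevelsS hM, fun M _ _ _ hM _ => hfin M hM⟩
  have := hfin M hM
  exact surjective_of_separates (fun c => Subtype.ext (HomMod.torsion hpC _)) _ fun c hc =>
    theta₂_separates card_Mu I.smooth I.sep hM hpM hc

/-- The coprime pieces. -/
theorem baseHyp (hp2 : p ≠ 2) {K : Subgroup GalQ} (hbig : IsBigFor p S K) :
    BaseHyp p (galLevelsS S) (PlaceC p S) complexConjugation K := by
  intro H hH hKH N hNn hKN hNK hidx W _ _ _ hpW hW
  have := hNn
  have hNok : ((galLevelsS S).restrict H).ok N := ⟨K, hbig.level, fun s hs => hKN s hs⟩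
  have hN : (galLevelsS S).ok (N.map H.subtype) :=
    (galLevelsS S).mono hbig.level fun s hs => ⟨⟨s, hKH hs⟩, hKN _ hs, rfl⟩
  have : N.FiniteIndex := ((galLevelsS S).restrict H).finiteIndex hNok
  have hμN : ∀ n ∈ N, ∀ z : Mu p Qbar, ((n : H) : GalQ) • z = z := fun n hn z => by
    obtain ⟨i, hi⟩ := hNK n hn
    exact smul_Mu_eq_of_pow (hbig.mu _ hi) z
  have hpr : ∀ (E : IntermediateField ℚ Qbar) [FiniteDimensional ℚ E] [NumberField E]
      (hE : (galLevels ℚ Qbar).ok E.fixingSubgroup), E.fixingSubgroup = N.map H.subtype →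
      Global.SPrincipal E (Places.placesS E S hE) := fun E _ _ hE h =>
    hbig.principal E hE (h ▸ fun s hs => ⟨⟨s, hKH hs⟩, hKN _ hs, rfl⟩)
  have := layerUnits_module_finite S N hN
  exact defect_base_eq_zero N (𝓛 := galLevelsS S) (c := complexConjugation) (locφ S) muZMod hp2
    complexConjugation_mul_self complexConjugation_smul_Mu (isSmooth_MuS hbig.mem) hH hNok hidx
    hμN hW hpW (fun χ hχ => eq_zero_of_locally_trivial N hμN hbig.mem hN hpr hp2 χ hχ)
    (LayerUnits S N) (charEquiv N hμN hbig.mem hN hpr) (charEquiv_smul N hμN hbig.mem hN hpr)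
    (muLayer S N hμN) (muLayer_smul N hμN) (finrank_fixAt_layerUnits hN)

/-- **The global Euler characteristic formula.** -/
theorem defect_galQ_eq_zero (hp2 : p ≠ 2) (I : GlobalInputs p S) {K : Subgroup GalQ} [K.Normal]
    (hbig : IsBigFor p S K) (M : Type) [AddCommGroup M] [DistribMulAction GalQ M] [Finite M]
    (hfix : ∀ s ∈ K, ∀ m : M, s • m = m) (hpM : ∀ m : M, p • m = 0) :
    defect p (galLevelsS S) (PlaceC p S) complexConjugation M = 0 :=
  defect_eq_zero (isDualizing_of_inputs I) hp2 complexConjugation_mul_self hbig.level hfix hpM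
    (baseHyp hp2 hbig)

end Fermat.Agent.EulerChar

end
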