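import Fermat.Agent.EulerChar.Characters
import Fermat.Agent.EulerChar.Chi
import Fermat.Agent.Duality.Coh.ShaPairing

/-!
# Places of a layer as double cosets

The invariants of homomorphisms into the coinduced local modules and into their quotient by the
diagonal, and the minus part of an induced module, in terms of the permutation sets of places.
-/

set_option autoImplicit false

noncomputable section

namespace Fermat.Agent.EulerChar

open Duality.Coh

variable {G : Type} [Group G] {H : Subgroup G}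

/-- Double cosets of a local group and a subgroup of `H`. -/
def dcSetoid {D : Type} [Group D] (φ : D →* G) (M : Subgroup H) : Setoid G where
  r g g' := ∃ (d : D) (n : M), φ d * g * ((n : H) : G) = g'
  iseqv :=
    ⟨fun g => ⟨1, 1, by simp⟩, fun ⟨d, n, h⟩ => ⟨d⁻¹, n⁻¹, by subst h; simp [mul_assoc]⟩,
      fun ⟨d, n, h⟩ ⟨d', n', h'⟩ => ⟨d' * d, n * n', by subst h; subst h'; simp [mul_assoc]⟩⟩

/-- The places over one local group. -/
def DC {D : Type} [Group D] (φ : D →* G) (M : Subgroup H) : Type := Quotient (dcSetoid φ M)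

/-- The class of an element. -/
def DC.mk {D : Type} [Group D] (φ : D →* G) (M : Subgroup H) (g : G) : DC φ M :=
  Quotient.mk (dcSetoid φ M) g

theorem DC.mk_eq {D : Type} [Group D] {φ : D →* G} {M : Subgroup H} {g g' : G} :
    DC.mk φ M g = DC.mk φ M g' ↔ ∃ (d : D) (n : M), φ d * g * ((n : H) : G) = g' :=
  Quotient.eq (r := dcSetoid φ M)

variable {I : Type} {D : I → Type} [∀ i, Group (D i)] (φ : ∀ i, D i →* G) (N : Subgroup H)
  [hN : N.Normal]

/-- The places of the layer. -/
def PlaceSet : Type := Σ i, DC (φ i) N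

omit hN in
theorem DC.finite {D' : Type} [Group D'] (ψ : D' →* G) [Finite (G ⧸ N.map H.subtype)] :
    Finite (DC ψ N) :=
  Finite.of_surjective (fun q : G ⧸ N.map H.subtype => DC.mk ψ N q.out) fun y => by
    induction y using Quotient.inductionOn with | _ g => ?_
    obtain ⟨u, hu⟩ := QuotientGroup.mk_out_eq_mul (N.map H.subtype) g
    obtain ⟨n, hn, hnu⟩ := Subgroup.mem_map.mp u.2
    refine ⟨(g : G ⧸ N.map H.subtype), DC.mk_eq.mpr ⟨1, (⟨n, hn⟩ : N)⁻¹, ?_⟩⟩
    rw [map_one, one_mul, hu, ← hnu]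
    simp

/-- The action of `H` on the places. -/
def dcMove {D' : Type} [Group D'] (ψ : D' →* G) (h : H) : DC ψ N → DC ψ N :=
  Quotient.map (fun g => g * (h : G)⁻¹) fun g g' ⟨d, n, he⟩ => by
    subst he
    refine ⟨d, ⟨h * (n : H) * h⁻¹, hN.conj_mem _ n.2 h⟩, ?_⟩
    simp [mul_assoc]

instance placeSetAction : MulAction H (PlaceSet φ N) where
  smul h y := ⟨y.1, dcMove N (φ y.1) h y.2⟩
  one_smul := fun ⟨i, y⟩ => by
    induction y using Quotient.inductionOn with | _ g => ?_
    exact congrArg (Sigma.mk i) (congrArg (DC.mk (φ i) N) (by simp))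
  mul_smul h h' := fun ⟨i, y⟩ => by
    induction y using Quotient.inductionOn with | _ g => ?_
    exact congrArg (Sigma.mk i) (congrArg (DC.mk (φ i) N) (by simp [mul_assoc]))

/-- The place of an element. -/
def PlaceSet.mk (i : I) (g : G) : PlaceSet φ N := ⟨i, DC.mk (φ i) N g⟩

theorem PlaceSet.mk_smul (h : H) (i : I) (g : G) :
    h • PlaceSet.mk φ N i g = PlaceSet.mk φ N i (g * (h : G)⁻¹) := rfl

/-- Functions on a set, as a module. -/
def FunMod (Y V : Type) : Type := Y → V

section FunMod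

variable (Y V : Type) [AddCommGroup V]

instance addCommGroupFunMod : AddCommGroup (FunMod Y V) := inferInstanceAs (AddCommGroup (Y → V))

instance finiteFunMod [Finite Y] [Finite V] : Finite (FunMod Y V) :=
  inferInstanceAs (Finite (Y → V))

variable {K : Type} [Group K] [MulAction K Y] [DistribMulAction K V]

instance funModAction : DistribMulAction K (FunMod Y V) where
  smul k f := fun y => k • f (k⁻¹ • y)
  one_smul f := funext fun y => by
    show (1 : K) • f ((1 : K)⁻¹ • y) = f y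
    rw [inv_one, one_smul, one_smul]
  mul_smul k k' f := funext fun y => by
    show (k * k') • f ((k * k')⁻¹ • y) = k • k' • f (k'⁻¹ • k⁻¹ • y)
    rw [mul_inv_rev, mul_smul, mul_smul]
  smul_zero k := funext fun y => smul_zero k
  smul_add k f f' := funext fun y => smul_add k _ _

end FunMod

variable {𝓛 : Levels G} {L : Type} [AddCommGroup L] [DistribMulAction G L]
  (hL : ∀ n ∈ N, ∀ x : L, ((n : H) : G) • x = x) {W : Type} [AddCommGroup W] [DistribMulAction H W]
  (hW : ∀ n ∈ N, ∀ w : W, n • w = w)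

/-- The local component of an invariant homomorphism. -/
def placeVal (Φ : HomMod W (PlaceMod 𝓛 φ L)) (i : I) (g : G) : HomMod W L :=
  HomMod.of
    { toFun := fun w => g⁻¹ • PlaceMod.val i g (Φ w)
      map_zero' := by rw [map_zero, map_zero, smul_zero]
      map_add' := fun w w' => by rw [map_add, map_add, smul_add] }

include hL hW in
omit hN in
theorem placeVal_respects (Φ : inv H (HomMod W (PlaceMod 𝓛 φ L))) (i : I) {g g' : G}
    (h : (dcSetoid (φ i) N).r g g') : placeVal φ (Φ : HomMod W (PlaceMod 𝓛 φ L)) i g =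
      placeVal φ (Φ : HomMod W (PlaceMod 𝓛 φ L)) i g' := by
  obtain ⟨d, n, rfl⟩ := h
  refine HomMod.ext fun w => ?_
  show g⁻¹ • PlaceMod.val i g ((Φ : HomMod W (PlaceMod 𝓛 φ L)) w) =
    (φ i d * g * ((n : H) : G))⁻¹ •
      PlaceMod.val i (φ i d * g * ((n : H) : G)) ((Φ : HomMod W (PlaceMod 𝓛 φ L)) w)
  have h1 : PlaceMod.val i (φ i d * g * ((n : H) : G)) ((Φ : HomMod W (PlaceMod 𝓛 φ L)) w) =
      φ i d • PlaceMod.val i g ((Φ : HomMod W (PlaceMod 𝓛 φ L)) w) := by
    rw [mul_assoc, PlaceMod.val_left, ← PlaceMod.val_smul]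
    have h2 : (n : H) • (Φ : HomMod W (PlaceMod 𝓛 φ L)) w = (Φ : HomMod W (PlaceMod 𝓛 φ L)) w :=
      (HomMod.isEquivariant_of_mem_inv Φ.2 (n : H) w).symm.trans (congrArg _ (hW _ n.2 w))
    exact congrArg (fun x => φ i d • PlaceMod.val i g x) h2
  rw [h1, mul_inv_rev, mul_inv_rev, mul_smul, mul_smul, inv_smul_smul, ← Subgroup.coe_inv]
  exact (hL _ (inv_mem n.2) _).symm

variable (𝓛) in
include hL hW in
/-- Invariant homomorphisms into the coinduced modules as functions on the places. -/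
theorem natCard_inv_hom_placeMod (hH : 𝓛.ok H) (hNok : (𝓛.restrict H).ok N) :
    Nat.card (inv H (HomMod W (PlaceMod 𝓛 φ L))) =
      Nat.card (inv H (FunMod (PlaceSet φ N) (HomMod W L))) := by
  obtain ⟨U, hU, hUN⟩ := hNok
  obtain ⟨M, hM, hMn, hMle⟩ := 𝓛.exists_normal (𝓛.inf_ok hH hU)
  have hMN : ∀ s ∈ M, ∃ n : N, ((n : H) : G) = s := fun s hs =>
    ⟨⟨⟨s, (hMle hs).1⟩, hUN (hMle hs).2⟩, rfl⟩
  let E : inv H (HomMod W (PlaceMod 𝓛 φ L)) → FunMod (PlaceSet φ N) (HomMod W L) := fun Φ y =>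
    Quotient.lift (placeVal φ (Φ : HomMod W (PlaceMod 𝓛 φ L)) y.1)
      (fun g g' h => placeVal_respects φ N hL hW Φ y.1 h) y.2
  let B : (PlaceSet φ N → HomMod W L) → HomMod W (PlaceMod 𝓛 φ L) := fun F =>
    HomMod.of
      { toFun := fun w => PlaceMod.of (fun i g => g • (F (PlaceSet.mk φ N i g) : HomMod W L) w)
          (fun i => ⟨M, hM, fun g s hs => by
            obtain ⟨n, rfl⟩ := hMN s hs
            dsimp only
            rw [show PlaceSet.mk φ N i (g * ((n : H) : G)) = PlaceSet.mk φ N i g from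
              congrArg (Sigma.mk i) (DC.mk_eq.mpr ⟨1, n⁻¹, by simp⟩), mul_smul, hL _ n.2]⟩)
          fun i d g => by
            rw [show PlaceSet.mk φ N i (φ i d * g) = PlaceSet.mk φ N i g from
              congrArg (Sigma.mk i) (DC.mk_eq.mpr ⟨d⁻¹, 1, by simp⟩), mul_smul]
        map_zero' := PlaceMod.ext fun i g => by
          show g • (F _ : HomMod W L) 0 = 0
          rw [map_zero, smul_zero]
        map_add' := fun w w' => PlaceMod.ext fun i g => by
          show g • (F _ : HomMod W L) (w + w') =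
            g • (F _ : HomMod W L) w + g • (F _ : HomMod W L) w'
          rw [map_add, smul_add] }
  have hEq : ∀ Φ : inv H (HomMod W (PlaceMod 𝓛 φ L)),
      E Φ ∈ inv H (FunMod (PlaceSet φ N) (HomMod W L)) :=
    fun Φ h => funext fun ⟨i, y⟩ => by
      induction y using Quotient.inductionOn with | _ g => ?_
      refine HomMod.ext fun w => ?_
      show (h : G) • (g * ((h⁻¹ : H) : G)⁻¹)⁻¹ •
          PlaceMod.val i (g * ((h⁻¹ : H) : G)⁻¹) ((Φ : HomMod W (PlaceMod 𝓛 φ L)) (h⁻¹ • w)) =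
        g⁻¹ • PlaceMod.val i g ((Φ : HomMod W (PlaceMod 𝓛 φ L)) w)
      rw [Subgroup.coe_inv, inv_inv, mul_inv_rev, mul_smul, smul_inv_smul, ← PlaceMod.val_smul]
      congr 2
      exact ((HomMod.isEquivariant_of_mem_inv Φ.2 h (h⁻¹ • w)).symm.trans
        (congrArg _ (smul_inv_smul h w)))
  have hBq : ∀ F : inv H (FunMod (PlaceSet φ N) (HomMod W L)),
      B F.1 ∈ inv H (HomMod W (PlaceMod 𝓛 φ L)) :=
    fun F h => HomMod.ext fun w => PlaceMod.ext fun i g => by
      show (g * (h : G)) • (F.1 (PlaceSet.mk φ N i (g * (h : G))) : HomMod W L) (h⁻¹ • w) =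
        g • (F.1 (PlaceSet.mk φ N i g) : HomMod W L) w
      conv_rhs => rw [← F.2 h]
      rw [mul_smul]
      refine congrArg (g • ·) ?_
      show _ = h • (F.1 (h⁻¹ • PlaceSet.mk φ N i g) : HomMod W L) (h⁻¹ • w)
      rw [PlaceSet.mk_smul, Subgroup.coe_inv, inv_inv]
      rfl
  refine Nat.card_congr
    { toFun := fun Φ => ⟨E Φ, hEq Φ⟩
      invFun := fun F => ⟨B F.1, hBq F⟩
      left_inv := fun Φ => Subtype.ext (HomMod.ext fun w => PlaceMod.ext fun i g => ?_)
      right_inv := fun F => Subtype.ext (funext fun ⟨i, y⟩ => ?_) }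
  · show g • g⁻¹ • PlaceMod.val i g ((Φ : HomMod W (PlaceMod 𝓛 φ L)) w) = _
    rw [smul_inv_smul]
  · induction y using Quotient.inductionOn with | _ g => ?_
    refine HomMod.ext fun w => ?_
    show g⁻¹ • g • (F.1 (PlaceSet.mk φ N i g) : HomMod W L) w = _
    rw [inv_smul_smul]
    rfl

variable {p : ℕ} [Fact p.Prime] [N.FiniteIndex] [Finite W] [Fintype I] [Nonempty I]
  (hpL : ∀ x : L, p • x = 0) (hsL : IsSmooth 𝓛 L) (hsW : IsSmooth (𝓛.restrict H) W)
  (hinj : ∀ χ : NChar (𝓛.restrict H) N L, (∀ (i : I) (g : G), ∃ y : L, ∀ (d : D i) (n : N),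
    φ i d * g = g * ((n : H) : G) → g • NChar.val N χ n = φ i d • y - y) → χ = 0)

include hL hW hpL hsL hsW hinj in
/-- Invariant homomorphisms into the quotient by the diagonal. -/
theorem vcard_inv_hom_placeQuot (hp : ¬ p ∣ N.index) (hH : 𝓛.ok H) (hNok : (𝓛.restrict H).ok N)
    [Finite L] :
    vcard p (inv H (HomMod W (PlaceQuot 𝓛 φ L))) =
      vcard p (inv H (FunMod (PlaceSet φ N) (HomMod W L))) - vcard p (inv H (HomMod W L)) := by
  have hJ := natCard_inv_hom_placeMod φ N 𝓛 hL hW hH hNok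
  let E : ShortSeq (𝓛.restrict H) L (PlaceMod 𝓛 φ L) (PlaceQuot 𝓛 φ L) :=
    { i := (placeSeq 𝓛 φ hsL).i
      π := (placeSeq 𝓛 φ hsL).π
      i_equiv := fun h a => (placeSeq 𝓛 φ hsL).i_equiv (h : G) a
      π_equiv := fun h a => (placeSeq 𝓛 φ hsL).π_equiv (h : G) a
      i_inj := (placeSeq 𝓛 φ hsL).i_inj
      π_surj := (placeSeq 𝓛 φ hsL).π_surj
      exact := (placeSeq 𝓛 φ hsL).exact
      π_i := (placeSeq 𝓛 φ hsL).π_i
      smooth := fun a => by
        obtain ⟨U, hU, hfix⟩ := PlaceMod.isSmooth (𝓛 := 𝓛) (φ := φ) a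
        exact ⟨U.subgroupOf H, ⟨U, hU, le_rfl⟩, fun s hs => hfix (s : G) hs⟩ }
  let E' := E.postSeq (M := W) hsW (exists_section_of_surjective (PlaceMod.torsion hpL)
    (PlaceQuot.torsion 𝓛 φ L hpL) E.π_surj)
  have := Fintype.ofFinite (H ⧸ N)
  have hmap : ∀ y : H1 (𝓛.restrict H) (HomMod W L), E'.mapI₁ y = 0 → y = 0 := by
    intro y hy
    obtain ⟨z, rfl⟩ := H1.mk_surjective y
    obtain ⟨f, hf⟩ := H1.mk_eq_zero.mp hy
    have hfapp : ∀ (n : N) (w : W), E.i ((z : H → HomMod W L) (n : H) w) =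
        (n : H) • f w - f w := fun n w => by
      have h1 := DFunLike.congr_fun (hf (n : H)) w
      rw [HomMod.sub_apply, HomMod.smul_apply, hW _ (inv_mem n.2)] at h1
      exact h1
    have hzero : ∀ (n : N) (w : W), (z : H → HomMod W L) (n : H) w = 0 := fun n w => by
      have hz := (mem_Z1.mp z.2).2
      let χ : NChar (𝓛.restrict H) N L := (⟨fun n : N => (z : H → HomMod W L) (n : H) w, by
        have hc : IsConst₁ ((𝓛.restrict H).restrict N) fun n : N => (z : H → HomMod W L) (n : H) :=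
          z.2.1.precomp ((𝓛.restrict H).compat_subtype N)
        exact hc.comp fun u => u w, by
        funext a b
        show ((a : H) : G) • (z : H → HomMod W L) (b : H) w -
          (z : H → HomMod W L) ((a : H) * (b : H)) w + (z : H → HomMod W L) (a : H) w = 0
        rw [hz, HomMod.add_apply, HomMod.smul_apply, hW _ (inv_mem a.2), Subgroup.smul_def,
          hL _ a.2]
        abel⟩ : Z1 ((𝓛.restrict H).restrict N) L)
      have hχ : χ = 0 := hinj χ fun i g => ⟨PlaceMod.val i g (f w), fun d m hdm => by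
        have h1 := congrArg (PlaceMod.val i g) (hfapp m w)
        rw [map_sub, Subgroup.smul_def, PlaceMod.val_smul, ← hdm, PlaceMod.val_left] at h1
        exact (val_placeEmb 𝓛 φ hsL ((z : H → HomMod W L) (m : H) w) i g).symm.trans h1⟩
      exact congrArg (fun u => NChar.val N u n) hχ
    have hres : res₁ N (H1.mk z) = 0 := H1.mk_eq_zero.mpr ⟨0, fun n => HomMod.ext fun w => by
      show (z : H → HomMod W L) (n : H) w = _
      rw [hzero, smul_zero, sub_zero, HomMod.zero_apply]⟩
    have hNok' : (𝓛.restrict H).ok N := hNok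
    have h1 := cor₁_res₁ N hNok' (H1.mk z)
    rw [hres, map_zero] at h1
    have hm : (Fintype.card (H ⧸ N)).Coprime p := by
      rw [Nat.coprime_comm, (Fact.out : p.Prime).coprime_iff_not_dvd, ← Nat.card_eq_fintype_card,
        ← Subgroup.index_eq_card]
      exact hp
    have hord := Nat.dvd_gcd (addOrderOf_dvd_of_nsmul_eq_zero h1.symm)
      (addOrderOf_dvd_of_nsmul_eq_zero (H1.torsion (HomMod.torsion hpL) (H1.mk z)))
    rwa [hm.gcd_eq_one, Nat.dvd_one, AddMonoid.addOrderOf_eq_one_iff] at hord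
  have hUfin : Finite (G ⧸ N.map H.subtype) := by
    obtain ⟨U, hU, hUN⟩ := hNok
    have := 𝓛.finiteIndex (𝓛.inf_ok hH hU)
    have hle : U ⊓ H ≤ N.map H.subtype := fun s hs => ⟨⟨s, hs.2⟩, hUN hs.1, rfl⟩
    have := 𝓛.finiteIndex (𝓛.inf_ok hU hH)
    have := Subgroup.finiteIndex_of_le hle
    infer_instance
  have : ∀ i, Finite (DC (φ i) N) := fun i => DC.finite N (φ i)
  have : Finite (PlaceSet φ N) := inferInstanceAs (Finite (Σ i, DC (φ i) N))
  have : Finite (HomMod W L) := Finite.of_injective (fun f w => f w) fun f f' h =>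
    HomMod.ext (congrFun h)
  have : Finite (inv H (HomMod W (PlaceMod 𝓛 φ L))) := by
    refine Nat.finite_of_card_ne_zero ?_
    rw [hJ]
    exact Nat.card_pos.ne'
  rw [show vcard p (inv H (FunMod (PlaceSet φ N) (HomMod W L))) =
      vcard p (inv H (HomMod W (PlaceMod 𝓛 φ L))) by rw [vcard, vcard, hJ],
    eq_sub_iff_add_eq, add_comm]
  refine (vcard_shortExact p (invMap E'.i_equiv) (invMap E'.π_equiv)
    (fun a b h => Subtype.ext (E'.i_inj (congrArg Subtype.val h))) (fun q => ?_)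
    (fun a => Subtype.ext (E'.π_i _)) (fun b hb => ?_)).symm
  · obtain ⟨m, hm, hmq⟩ := E'.exact_C₀ q (hmap _ (E'.mapI₁_δ₀ q))
    exact ⟨⟨m, hm⟩, Subtype.ext hmq⟩
  · obtain ⟨a, ha⟩ := E'.exact b.1 (congrArg Subtype.val hb)
    exact ⟨⟨a, fun h => E'.i_inj (by rw [E'.i_smul, ha]; exact b.2 h)⟩, Subtype.ext ha⟩

end Fermat.Agent.EulerChar

end
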