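import Fermat.Agent.EulerChar.Ind
import Fermat.Agent.EulerChar.PlaceSet

/-!
# The minus part of an induced module in terms of the infinite places
-/

set_option autoImplicit false

noncomputable section

namespace Fermat.Agent.EulerChar

open Duality.Coh

variable {G : Type} [Group G] {p : ℕ} [Fact p.Prime] (c : G) {H : Subgroup G} (N : Subgroup H)
  [N.Normal] {L : Type} [AddCommGroup L] [DistribMulAction G L] {W : Type} [AddCommGroup W]
  [DistribMulAction H W]

/-- The group generated by an element, as a one-member family of local groups. -/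
def archHom : ∀ _ : Unit, Subgroup.zpowers c →* G := fun _ => (Subgroup.zpowers c).subtype

/-- The infinite places of the layer. -/
abbrev InfSet : Type := PlaceSet (archHom c) N

variable (W) in
/-- The anti-fixed part. -/
def minusPart : AddSubgroup (IndMod H W) :=
  (DistribSMul.toAddMonoidHom (IndMod H W) c + AddMonoidHom.id _).ker

omit [N.Normal] in
theorem mem_minusPart {f : IndMod H W} : f ∈ minusPart (H := H) c W ↔ c • f = -f :=
  add_eq_zero_iff_eq_neg

/-- The left-equivariant function attached to an element of an induced module. -/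
def tilde (f : IndMod H W) (g : G) : W := indEval H W (g⁻¹ • f)

theorem tilde_mul (f : IndMod H W) (g : G) (h : H) :
    tilde f (g * (h : G)) = h⁻¹ • tilde f g := by
  show indEval H W ((g * (h : G))⁻¹ • f) = _
  rw [mul_inv_rev, mul_smul, ← Subgroup.coe_inv]
  exact isEquivariant_indEval H h⁻¹ (g⁻¹ • f)

theorem tilde_out (f : IndMod H W) (q : G ⧸ H) : tilde f q.out = f q := by
  have h := IndMod.smul_apply_smul H q.out (q.out⁻¹ • f) (baseCoset H)
  rw [smul_inv_smul, out_smul_baseCoset, cosetFactor_out] at h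
  exact h.symm

theorem tilde_of_out {v : G → W} (hv : ∀ g (h : H), v (g * (h : G)) = h⁻¹ • v g) (g : G) :
    tilde (fun q => v q.out : IndMod H W) g = v g := by
  set f : IndMod H W := fun q => v q.out
  have h1 : (g⁻¹ • f) (baseCoset H) =
      cosetFactor H g⁻¹ (g • baseCoset H) • f (g • baseCoset H) := by
    conv_lhs => rw [show baseCoset H = g⁻¹ • g • baseCoset H from (inv_smul_smul g _).symm]
    rw [IndMod.smul_apply_smul]
  obtain ⟨u, hu⟩ : ∃ u : H, (g • baseCoset H).out = g * (u : G) := by
    rw [show g • baseCoset H = (g : G ⧸ H) by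
      rw [baseCoset, MulAction.Quotient.smul_coe, smul_eq_mul, mul_one]]
    exact QuotientGroup.mk_out_eq_mul H g
  have h2 : cosetFactor H g⁻¹ (g • baseCoset H) = (baseRep H)⁻¹ * u := by
    refine Subtype.ext ?_
    show (g⁻¹ • g • baseCoset H).out⁻¹ * (g⁻¹ * (g • baseCoset H).out) = _
    rw [inv_smul_smul, hu, inv_mul_cancel_left]
    rfl
  show baseRep H • (g⁻¹ • f) (baseCoset H) = v g
  rw [h1, h2, smul_smul, mul_inv_cancel_left]
  show u • v (g • baseCoset H).out = v g
  rw [hu, hv, smul_inv_smul]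

variable [Finite W] [Finite (G ⧸ H)]

omit [N.Normal] in
theorem vcard_eq_fix_add_minus (hp2 : p ≠ 2) (hc : c * c = 1) (hpW : ∀ w : W, p • w = 0) :
    vcard p (IndMod H W) = vcard p (fixAt c (IndMod H W)) + vcard p (minusPart (H := H) c W) := by
  suffices hr : (DistribSMul.toAddMonoidHom (IndMod H W) c + AddMonoidHom.id _).range =
      fixAt c (IndMod H W) by
    rw [vcard_eq_ker_add_range p (DistribSMul.toAddMonoidHom (IndMod H W) c + AddMonoidHom.id _),
      hr, add_comm]
    rfl
  ext f
  constructor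
  · rintro ⟨f, rfl⟩
    show c • (c • f + f) = c • f + f
    rw [smul_add, smul_smul, hc, one_smul, add_comm]
  · intro hf
    obtain ⟨j, hj⟩ : Odd p := (Fact.out : p.Prime).odd_of_ne_two hp2
    refine ⟨(j + 1) • f, ?_⟩
    show c • (j + 1) • f + (j + 1) • f = f
    rw [smul_comm, mem_fixAt.mp hf, ← two_nsmul, ← mul_nsmul, show (j + 1) * 2 = p + 1 by omega,
      add_nsmul, IndMod.torsion H hpW, zero_add, one_nsmul]

variable (e : L ≃+ ZMod p) (hcL : ∀ x : L, c • x = -x) (hc : c * c = 1)
  (hL : ∀ n ∈ N, ∀ x : L, ((n : H) : G) • x = x)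
  (hW : ∀ n ∈ N, ∀ w : W, n • w = w) (hpW : ∀ w : W, p • w = 0)

/-- The value at an element of a minus vector. -/
def infVal (f : IndMod H W) (g : G) : HomMod (HomMod W L) (Triv p) :=
  HomMod.of
    { toFun := fun ψ => (e (g • ψ (tilde f g)) : ZMod p)
      map_zero' := by
        rw [HomMod.zero_apply, smul_zero, map_zero]
        rfl
      map_add' := fun ψ ψ' => by
        rw [HomMod.add_apply, smul_add, map_add]
        rfl }

include hcL hc hL hW in
omit [N.Normal] [Finite W] [Finite (G ⧸ H)] in
theorem infVal_respects {f : IndMod H W} (hf : c • f = -f) {g g' : G}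
    (h : (dcSetoid (archHom c ()) N).r g g') : infVal e f g = infVal e f g' := by
  obtain ⟨⟨d, hd⟩, n, rfl⟩ := h
  let S : Subgroup G :=
    { carrier := {d | ∀ g, infVal e f (d * g) = infVal e f g}
      one_mem' := fun g => by rw [one_mul]
      mul_mem' := fun {a b} ha hb g => by rw [mul_assoc, ha, hb]
      inv_mem' := fun {a} ha g => by rw [← ha (a⁻¹ * g), mul_inv_cancel_left] }
  have hcS : c ∈ S := fun g => HomMod.ext fun ψ => by
    have ht : tilde f (c * g) = -tilde f g := by
      show indEval H W ((c * g)⁻¹ • f) = -indEval H W (g⁻¹ • f)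
      rw [mul_inv_rev, mul_smul, show c⁻¹ = c from inv_eq_of_mul_eq_one_right hc, hf, smul_neg,
        map_neg]
    show (e ((c * g) • ψ (tilde f (c * g))) : ZMod p) = e (g • ψ (tilde f g))
    rw [ht, map_neg, smul_neg, mul_smul, hcL, neg_neg]
  have hdS : d ∈ S := Subgroup.zpowers_le.mpr hcS hd
  refine HomMod.ext fun ψ => ?_
  show (e (g • ψ (tilde f g)) : ZMod p) =
    e ((d * g * ((n : H) : G)) • ψ (tilde f (d * g * ((n : H) : G))))
  rw [tilde_mul, hW _ (inv_mem n.2), mul_smul, hL _ n.2]
  exact (DFunLike.congr_fun (hdS g) ψ).symm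

include e hcL hc hL hW hpW in
omit [Finite (G ⧸ H)] in
/-- **The minus part of an induced module.** -/
theorem natCard_minusPart : Nat.card (minusPart (H := H) c W) =
    Nat.card (inv H (FunMod (InfSet c N) (HomMod (HomMod W L) (Triv p)))) := by
  have hbid := bidual_bijective e W hpW
  let ev : W ≃+ HomMod (HomMod W L) L := AddEquiv.ofBijective (bidual W) hbid
  have hext : ∀ w w' : W, (∀ ψ : HomMod W L, ψ w = ψ w') → w = w' := fun w w' h =>
    sub_eq_zero.mp (eq_zero_of_forall_hom e hpW fun ψ => by rw [map_sub, h ψ, sub_self])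
  let T : minusPart (H := H) c W → FunMod (InfSet c N) (HomMod (HomMod W L) (Triv p)) := fun f y =>
    Quotient.lift (infVal e (f : IndMod H W))
      (fun g g' h => infVal_respects c N e hcL hc hL hW ((mem_minusPart c).mp f.2) h) y.2
  have hT : ∀ f, T f ∈ inv H (FunMod (InfSet c N) (HomMod (HomMod W L) (Triv p))) :=
    fun f h => funext fun ⟨i, y⟩ => by
      induction y using Quotient.inductionOn with | _ g => ?_
      refine HomMod.ext fun ψ => ?_
      show (e ((g * ((h⁻¹ : H) : G)⁻¹) • (h⁻¹ • ψ)
        (tilde (f : IndMod H W) (g * ((h⁻¹ : H) : G)⁻¹))) : ZMod p) =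
        e (g • ψ (tilde (f : IndMod H W) g))
      rw [Subgroup.coe_inv, inv_inv, tilde_mul, HomMod.smul_apply_smul, mul_smul]
      exact congrArg (fun x => (e (g • x) : ZMod p)) (smul_inv_smul h (ψ _))
  let dec : HomMod (HomMod W L) (Triv p) → G → W := fun F g => ev.symm (HomMod.of
    { toFun := fun ψ => g⁻¹ • e.symm (F ψ : ZMod p)
      map_zero' := by
        rw [map_zero F]
        exact (congrArg (g⁻¹ • ·) (map_zero e.symm)).trans (smul_zero _)
      map_add' := fun ψ ψ' => by
        rw [map_add F]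
        exact (congrArg (g⁻¹ • ·) (map_add e.symm (F ψ : ZMod p) (F ψ' : ZMod p))).trans
          (smul_add _ _ _) })
  have hdec : ∀ F g (ψ : HomMod W L), ψ (dec F g) = g⁻¹ • e.symm (F ψ : ZMod p) := fun F g ψ =>
    DFunLike.congr_fun (ev.apply_symm_apply _) ψ
  let B : inv H (FunMod (InfSet c N) (HomMod (HomMod W L) (Triv p))) → G → W :=
    fun F g => dec (F.1 (PlaceSet.mk (archHom c) N () g)) g
  have hBmul : ∀ F g (h : H), B F (g * (h : G)) = h⁻¹ • B F g := fun F g h => hext _ _ fun ψ => by
    have hF : (F.1 (h⁻¹ • PlaceSet.mk (archHom c) N () g) : HomMod (HomMod W L) (Triv p)) ψ =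
        (F.1 (PlaceSet.mk (archHom c) N () g) : HomMod (HomMod W L) (Triv p)) (h • ψ) := by
      conv_rhs => rw [← F.2 h]
      show _ = h • (F.1 (h⁻¹ • PlaceSet.mk (archHom c) N () g) : HomMod (HomMod W L) (Triv p))
        (h⁻¹ • h • ψ)
      rw [inv_smul_smul, smul_triv]
    rw [PlaceSet.mk_smul, Subgroup.coe_inv, inv_inv] at hF
    have h3 : ψ (h⁻¹ • B F g) = (h : G)⁻¹ • (h • ψ) (B F g) := by
      rw [HomMod.smul_apply, ← Subgroup.coe_inv]
      exact (inv_smul_smul h (ψ (h⁻¹ • B F g))).symm
    rw [hdec, hF, h3, hdec, mul_inv_rev, mul_smul]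
  refine Nat.card_congr
    { toFun := fun f => ⟨T f, hT f⟩
      invFun := fun F => ⟨fun q => B F q.out, ?_⟩
      left_inv := fun f => Subtype.ext (IndMod.ext H fun q => hext _ _ fun ψ => ?_)
      right_inv := fun F => Subtype.ext (funext fun ⟨i, y⟩ => ?_) }
  · refine (mem_minusPart c).mpr ?_
    set f : IndMod H W := fun q => B F q.out
    refine IndMod.ext H fun q => ?_
    show (c • f) q = -(f q)
    rw [← tilde_out (c • f) q, ← tilde_out f q,
      show tilde (c • f) q.out = tilde f (c⁻¹ * q.out) by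
        show indEval H W (q.out⁻¹ • c • f) = indEval H W ((c⁻¹ * q.out)⁻¹ • f)
        rw [mul_inv_rev, inv_inv, mul_smul], tilde_of_out (hBmul F), tilde_of_out (hBmul F)]
    refine hext _ _ fun ψ => ?_
    rw [map_neg, hdec, hdec, show PlaceSet.mk (archHom c) N () (c⁻¹ * q.out) =
      PlaceSet.mk (archHom c) N () q.out from congrArg (Sigma.mk ())
        (DC.mk_eq.mpr ⟨⟨c, Subgroup.mem_zpowers c⟩, 1, by simp [archHom]⟩), mul_inv_rev, inv_inv,
      mul_smul, hcL, smul_neg]
  · show ψ (dec (infVal e (f : IndMod H W) q.out) q.out) = ψ ((f : IndMod H W) q)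
    rw [hdec]
    show q.out⁻¹ • e.symm (e (q.out • ψ (tilde (f : IndMod H W) q.out))) = _
    rw [e.symm_apply_apply, inv_smul_smul, tilde_out]
  · induction y using Quotient.inductionOn with | _ g => ?_
    refine HomMod.ext fun ψ => ?_
    show (e (g • ψ (tilde (fun q => B F q.out : IndMod H W) g)) : ZMod p) = _
    rw [tilde_of_out (hBmul F), hdec, smul_inv_smul]
    exact e.apply_symm_apply _

include e hcL hc hL hW hpW in
/-- The minus part of an induced module, counted by functions on the infinite places. -/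
theorem dminus_indMod (hp2 : p ≠ 2) : dminus p c (IndMod H W) =
    vcard p (inv H (FunMod (InfSet c N) (HomMod (HomMod W L) (Triv p)))) := by
  rw [dminus, vcard_eq_fix_add_minus c hp2 hc hpW, vcard, vcard, vcard,
    natCard_minusPart c N e hcL hc hL hW hpW]
  ring

end Fermat.Agent.EulerChar

end
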