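import Fermat.Agent.EulerChar.BaseAlg
import Fermat.Agent.Duality.Places.SUnitClass
import Fermat.Agent.Duality.GlobalInputs
import Fermat.Prelude.Def_GaloisRep_ComplexConjugation

/-!
# The `S`-units of the layers and their ranks

The `S`-units of the field of a subgroup are the units of `ℚ̄` fixed by the subgroup with absolute
value one at all embeddings outside `S`; places over `S` and infinite places are double cosets.
-/

set_option autoImplicit false

noncomputable section

open IsDedekindDomain NumberField WithZero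

namespace Fermat.Agent.EulerChar

open Duality

/-- Absolute value one at every embedding outside `S`. -/
def IsSUnitBar (S : Finset Nat.Primes) (x : Lx Qbar) : Prop :=
  ∀ (q : ℕ) [Fact q.Prime], (⟨q, Fact.out⟩ : Nat.Primes) ∉ S → ∀ g : GalQ,
    ‖padicEmbedding q (g ((x.toMul : Qbarˣ) : Qbar))‖ = 1

/-- The `S`-units fixed by a subgroup. -/
def unitsAtLevel (S : Finset Nat.Primes) (M : Subgroup GalQ) : AddSubgroup (Lx Qbar) where
  carrier := {x | (∀ g ∈ M, g • x = x) ∧ IsSUnitBar S x}
  zero_mem' := ⟨fun g _ => smul_zero g, fun q _ _ g => by simp⟩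
  add_mem' {a b} ha hb := ⟨fun g hg => by rw [smul_add, ha.1 g hg, hb.1 g hg], fun q _ hq g => by
    rw [toMul_add, Units.val_mul, map_mul, map_mul, norm_mul, ha.2 q hq g, hb.2 q hq g, one_mul]⟩
  neg_mem' {a} ha := ⟨fun g hg => by rw [smul_neg, ha.1 g hg], fun q _ hq g => by
    rw [toMul_neg, Units.val_inv_eq_inv_val, map_inv₀, map_inv₀, norm_inv, ha.2 q hq g, inv_one]⟩

theorem IsSUnitBar.smul {S : Finset Nat.Primes} {x : Lx Qbar} (hx : IsSUnitBar S x) (h : GalQ) :
    IsSUnitBar S (h • x) := fun q _ hq g => hx q hq (g * h)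

section Field

variable {S : Finset Nat.Primes} (E : IntermediateField ℚ Qbar) [FiniteDimensional ℚ E]
  [NumberField E] (hE : (galLevels ℚ Qbar).ok E.fixingSubgroup)

/-- `S`-units of a number field have absolute value one outside `S`. -/
theorem mem_sUnit_iff_isSUnitBar (x : Eˣ) : x ∈ Global.sUnit E (Places.placesS E S hE) ↔
    IsSUnitBar S (Places.globalUnit E (Additive.ofMul x) : Lx Qbar) := by
  constructor
  · intro hx q _ hq g
    refine Places.norm_apply_eq_one q (τ := Places.twistEmb q E g) (hx _ fun hmem => ?_)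
    obtain ⟨r, hr, hrv⟩ := (Places.mem_placesS E hE).1 hmem
    obtain rfl : (⟨q, Fact.out⟩ : Nat.Primes) = r := Subtype.ext
      (Places.eq_of_natCast_mem Fact.out r.2 (Places.natCast_mem_placeOf q _) hrv)
    exact hq hr
  · intro hx v hv
    obtain ⟨q, hq, hqv⟩ := Places.exists_prime_natCast_mem v
    have : Fact q.Prime := ⟨hq⟩
    have hqS : (⟨q, Fact.out⟩ : Nat.Primes) ∉ S := fun h =>
      hv ((Places.mem_placesS E hE).2 ⟨_, h, hqv⟩)
    obtain ⟨τ, rfl⟩ := Places.exists_placeOf_eq q v hqv
    obtain ⟨g, rfl⟩ := Places.exists_twistEmb_eq q E τ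
    have h1 : ‖Places.twistEmb q E g (x : E)‖ = 1 := hx q hqS g
    refine le_antisymm ((Places.valuation_le_one_iff_norm q _ _).2 h1.le) (not_lt.1 fun h => ?_)
    exact absurd ((Places.valuation_lt_one_iff_norm q _ _).1 h) (by rw [h1]; exact lt_irrefl _)

/-- The `S`-units of a number field inside those of `ℚ̄`. -/
def sUnitEquiv : Additive (Global.sUnit E (Places.placesS E S hE)) ≃+
    unitsAtLevel S E.fixingSubgroup :=
  AddEquiv.ofBijective
    (AddMonoidHom.mk'
      (fun u => (⟨(Places.globalUnit E (Additive.ofMul (u.toMul : Eˣ)) : Lx Qbar),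
        fun g hg => (Places.globalUnit E _).2 ⟨g, hg⟩,
        (mem_sUnit_iff_isSUnitBar E hE _).1 u.toMul.2⟩ : unitsAtLevel S E.fixingSubgroup))
      fun u v => Subtype.ext (Additive.toMul.injective (Units.ext rfl)))
    ⟨fun u v h => by
      have h1 := congrArg (fun y : unitsAtLevel S E.fixingSubgroup =>
        (((y : Lx Qbar).toMul : Qbarˣ) : Qbar)) h
      exact Additive.toMul.injective (Subtype.ext (Units.ext (Subtype.ext h1))),
    fun y => by
      have hmem : (((y : Lx Qbar).toMul : Qbarˣ) : Qbar) ∈ E := by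
        have : IsGalois ℚ Qbar := Fermat.Agent.Gal.isGalois_rat_qbar
        refine (InfiniteGalois.fixedField_fixingSubgroup E).le fun s => ?_
        exact congrArg (fun w : Lx Qbar => ((w.toMul : Qbarˣ) : Qbar)) (y.2.1 _ s.2)
      have h0 : (⟨_, hmem⟩ : E) ≠ 0 := fun h => (y : Lx Qbar).toMul.ne_zero (congrArg Subtype.val h)
      have hy : (Places.globalUnit E (Additive.ofMul (Units.mk0 _ h0)) : Lx Qbar) = y :=
        Additive.toMul.injective (Units.ext rfl)
      exact ⟨Additive.ofMul ⟨Units.mk0 _ h0,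
          (mem_sUnit_iff_isSUnitBar E hE _).2 (by rw [hy]; exact y.2.2)⟩,
        Subtype.ext hy⟩⟩

theorem finrank_unitsAtLevel :
    (Module.finrank ℤ (unitsAtLevel S E.fixingSubgroup) : ℤ) =
      Fintype.card (InfinitePlace E) + (Places.placesS E S hE).card - 1 := by
  rw [← (sUnitEquiv E hE).toIntLinearEquiv.finrank_eq, Global.finrank_sUnit, Units.rank]
  have := Fintype.card_pos (α := InfinitePlace E)
  omega

variable {H : Subgroup GalQ} (M : Subgroup H) (hM : M.map H.subtype = E.fixingSubgroup)

include hM in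
omit [FiniteDimensional ℚ E] [NumberField E] in
theorem mem_fixingSubgroup_of_layer (m : M) : ((m : H) : GalQ) ∈ E.fixingSubgroup :=
  hM ▸ ⟨(m : H), m.2, rfl⟩

include hM in
omit [FiniteDimensional ℚ E] [NumberField E] in
theorem exists_layer_eq {s : GalQ} (hs : s ∈ E.fixingSubgroup) :
    ∃ m : M, ((m : H) : GalQ) = s := by
  rw [← hM] at hs
  obtain ⟨n, hn, rfl⟩ := hs
  exact ⟨⟨n, hn⟩, rfl⟩

include hM in
/-- **The places over `S` are double cosets.** -/
theorem natCard_placeSet_finite :
    Nat.card (PlaceSet (locφ S) M) = (Places.placesS E S hE).card := by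
  classical
  let f : PlaceSet (locφ S) M → Places.placesS E S hE := fun y => Quotient.liftOn y.2
    (fun g : GalQ => (⟨Places.placeOf (y.1.1 : ℕ) (Places.twistEmb (y.1.1 : ℕ) E g),
      (Places.mem_placesS E hE).2 ⟨y.1.1, y.1.2, Places.natCast_mem_placeOf _ _⟩⟩ :
        Places.placesS E S hE))
    (fun g g' ⟨d, m, h⟩ => Subtype.ext ((Places.placeOf_twistEmb_eq_iff _ E g g').2 ⟨d⁻¹, by
      rw [← h, map_inv]
      convert mem_fixingSubgroup_of_layer E M hM m using 1
      group⟩))
  refine (Nat.card_congr (Equiv.ofBijective f ⟨?_, ?_⟩)).trans (by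
    rw [Nat.card_eq_fintype_card, Fintype.card_coe])
  · rintro ⟨r, y⟩ ⟨r', y'⟩
    induction y using Quotient.inductionOn with | _ g => ?_
    induction y' using Quotient.inductionOn with | _ g' => ?_
    intro h
    have h' : Places.placeOf (r.1 : ℕ) (Places.twistEmb (r.1 : ℕ) E g) =
        Places.placeOf (r'.1 : ℕ) (Places.twistEmb (r'.1 : ℕ) E g') := congrArg Subtype.val h
    have h1 := Places.natCast_mem_placeOf (r.1 : ℕ) (Places.twistEmb (r.1 : ℕ) E g)
    rw [h'] at h1
    obtain rfl : r = r' := Subtype.ext (Subtype.ext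
      (Places.eq_of_natCast_mem r.1.2 r'.1.2 h1 (Places.natCast_mem_placeOf _ _)))
    obtain ⟨d, hd⟩ := (Places.placeOf_twistEmb_eq_iff _ E g g').1 h'
    obtain ⟨m, hm⟩ := exists_layer_eq E M hM hd
    refine congrArg (Sigma.mk r) (Quotient.sound ⟨d⁻¹, m, ?_⟩)
    rw [hm, map_inv]
    group
  · rintro ⟨v, hv⟩
    obtain ⟨r, hr, hrv⟩ := (Places.mem_placesS E hE).1 hv
    have : Fact (r : ℕ).Prime := ⟨r.2⟩
    obtain ⟨τ, rfl⟩ := Places.exists_placeOf_eq (r : ℕ) v hrv
    obtain ⟨g, rfl⟩ := Places.exists_twistEmb_eq (r : ℕ) E τ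
    exact ⟨PlaceSet.mk (locφ S) M ⟨r, hr⟩ g, rfl⟩

omit [NumberField E] in
/-- Complex embeddings are twists of the chosen one. -/
theorem exists_complexEmbedding_eq (σ : E →+* ℂ) :
    ∃ g : GalQ, ∀ x : E, complexEmbedding (g (x : Qbar)) = σ x := by
  have : Normal ℚ Qbar := Fermat.Agent.Gal.isGalois_rat_qbar.to_normal
  let σ' : E →ₐ[ℚ] ℂ := σ.toRatAlgHom
  have hmem : ∀ x : E, σ' x ∈ complexEmbedding.range := by
    intro x
    have hroot : σ' x ∈ ((minpoly ℚ x).map (algebraMap ℚ ℂ)).roots := by
      rw [Polynomial.mem_roots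
        ((minpoly.monic (Algebra.IsIntegral.isIntegral x)).map _).ne_zero, Polynomial.IsRoot.def,
        Polynomial.eval_map, ← Polynomial.aeval_def, Polynomial.aeval_algHom_apply, minpoly.aeval,
        map_zero]
    rw [show algebraMap ℚ ℂ = (complexEmbedding : Qbar →+* ℂ).comp (algebraMap ℚ Qbar) from
      Subsingleton.elim _ _, ← Polynomial.map_map,
      Polynomial.Splits.roots_map (IsAlgClosed.splits _), Multiset.mem_map] at hroot
    obtain ⟨a, -, ha⟩ := hroot
    exact ⟨a, ha⟩
  let σ₀ : E →ₐ[ℚ] Qbar := (AlgEquiv.ofInjectiveField complexEmbedding).symm.toAlgHom.comp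
    (AlgHom.codRestrict σ' complexEmbedding.range hmem)
  have hσ₀ : ∀ x : E, complexEmbedding (σ₀ x) = σ x := fun x => congrArg Subtype.val
    ((AlgEquiv.ofInjectiveField complexEmbedding).apply_symm_apply
      (AlgHom.codRestrict σ' complexEmbedding.range hmem x))
  let s : Qbar →ₐ[ℚ] Qbar := σ₀.liftNormal Qbar
  refine ⟨AlgEquiv.ofBijective s (Algebra.IsAlgebraic.algHom_bijective s), fun x => ?_⟩
  rw [← hσ₀]
  exact congrArg complexEmbedding (AlgHom.liftNormal_commutes σ₀ Qbar x)

include hM in
/-- **The infinite places are double cosets.** -/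
theorem natCard_placeSet_inf :
    Nat.card (InfSet complexConjugation M) = Fintype.card (InfinitePlace E) := by
  classical
  let emb : GalQ → (E →+* ℂ) := fun g =>
    ((complexEmbedding.comp g.toAlgHom).comp E.val).toRingHom
  have hemb : ∀ g (x : E), emb g x = complexEmbedding (g (x : Qbar)) := fun g x => rfl
  have heq : ∀ g g', emb g = emb g' ↔ g⁻¹ * g' ∈ E.fixingSubgroup := fun g g' => by
    rw [IntermediateField.mem_fixingSubgroup_iff, RingHom.ext_iff]
    refine ⟨fun h x hx => ?_, fun h x => ?_⟩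
    · rw [AlgEquiv.mul_apply, AlgEquiv.aut_inv, AlgEquiv.symm_apply_eq]
      exact (complexEmbedding.toRingHom.injective (h ⟨x, hx⟩)).symm
    · rw [hemb, hemb]
      have h1 := h (x : Qbar) x.2
      rw [AlgEquiv.mul_apply, AlgEquiv.aut_inv, AlgEquiv.symm_apply_eq] at h1
      rw [h1]
  have hconj : ∀ g, ComplexEmbedding.conjugate (emb g) = emb (complexConjugation * g) := fun g =>
    RingHom.ext fun x => by
      rw [hemb, AlgEquiv.mul_apply, complexEmbedding_complexConjugation]
      rfl
  have hpow : ∀ d : Subgroup.zpowers complexConjugation,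
      (d : GalQ) = 1 ∨ (d : GalQ) = complexConjugation := by
    rintro ⟨_, n, rfl⟩
    rcases Int.even_or_odd n with ⟨k, rfl⟩ | ⟨k, rfl⟩
    · left
      show complexConjugation ^ (k + k) = 1
      rw [← two_mul, zpow_mul, zpow_ofNat, complexConjugation_sq, one_zpow]
    · right
      show complexConjugation ^ (2 * k + 1) = complexConjugation
      rw [zpow_add, zpow_mul, zpow_ofNat, complexConjugation_sq, one_zpow, one_mul, zpow_one]
  let f : InfSet complexConjugation M → InfinitePlace E := fun y => Quotient.liftOn y.2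
    (fun g : GalQ => InfinitePlace.mk (emb g)) (fun g g' ⟨d, m, h⟩ => by
      subst h
      refine InfinitePlace.mk_eq_iff.2 ?_
      rcases hpow d with hd | hd
      · refine Or.inl ((heq _ _).2 ?_)
        show g⁻¹ * ((d : GalQ) * g * _) ∈ _
        rw [hd, one_mul, inv_mul_cancel_left]
        exact mem_fixingSubgroup_of_layer E M hM m
      · refine Or.inr ((hconj g).trans ((heq _ _).2 ?_))
        show (complexConjugation * g)⁻¹ * ((d : GalQ) * g * _) ∈ _
        rw [hd, inv_mul_cancel_left]
        exact mem_fixingSubgroup_of_layer E M hM m)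
  refine (Nat.card_congr (Equiv.ofBijective f ⟨?_, ?_⟩)).trans Nat.card_eq_fintype_card
  · rintro ⟨i, y⟩ ⟨j, y'⟩
    induction y using Quotient.inductionOn with | _ g => ?_
    induction y' using Quotient.inductionOn with | _ g' => ?_
    intro h
    refine congrArg (Sigma.mk ()) (Quotient.sound ?_)
    rcases InfinitePlace.mk_eq_iff.1 h with he | he
    · obtain ⟨m, hm⟩ := exists_layer_eq E M hM ((heq _ _).1 he)
      exact ⟨1, m, by rw [map_one, one_mul, hm, mul_inv_cancel_left]⟩
    · rw [hconj] at he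
      obtain ⟨m, hm⟩ := exists_layer_eq E M hM ((heq _ _).1 he)
      refine ⟨⟨complexConjugation, Subgroup.mem_zpowers _⟩, m, ?_⟩
      show complexConjugation * g * ((m : H) : GalQ) = g'
      rw [hm, mul_inv_cancel_left]
  · intro w
    obtain ⟨g, hg⟩ := exists_complexEmbedding_eq E w.embedding
    refine ⟨PlaceSet.mk (archHom complexConjugation) M () g, ?_⟩
    show InfinitePlace.mk (emb g) = w
    rw [show emb g = w.embedding from RingHom.ext fun x => (hemb g x).trans (hg x),
      InfinitePlace.mk_embedding]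

end Field

section Orbits

variable {G : Type} [Group G] {H : Subgroup G} (N : Subgroup H) [N.Normal] {I : Type}
  {D : I → Type} [∀ i, Group (D i)] (φ : ∀ i, D i →* G)

/-- **Orbits of a cyclic group on the places of a layer.** -/
theorem natCard_orbits_placeSet (h : H) :
    Nat.card (MulAction.orbitRel.Quotient (Subgroup.zpowers (h : H ⧸ N)) (PlaceSet φ N)) =
      Nat.card (PlaceSet φ (N ⊔ Subgroup.zpowers h)) := by
  let π : PlaceSet φ N → PlaceSet φ (N ⊔ Subgroup.zpowers h) := fun y =>
    ⟨y.1, Quotient.map (sa := dcSetoid (φ y.1) N) (sb := dcSetoid (φ y.1) (N ⊔ Subgroup.zpowers h))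
      id (fun g g' ⟨d, n, he⟩ =>
      ⟨d, ⟨(n : H), Subgroup.mem_sup_left n.2⟩, he⟩) y.2⟩
  have hπ : ∀ (k : ℤ) (y : PlaceSet φ N), π ((h : H ⧸ N) ^ k • y) = π y := by
    intro k y
    rw [← QuotientGroup.mk_zpow, placeSet_mk_smul]
    obtain ⟨i, y⟩ := y
    induction y using Quotient.inductionOn with | _ g => ?_
    refine congrArg (Sigma.mk i) (Quotient.sound ⟨1, ⟨h ^ k, Subgroup.mem_sup_right ⟨k, rfl⟩⟩, ?_⟩)
    show φ i 1 * (g * ((h ^ k : H) : G)⁻¹) * ((h ^ k : H) : G) = g
    simp
  let f : MulAction.orbitRel.Quotient (Subgroup.zpowers (h : H ⧸ N)) (PlaceSet φ N) →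
      PlaceSet φ (N ⊔ Subgroup.zpowers h) := Quotient.lift π fun a b hab => by
    obtain ⟨⟨z, k, rfl⟩, rfl⟩ := hab
    exact hπ k b
  refine Nat.card_congr (Equiv.ofBijective f ⟨fun a b => ?_, fun y => ?_⟩)
  · induction a using Quotient.inductionOn with | _ a => ?_
    induction b using Quotient.inductionOn with | _ b => ?_
    obtain ⟨i, a⟩ := a
    obtain ⟨j, b⟩ := b
    induction a using Quotient.inductionOn with | _ g => ?_
    induction b using Quotient.inductionOn with | _ g' => ?_
    intro he
    obtain ⟨rfl, he⟩ := Sigma.mk.inj_iff.1 he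
    obtain ⟨d, m, hm⟩ := Quotient.exact (eq_of_heq he)
    obtain ⟨n, hn, w, ⟨k, rfl⟩, hnw⟩ := Subgroup.mem_sup_of_normal_left.1 m.2
    refine Quotient.sound ⟨⟨(h : H ⧸ N) ^ k, k, rfl⟩, ?_⟩
    show (h : H ⧸ N) ^ k • PlaceSet.mk φ N i g' = PlaceSet.mk φ N i g
    rw [← QuotientGroup.mk_zpow, placeSet_mk_smul, PlaceSet.mk_smul]
    refine congrArg (Sigma.mk i) (DC.mk_eq.mpr ?_)
    refine ⟨d⁻¹, (⟨n, hn⟩ : N)⁻¹, ?_⟩
    simp only [id] at hm
    rw [← hm, ← hnw]
    simp [mul_assoc]
  · obtain ⟨i, y⟩ := y
    induction y using Quotient.inductionOn with | _ g => ?_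
    exact ⟨Quotient.mk'' (PlaceSet.mk φ N i g), rfl⟩

end Orbits

section Layer

variable (S : Finset Nat.Primes) {H : Subgroup GalQ} (N : Subgroup H) [N.Normal]

/-- The `S`-units of the field of a layer. -/
def LayerUnits : Type := unitsAtLevel S (N.map H.subtype)

instance addCommGroupLayerUnits : AddCommGroup (LayerUnits S N) :=
  inferInstanceAs (AddCommGroup (unitsAtLevel S (N.map H.subtype)))

/-- The underlying unit. -/
def layerVal : LayerUnits S N →+ Lx Qbar := (unitsAtLevel S (N.map H.subtype)).subtype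

omit [N.Normal] in
theorem layerVal_injective : Function.Injective (layerVal S N) :=
  (unitsAtLevel S (N.map H.subtype)).subtype_injective

/-- The action of an element of `H`. -/
def layerSMul (h : H) (x : LayerUnits S N) : LayerUnits S N :=
  (⟨(h : GalQ) • layerVal S N x, by
    refine ⟨?_, x.2.2.smul _⟩
    rintro _ ⟨n, hn, rfl⟩
    have h1 := x.2.1 _ (Subgroup.mem_map_of_mem H.subtype
      ((inferInstance : N.Normal).conj_mem n hn h⁻¹))
    show (n : GalQ) • (h : GalQ) • (x : unitsAtLevel S (N.map H.subtype)).1 = (h : GalQ) • _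
    refine Eq.trans ?_ (congrArg ((h : GalQ) • ·) h1)
    show (n : GalQ) • (h : GalQ) • _ = (h : GalQ) • ((h⁻¹ * n * h⁻¹⁻¹ : H) : GalQ) • _
    rw [smul_smul, smul_smul]
    refine congrArg (fun w : GalQ => w • (x : unitsAtLevel S (N.map H.subtype)).1) ?_
    simp [mul_assoc]⟩ : unitsAtLevel S (N.map H.subtype))

theorem layerVal_layerSMul (h : H) (x : LayerUnits S N) :
    layerVal S N (layerSMul S N h x) = (h : GalQ) • layerVal S N x := rfl

theorem layerSMul_fix {n : H} (hn : n ∈ N) (x : LayerUnits S N) : layerSMul S N n x = x :=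
  layerVal_injective S N (x.2.1 _ (Subgroup.mem_map_of_mem _ hn))

/-- The action of `H / N`. -/
instance layerAction : DistribMulAction (H ⧸ N) (LayerUnits S N) where
  smul x u := Quotient.liftOn' x (fun h : H => layerSMul S N h u) fun a b hab => by
    rw [QuotientGroup.leftRel_apply] at hab
    refine layerVal_injective S N ?_
    rw [layerVal_layerSMul, layerVal_layerSMul,
        show (b : GalQ) = (a : GalQ) * ((a⁻¹ * b : H) : GalQ)
      by simp, mul_smul]
    exact congrArg ((a : GalQ) • ·) (congrArg (layerVal S N) (layerSMul_fix S N hab u)).symm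
  one_smul u := layerVal_injective S N (one_smul GalQ (layerVal S N u))
  mul_smul x y u := by
    induction x using Quotient.inductionOn' with | _ a => ?_
    induction y using Quotient.inductionOn' with | _ b => ?_
    exact layerVal_injective S N (mul_smul (a : GalQ) (b : GalQ) (layerVal S N u))
  smul_zero x := by
    induction x using Quotient.inductionOn' with | _ a => ?_
    exact layerVal_injective S N (smul_zero (a : GalQ))
  smul_add x u v := by
    induction x using Quotient.inductionOn' with | _ a => ?_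
    exact layerVal_injective S N (smul_add (a : GalQ) (layerVal S N u) (layerVal S N v))

theorem layerVal_smul (h : H) (u : LayerUnits S N) :
    layerVal S N ((h : H ⧸ N) • u) = (h : GalQ) • layerVal S N u := rfl

variable {S N}

/-- A level of an `S`-level is the subgroup of a number field unramified outside `S`. -/
theorem exists_field_eq {U : Subgroup GalQ} (hU : (galLevelsS S).ok U) :
    ∃ E : IntermediateField ℚ Qbar, FiniteDimensional ℚ E ∧ E.fixingSubgroup = U ∧
      E.IsUnramifiedOutside S := by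
  obtain ⟨E, hE, rfl⟩ := exists_eq_fixingSubgroup (galLevels_ok_of_galLevelsS hU)
  obtain ⟨F, hF, hle⟩ := hU
  exact ⟨E, hE, rfl, hE, fun q hq A hA => (hF.2 q hq A hA).trans hle⟩

variable (S N) in
omit [N.Normal] in
theorem layerUnits_module_finite (hN : (galLevelsS S).ok (N.map H.subtype)) :
    Module.Finite ℤ (LayerUnits S N) := by
  obtain ⟨E, hE, hEN, -⟩ := exists_field_eq hN
  have := hE
  have : NumberField E := ⟨⟩
  have e : LayerUnits S N ≃+ unitsAtLevel S E.fixingSubgroup :=
    AddEquiv.cast (M := fun M => ↥(unitsAtLevel S M)) hEN.symm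
  exact Module.Finite.equiv
    ((sUnitEquiv E (galLevels_ok_fixingSubgroup E)).trans e.symm).toIntLinearEquiv

/-- **The rank of the fixed units of a cyclic group.** -/
theorem finrank_fixAt_layerUnits (hN : (galLevelsS S).ok (N.map H.subtype)) (x : H ⧸ N) :
    (Module.finrank ℤ (fixAt x (LayerUnits S N)).toIntSubmodule : ℤ) =
      (Nat.card (MulAction.orbitRel.Quotient (Subgroup.zpowers x)
        (InfSet complexConjugation N)) : ℤ) +
      (Nat.card (MulAction.orbitRel.Quotient (Subgroup.zpowers x)
        (PlaceSet (locφ S) N)) : ℤ) - 1 := by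
  obtain ⟨h, rfl⟩ := QuotientGroup.mk_surjective x
  set M := N ⊔ Subgroup.zpowers h
  have hle : N.map H.subtype ≤ M.map H.subtype := Subgroup.map_mono le_sup_left
  obtain ⟨E, hE, hEM, -⟩ := exists_field_eq ((galLevelsS S).mono hN hle)
  have := hE
  have : NumberField E := ⟨⟩
  have hEok := galLevels_ok_fixingSubgroup E
  rw [natCard_orbits_placeSet N (archHom complexConjugation) h,
    natCard_orbits_placeSet N (locφ S) h,
    natCard_placeSet_inf E M hEM.symm, natCard_placeSet_finite E hEok M hEM.symm,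
    ← finrank_unitsAtLevel E hEok]
  let e : fixAt (h : H ⧸ N) (LayerUnits S N) ≃+ unitsAtLevel S E.fixingSubgroup :=
    { toFun := fun u => ⟨layerVal S N u, fun g hg => by
          let St : Subgroup GalQ := MulAction.stabilizer GalQ (layerVal S N u)
          suffices hh : M.map H.subtype ≤ St from hh (hEM ▸ hg)
          rw [Subgroup.map_le_iff_le_comap, sup_le_iff, Subgroup.zpowers_le]
          exact ⟨fun n hn => u.1.2.1 _ (Subgroup.mem_map_of_mem _ hn),
            (layerVal_smul S N h u).symm.trans (congrArg (layerVal S N) u.2)⟩,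
        u.1.2.2⟩
      invFun := fun w => ⟨(⟨w.1, fun g hg => w.2.1 g (hEM ▸ hle hg), w.2.2⟩ :
          unitsAtLevel S (N.map H.subtype)), layerVal_injective S N
            (w.2.1 _ (hEM ▸ Subgroup.mem_map_of_mem H.subtype
              (Subgroup.mem_sup_right (Subgroup.mem_zpowers h))))⟩
      left_inv := fun u => rfl
      right_inv := fun w => rfl
      map_add' := fun u v => rfl }
  exact_mod_cast e.toIntLinearEquiv.finrank_eq

end Layer

end Fermat.Agent.EulerChar

end
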